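import Fermat.Agent.Lib.RiemannRoch.DegBound
import Fermat.Agent.S24.PrincipalDiv

/-!
# The degree of a principal divisor is zero (characteristic free)

For an arbitrary field `K` and a function field `F / K` (some `x : F` transcendental with
`F / K(x)` finite) we prove, following Stichtenoth 1.4.11, that every transcendental `f : F` has
`deg (f)_∞ = [F : K(f)]`, hence `deg (f) = 0`: the class `HasPrincipalDivisors K F`.

The inputs are: all residue fields are finite over `K`, there is at least one place, every
nonzero function has finitely many zeros and poles, and `L(0)` is finite dimensional.  No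
hypothesis on the characteristic and no separability is used here.
-/

set_option autoImplicit false
set_option linter.unusedSectionVars false

noncomputable section

open AlgebraicCurve WithZero Module IntermediateField Polynomial

namespace Fermat.Agent.Lib.RiemannRoch.FunctionFieldDeg

open Fermat.Agent.Lib.RiemannRoch

variable {K F : Type*} [Field K] [Field F] [Algebra K F]

theorem riemannRochSpace_mono {D D' : Divisor K F} (h : D ≤ D') :
    riemannRochSpace D ≤ riemannRochSpace D' := fun _ hf v =>
  (hf v).trans (exp_le_exp.mpr (h v))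

variable [∀ v : Place K F, v.FiniteResidue] [Nonempty (Place K F)]

/-- `dim L(D') ≤ dim L(D) + deg D' - deg D` for `D ≤ D'`, without `HasPrincipalDivisors`. -/
theorem finite_and_finrank_le {D D' : Divisor K F} (h : D ≤ D')
    [Module.Finite K (riemannRochSpace D)] :
    Module.Finite K (riemannRochSpace D') ∧
      (finrank K (riemannRochSpace D') : ℤ) ≤
        finrank K (riemannRochSpace D) + (Divisor.degree D' - Divisor.degree D) := by
  obtain ⟨hf1, hd1⟩ := dimClaim_of_le h
  have hf2 : Module.Finite K ↥(repartitionsOf D ⊓ principalRepartitions K F) :=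
    Module.Finite.equiv (riemannRochEquiv D)
  obtain ⟨hf3, hf4, heq⟩ := sixTerm (repartitionsOf D) (repartitionsOf D')
    (principalRepartitions K F) (repartitionsOf_mono h)
  refine ⟨Module.Finite.equiv (riemannRochEquiv D').symm, ?_⟩
  rw [(riemannRochEquiv D').finrank_eq, (riemannRochEquiv D).finrank_eq, ← hd1]
  have : (finrank K ↥(repartitionsOf D' ⊓ principalRepartitions K F) : ℤ) ≤
      finrank K (RelQ (repartitionsOf D) (repartitionsOf D')) +
        finrank K ↥(repartitionsOf D ⊓ principalRepartitions K F) := by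
    have : finrank K ↥(repartitionsOf D' ⊓ principalRepartitions K F) ≤
        finrank K (RelQ (repartitionsOf D) (repartitionsOf D')) +
          finrank K ↥(repartitionsOf D ⊓ principalRepartitions K F) := by omega
    exact_mod_cast this
  linarith

/-- All `L(D)` are finite dimensional as soon as `L(0)` is. -/
theorem finite_riemannRochSpace_of_zero
    (h0 : Module.Finite K (riemannRochSpace (0 : Divisor K F))) (D : Divisor K F) :
    Module.Finite K (riemannRochSpace D) := by
  have h1 : Module.Finite K (riemannRochSpace (D ⊓ 0)) :=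
    Module.Finite.of_injective (Submodule.inclusion (riemannRochSpace_mono inf_le_right))
      (Submodule.inclusion_injective _)
  exact (finite_and_finrank_le (inf_le_left : D ⊓ 0 ≤ D)).1

/-- `dim L(D) ≤ dim L(0) + deg D` for `D ≥ 0`. -/
theorem finrank_le_of_nonneg (h0 : Module.Finite K (riemannRochSpace (0 : Divisor K F)))
    {D : Divisor K F} (hD : 0 ≤ D) :
    (finrank K (riemannRochSpace D) : ℤ) ≤
      finrank K (riemannRochSpace (0 : Divisor K F)) + Divisor.degree D := by
  have := (finite_and_finrank_le hD).2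
  simpa using this

section lower

variable (x : F) [FiniteDimensional K⟮x⟯ F]

/-- The basis of `F / K(x)` lies in `L(C)` for some `C ≥ 0`, if all functions have finitely many
poles. -/
theorem exists_basis_mem' (hdiv : ∀ f : F, f ≠ 0 → ∃ D : Divisor K F, ∀ v, D v = v.ord f) :
    ∃ C : Divisor K F, 0 ≤ C ∧ ∀ j, (Module.finBasis K⟮x⟯ F j : F) ∈ riemannRochSpace C := by
  have h : ∀ j, ∃ Cj : Divisor K F, 0 ≤ Cj ∧
      (Module.finBasis K⟮x⟯ F j : F) ∈ riemannRochSpace Cj := by
    intro j
    have hne : (Module.finBasis K⟮x⟯ F j : F) ≠ 0 := (Module.finBasis K⟮x⟯ F).ne_zero j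
    obtain ⟨D, hD⟩ := hdiv _ hne
    refine ⟨0 ⊔ -D, le_sup_left, ?_⟩
    rw [mem_riemannRochSpace_iff]
    intro v
    right
    rw [Finsupp.sup_apply, Finsupp.neg_apply, hD v]
    simp only [Finsupp.coe_zero, Pi.zero_apply]
    have := le_max_right 0 (-(v.ord (Module.finBasis K⟮x⟯ F j : F)))
    omega
  choose Cj h0 hC using h
  refine ⟨∑ j, Cj j, Finset.sum_nonneg fun j _ => h0 j, fun j => ?_⟩
  have hle : Cj j ≤ ∑ j, Cj j :=
    Finset.single_le_sum (f := Cj) (fun i _ => h0 i) (Finset.mem_univ j)
  exact riemannRochSpace_mono hle (hC j)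

/-- The lower bound `[F : K(x)] (l + 1) ≤ dim L(l B + C)`. -/
theorem le_finrank (hx : Transcendental K x) {B C : Divisor K F}
    (hB : ∀ v : Place K F, B v = max 0 (-(v.ord x)))
    (hC : ∀ j, (Module.finBasis K⟮x⟯ F j : F) ∈ riemannRochSpace C) (l : ℕ)
    [Module.Finite K (riemannRochSpace (l • B + C))] :
    finrank K⟮x⟯ F * (l + 1) ≤ finrank K (riemannRochSpace (l • B + C)) := by
  have hx0 : x ≠ 0 := by
    rintro rfl
    exact hx (isAlgebraic_zero)
  have hrange : ∀ p, polyMap (K := K) x l p ∈ riemannRochSpace (l • B + C) := by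
    intro p
    rw [polyMap_apply]
    refine Submodule.sum_mem _ fun j _ => ?_
    intro v
    rw [map_mul, Finsupp.add_apply, Finsupp.smul_apply, nsmul_eq_mul, exp_add]
    have hb0 : 0 ≤ B v := by rw [hB]; exact le_max_left _ _
    have hb : v.adicValuation x ≤ exp (B v) := by
      rw [v.adicValuation_eq_exp_neg_ord hx0, exp_le_exp, hB]
      exact le_max_right _ _
    gcongr
    · exact adicValuation_aeval_le v x hb0 hb (p j).2
    · exact hC j v
  have hinj : Function.Injective ((polyMap (K := K) x l).codRestrict _ hrange) := fun p q h =>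
    polyMap_injective x hx l (congrArg Subtype.val h)
  have := LinearMap.finrank_le_finrank_of_injective hinj
  rwa [finrank_polyMap_domain] at this

/-- **Stichtenoth 1.4.11**, lower bound: `[F : K(x)] ≤ deg (x)_∞`. -/
theorem finrank_le_degree_poles (hx : Transcendental K x)
    (h0 : Module.Finite K (riemannRochSpace (0 : Divisor K F)))
    (hdiv : ∀ f : F, f ≠ 0 → ∃ D : Divisor K F, ∀ v, D v = v.ord f)
    {B : Divisor K F} (hB : ∀ v : Place K F, B v = max 0 (-(v.ord x))) :
    (finrank K⟮x⟯ F : ℤ) ≤ Divisor.degree B := by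
  obtain ⟨C, hC0, hC⟩ := exists_basis_mem' x hdiv
  have hB0 : 0 ≤ B := fun v => by rw [hB]; exact le_max_left _ _
  set n : ℤ := (finrank K⟮x⟯ F : ℤ) with hn
  set c : ℤ := finrank K (riemannRochSpace (0 : Divisor K F)) + Divisor.degree C with hc
  have hc0 : 0 ≤ c := by
    have := degree_nonneg hC0
    positivity
  have key : ∀ l : ℕ, n * (l + 1) ≤ c + l * Divisor.degree B := by
    intro l
    have hfin := finite_riemannRochSpace_of_zero h0 (l • B + C)
    have h1 := le_finrank x hx hB hC l
    have hnn : 0 ≤ l • B + C := add_nonneg (smul_nonneg (Nat.zero_le l) hB0) hC0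
    have h2 := finrank_le_of_nonneg h0 hnn
    rw [map_add, map_nsmul, nsmul_eq_mul] at h2
    have h1' : n * (l + 1) ≤ finrank K (riemannRochSpace (l • B + C)) := by
      rw [hn]
      exact_mod_cast h1
    linarith
  by_contra hcon
  rw [not_le] at hcon
  have h := key (c.toNat + 1)
  have hcn : ((c.toNat + 1 : ℕ) : ℤ) = c + 1 := by
    push_cast
    rw [Int.toNat_of_nonneg hc0]
  rw [hcn] at h
  have hdeg : Divisor.degree B ≤ n - 1 := by omega
  have hn0 : 0 ≤ n := by rw [hn]; exact Int.natCast_nonneg _
  nlinarith

end lower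

section principal

open Fermat.Agent.Lib.RiemannRoch.DegBound

/-- `deg (f)_∞ = [F : K(f)]` for a transcendental `f`. -/
theorem degree_poles_eq_finrank (f : F) (hf : Transcendental K f) [FiniteDimensional K⟮f⟯ F]
    (h0 : Module.Finite K (riemannRochSpace (0 : Divisor K F)))
    (hdiv : ∀ g : F, g ≠ 0 → ∃ D : Divisor K F, ∀ v, D v = v.ord g)
    {B : Divisor K F} (hB : ∀ v : Place K F, B v = max 0 (-(v.ord f))) :
    Divisor.degree B = finrank K⟮f⟯ F :=
  le_antisymm (degree_le_finrank_of_poles f hB) (finrank_le_degree_poles f hf h0 hdiv hB)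

/-- **Principal divisors have degree zero**, for any function field: `x` transcendental,
`F / K(x)` finite, given that `L(0)` is finite dimensional, every nonzero function has finitely
many zeros and poles, and nonzero algebraic elements have no zeros or poles. -/
theorem hasPrincipalDivisors_of (x : F) [FiniteDimensional K⟮x⟯ F]
    (h0 : Module.Finite K (riemannRochSpace (0 : Divisor K F)))
    (hdiv : ∀ g : F, g ≠ 0 → ∃ D : Divisor K F, ∀ v, D v = v.ord g)
    (halg : ∀ (v : Place K F) (g : F), IsAlgebraic K g → g ≠ 0 → v.ord g = 0) :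
    HasPrincipalDivisors K F := by
  refine ⟨fun f hf0 => ?_⟩
  obtain ⟨D, hD⟩ := hdiv f hf0
  refine ⟨D, hD, ?_⟩
  by_cases hf : IsAlgebraic K f
  · have : D = 0 := by
      ext v
      rw [hD v, halg v f hf hf0]
      rfl
    rw [this, map_zero]
  · have hf' : Transcendental K f := hf
    have hfi : Transcendental K f⁻¹ := Fermat.Agent.S24.PD.transcendental_inv hf'
    have : FiniteDimensional K⟮f⟯ F :=
      Fermat.Agent.S24.PD.finiteDimensional_adjoin_of_transcendental (x := x) hf'
    have : FiniteDimensional K⟮f⁻¹⟯ F :=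
      Fermat.Agent.S24.PD.finiteDimensional_adjoin_of_transcendental (x := x) hfi
    have hBm : ∀ v : Place K F, (0 ⊔ -D) v = max 0 (-(v.ord f)) := fun v => by
      rw [Finsupp.sup_apply, Finsupp.neg_apply, hD v]
      rfl
    have hBp : ∀ v : Place K F, (0 ⊔ D) v = max 0 (-(v.ord f⁻¹)) := fun v => by
      rw [Finsupp.sup_apply, hD v, Place.ord_inv, neg_neg]
      rfl
    have h1 := degree_poles_eq_finrank f hf' h0 hdiv hBm
    have h2 := degree_poles_eq_finrank f⁻¹ hfi h0 hdiv hBp
    have hfr : finrank K⟮f⁻¹⟯ F = finrank K⟮f⟯ F := by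
      rw [adjoin_simple_inv]
    have hsplit : D = (0 ⊔ D) - (0 ⊔ -D) := by
      ext v
      rw [Finsupp.sub_apply, Finsupp.sup_apply, Finsupp.sup_apply, Finsupp.neg_apply]
      simp only [Finsupp.coe_zero, Pi.zero_apply]
      rcases le_total 0 (D v) with h | h
      · rw [sup_eq_right.mpr h, sup_eq_left.mpr (by omega)]
        ring
      · rw [sup_eq_left.mpr h, sup_eq_right.mpr (by omega)]
        ring
    rw [hsplit, map_sub, h1, h2, hfr, sub_self]

end principal

end Fermat.Agent.Lib.RiemannRoch.FunctionFieldDeg
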