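import Mathlib
import Fermat.Agent.S24.AddVal

/-!
helper32 (RR library, Part I).  **Weak approximation** for the places of a function field, in the
language of the Prelude (`AlgebraicCurve.Place K F`, `Place.ord`).  No hypothesis on `K`, `F`.

* `placeAbs v` : the real absolute value `x ↦ 2 ^ (- ord_v x)`; distinct places give inequivalent
  absolute values, so Mathlib's `AbsoluteValue.denseRange_algebraMap_pi` applies.
* `exists_forall_lt_ord_sub` : `∃ y, ∀ i, y = z i ∨ m < ord_{v i} (y - z i)`.
* `exists_forall_ord_eq` : `∃ y ≠ 0, ∀ i, ord_{v i} y = n i`.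
* `exists_forall_ord_sub_eq` : `∃ y, ∀ i, y - z i ≠ 0 ∧ ord_{v i} (y - z i) = n i`
  (Stichtenoth, Theorem 1.3.1).
* `Finset` versions `exists_forall_mem_*`.
-/

set_option autoImplicit false

open AlgebraicCurve
open scoped Classical

namespace Fermat.Agent.Lib.RiemannRoch.WeakApprox

variable {K F : Type*} [Field K] [Field F] [Algebra K F]

/-- the real absolute value `x ↦ 2 ^ (- ord_v x)` of a place -/
noncomputable def placeAbs (v : Place K F) : AbsoluteValue F ℝ where
  toFun x := if x = 0 then 0 else (2 : ℝ) ^ (-(v.ord x))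
  map_mul' x y := by
    by_cases hx : x = 0
    · simp [hx]
    by_cases hy : y = 0
    · simp [hy]
    have hxy : x * y ≠ 0 := mul_ne_zero hx hy
    simp only [hx, hy, hxy, if_false]
    rw [v.ord_mul hx hy, neg_add, zpow_add₀ (two_ne_zero)]
  nonneg' x := by
    by_cases hx : x = 0
    · simp [hx]
    · simp only [hx, if_false]; positivity
  eq_zero' x := by
    constructor
    · intro h
      by_contra hx
      simp only [hx, if_false] at h
      have : (0 : ℝ) < (2 : ℝ) ^ (-(v.ord x)) := by positivity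
      linarith
    · intro h; simp [h]
  add_le' x y := by
    by_cases hx : x = 0
    · simp [hx]
    by_cases hy : y = 0
    · simp [hy]
    by_cases hxy : x + y = 0
    · simp only [hxy, hx, hy, if_true, if_false]
      positivity
    simp only [hx, hy, hxy, if_false]
    have h := (Fermat.Agent.S24.isAddVal_ord v).map_add x y hx hy hxy
    have h2 : (1 : ℝ) ≤ 2 := by norm_num
    rcases min_le_iff.mp (le_refl (min (v.ord x) (v.ord y))) with h' | h'
    · have : -(v.ord (x + y)) ≤ -(v.ord x) := by omega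
      have h3 := zpow_le_zpow_right₀ h2 this
      have : (0 : ℝ) ≤ (2 : ℝ) ^ (-(v.ord y)) := by positivity
      linarith
    · have : -(v.ord (x + y)) ≤ -(v.ord y) := by omega
      have h3 := zpow_le_zpow_right₀ h2 this
      have : (0 : ℝ) ≤ (2 : ℝ) ^ (-(v.ord x)) := by positivity
      linarith

theorem placeAbs_apply_of_ne_zero (v : Place K F) {x : F} (hx : x ≠ 0) :
    placeAbs v x = (2 : ℝ) ^ (-(v.ord x)) := by
  show (if x = 0 then (0 : ℝ) else (2 : ℝ) ^ (-(v.ord x))) = _
  simp [hx]

theorem placeAbs_lt_iff (v : Place K F) {x : F} (m : ℤ) :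
    placeAbs v x < (2 : ℝ) ^ (-m) ↔ x = 0 ∨ m < v.ord x := by
  by_cases hx : x = 0
  · simp only [hx, map_zero, true_or, iff_true]
    positivity
  · rw [placeAbs_apply_of_ne_zero v hx, zpow_lt_zpow_iff_right₀ (by norm_num : (1 : ℝ) < 2)]
    simp only [hx, false_or]
    omega

theorem placeAbs_le_one_iff (v : Place K F) {x : F} :
    placeAbs v x ≤ 1 ↔ x ∈ v.toValuationSubring := by
  by_cases hx : x = 0
  · simp [hx]
  · rw [placeAbs_apply_of_ne_zero v hx, Fermat.Agent.S24.place_mem_iff_ord_nonneg v hx]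
    rw [← zpow_zero (2 : ℝ), zpow_le_zpow_iff_right₀ (by norm_num : (1 : ℝ) < 2)]
    omega

theorem placeAbs_isNontrivial (v : Place K F) : (placeAbs v).IsNontrivial := by
  obtain ⟨π, hπ⟩ := IsDiscreteValuationRing.exists_irreducible v.toValuationSubring
  have hord := v.ord_coe_irreducible hπ
  have hne : (π : F) ≠ 0 := by
    intro h
    rw [h, Place.ord_zero] at hord
    exact zero_ne_one hord
  refine ⟨(π : F), hne, ?_⟩
  rw [placeAbs_apply_of_ne_zero v hne, hord]
  norm_num

theorem eq_of_placeAbs_isEquiv {v w : Place K F} (h : (placeAbs v).IsEquiv (placeAbs w)) :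
    v = w := by
  apply Place.ext
  ext x
  rw [← placeAbs_le_one_iff, ← placeAbs_le_one_iff]
  have := h x 1
  simpa using this

/-- **Weak approximation** for finitely many distinct places of a function field. -/
theorem exists_forall_lt_ord_sub {ι : Type*} [Finite ι] (v : ι → Place K F)
    (hv : Function.Injective v) (z : ι → F) (m : ℤ) :
    ∃ y : F, ∀ i, y = z i ∨ m < (v i).ord (y - z i) := by
  have hne : Pairwise fun i j => ¬ (placeAbs (v i)).IsEquiv (placeAbs (v j)) := by
    intro i j hij h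
    exact hij (hv (eq_of_placeAbs_isEquiv h))
  have hdense := AbsoluteValue.denseRange_algebraMap_pi
    (v := fun i => placeAbs (v i)) (fun i => placeAbs_isNontrivial (v i)) hne
  have := Fintype.ofFinite ι
  rw [Metric.denseRange_iff] at hdense
  obtain ⟨y, hy⟩ := hdense (fun i => WithAbs.toAbs (placeAbs (v i)) (z i)) ((2 : ℝ) ^ (-m))
    (by positivity)
  refine ⟨y, fun i => ?_⟩
  have hpos : (0 : ℝ) < (2 : ℝ) ^ (-m) := by positivity
  have hi := (dist_pi_lt_iff hpos).mp hy i
  rw [dist_eq_norm] at hi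
  have hnorm : ‖WithAbs.toAbs (placeAbs (v i)) (z i) -
      algebraMap F ((i : ι) → WithAbs (placeAbs (v i))) y i‖ = placeAbs (v i) (z i - y) := by
    rfl
  rw [hnorm] at hi
  have h2 : placeAbs (v i) (y - z i) < (2 : ℝ) ^ (-m) := by
    rwa [← neg_sub, map_neg_eq_map]
  rcases (placeAbs_lt_iff (v i) m).mp h2 with h | h
  · exact Or.inl (sub_eq_zero.mp h)
  · exact Or.inr h

/-- ultrametric equality: if `ord g > ord f` then `ord (f + g) = ord f` -/
theorem ord_add_eq_of_lt (v : Place K F) {f g : F} (hf : f ≠ 0)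
    (h : g = 0 ∨ v.ord f < v.ord g) : v.ord (f + g) = v.ord f := by
  rcases h with rfl | h
  · rw [add_zero]
  by_cases hg : g = 0
  · rw [hg, add_zero]
  exact (Fermat.Agent.S24.isAddVal_ord v).map_add_of_lt hf hg h

/-- an element of prescribed order at a place -/
theorem exists_ord_eq (v : Place K F) (n : ℤ) : ∃ t : F, t ≠ 0 ∧ v.ord t = n := by
  obtain ⟨π, hπ⟩ := IsDiscreteValuationRing.exists_irreducible v.toValuationSubring
  have hord := v.ord_coe_irreducible hπ
  have hne : (π : F) ≠ 0 := by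
    intro h
    rw [h, Place.ord_zero] at hord
    exact zero_ne_one hord
  exact ⟨(π : F) ^ n, zpow_ne_zero n hne, by rw [v.ord_zpow, hord, mul_one]⟩

/-- **Weak approximation, prescribed orders**: for finitely many distinct places `v i` and
integers `n i` there is `y ≠ 0` with `ord_{v i} y = n i` for all `i`. -/
theorem exists_forall_ord_eq {ι : Type*} [Finite ι] (v : ι → Place K F)
    (hv : Function.Injective v) (n : ι → ℤ) :
    ∃ y : F, y ≠ 0 ∧ ∀ i, (v i).ord y = n i := by
  have := Fintype.ofFinite ι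
  rcases isEmpty_or_nonempty ι with hι | hι
  · exact ⟨1, one_ne_zero, fun i => (hι.false i).elim⟩
  choose t ht0 ht using fun i => exists_ord_eq (v i) (n i)
  obtain ⟨m, hm⟩ : ∃ m : ℤ, ∀ i, n i ≤ m :=
    ⟨Finset.univ.sup' Finset.univ_nonempty n, fun i => Finset.le_sup' n (Finset.mem_univ i)⟩
  obtain ⟨y, hy⟩ := exists_forall_lt_ord_sub v hv t m
  have key : ∀ i, (v i).ord y = n i := by
    intro i
    have h1 : y = t i + (y - t i) := by ring
    rw [h1, ord_add_eq_of_lt (v i) (ht0 i), ht i]
    rcases hy i with h | h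
    · exact Or.inl (sub_eq_zero.mpr h)
    · exact Or.inr (by rw [ht i]; exact lt_of_le_of_lt (hm i) h)
  refine ⟨y, ?_, key⟩
  rintro rfl
  obtain ⟨i⟩ := hι
  rcases hy i with h | h
  · exact ht0 i h.symm
  · rw [zero_sub, (Fermat.Agent.S24.isAddVal_ord (v i)).map_neg (ht0 i), ht i] at h
    exact absurd (hm i) (not_le.mpr h)

/-- **Weak approximation** (Stichtenoth 1.3.1): for finitely many distinct places `v i`, elements
`z i` and integers `n i` there is `y` with `ord_{v i} (y - z i) = n i` for all `i`. -/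
theorem exists_forall_ord_sub_eq {ι : Type*} [Finite ι] (v : ι → Place K F)
    (hv : Function.Injective v) (z : ι → F) (n : ι → ℤ) :
    ∃ y : F, ∀ i, y - z i ≠ 0 ∧ (v i).ord (y - z i) = n i := by
  have := Fintype.ofFinite ι
  rcases isEmpty_or_nonempty ι with hι | hι
  · exact ⟨0, fun i => (hι.false i).elim⟩
  obtain ⟨m, hm⟩ : ∃ m : ℤ, ∀ i, n i ≤ m :=
    ⟨Finset.univ.sup' Finset.univ_nonempty n, fun i => Finset.le_sup' n (Finset.mem_univ i)⟩
  obtain ⟨s, hs0, hs⟩ := exists_forall_ord_eq v hv n
  obtain ⟨y₀, hy₀⟩ := exists_forall_lt_ord_sub v hv z m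
  refine ⟨y₀ + s, fun i => ?_⟩
  have h1 : y₀ + s - z i = s + (y₀ - z i) := by ring
  have h2 : (v i).ord (s + (y₀ - z i)) = (v i).ord s := by
    apply ord_add_eq_of_lt (v i) hs0
    rcases hy₀ i with h | h
    · exact Or.inl (sub_eq_zero.mpr h)
    · exact Or.inr (by rw [hs i]; exact lt_of_le_of_lt (hm i) h)
  rw [h1, h2, hs i]
  refine ⟨?_, rfl⟩
  intro h0
  rcases hy₀ i with h | h
  · rw [h, sub_self, add_zero] at h0
    exact hs0 h0
  · have h3 : y₀ - z i = -s := by
      have : s + (y₀ - z i) - s = 0 - s := by rw [h0]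
      simpa using this
    rw [h3, (Fermat.Agent.S24.isAddVal_ord (v i)).map_neg hs0, hs i] at h
    exact absurd (hm i) (not_le.mpr h)

/-! ### `Finset` versions -/

theorem exists_forall_mem_lt_ord_sub (S : Finset (Place K F)) (z : Place K F → F) (m : ℤ) :
    ∃ y : F, ∀ v ∈ S, y = z v ∨ m < v.ord (y - z v) := by
  obtain ⟨y, hy⟩ := exists_forall_lt_ord_sub (fun v : S => (v : Place K F))
    Subtype.val_injective (fun v => z v) m
  exact ⟨y, fun v hv => hy ⟨v, hv⟩⟩

theorem exists_forall_mem_ord_eq (S : Finset (Place K F)) (n : Place K F → ℤ) :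
    ∃ y : F, y ≠ 0 ∧ ∀ v ∈ S, v.ord y = n v := by
  obtain ⟨y, hy0, hy⟩ := exists_forall_ord_eq (fun v : S => (v : Place K F))
    Subtype.val_injective (fun v => n v)
  exact ⟨y, hy0, fun v hv => hy ⟨v, hv⟩⟩

theorem exists_forall_mem_ord_sub_eq (S : Finset (Place K F)) (z : Place K F → F)
    (n : Place K F → ℤ) :
    ∃ y : F, ∀ v ∈ S, y - z v ≠ 0 ∧ v.ord (y - z v) = n v := by
  obtain ⟨y, hy⟩ := exists_forall_ord_sub_eq (fun v : S => (v : Place K F))
    Subtype.val_injective (fun v => z v) (fun v => n v)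
  exact ⟨y, fun v hv => hy ⟨v, hv⟩⟩

/-- Two distinct places are separated by an element: `ord_v y = 1`, `ord_w y = 0`... more
generally any prescribed pair of orders. -/
theorem exists_ord_eq_and_ord_eq {v w : Place K F} (hvw : v ≠ w) (a b : ℤ) :
    ∃ y : F, y ≠ 0 ∧ v.ord y = a ∧ w.ord y = b := by
  obtain ⟨y, hy0, hy⟩ := exists_forall_ord_eq (fun i : Bool => if i then v else w)
    (by
      intro i j hij
      cases i <;> cases j <;> simp_all [eq_comm]) (fun i => if i then a else b)
  exact ⟨y, hy0, by simpa using hy true, by simpa using hy false⟩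

end Fermat.Agent.Lib.RiemannRoch.WeakApprox
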