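import Fermat.Agent.Lib.RiemannRoch.Riemann
import Fermat.Agent.Lib.RiemannRoch.WeakApprox

/-!
# The degree of the zero / pole divisor is at most `[F : K(x)]` (Stichtenoth 1.3.3)

For any fields `K ⊆ F`, any `y : F` with `F / K(y)` finite and any finite set `S` of zeros of `y`:
`∑_{v ∈ S} ord_v(y) * deg v ≤ [F : K(y)]`.  Consequences: the pole divisor `B` of `x` satisfies
`deg B ≤ [F : K(x)]`, residue fields of zeros of `y` are finite over `K`, and Riemann's theorem
`riemann'` holds without the degree hypothesis.
-/

set_option autoImplicit false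

noncomputable section

open AlgebraicCurve WithZero Module IntermediateField Polynomial

namespace Fermat.Agent.Lib.RiemannRoch.DegBound

open Fermat.Agent.Lib.RiemannRoch

variable {K F : Type*} [Field K] [Field F] [Algebra K F]

/-! ### Step 1: leading terms of elements of `K(y)` at the zeros of `y` -/

theorem adicValuation_algebraMap_eq_one (v : Place K F) {c : K} (hc : c ≠ 0) :
    v.adicValuation (algebraMap K F c) = 1 := by
  apply le_antisymm (v.adicValuation_algebraMap_le_one c)
  have h1 := v.adicValuation_algebraMap_le_one c⁻¹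
  have h2 : v.adicValuation (algebraMap K F c) * v.adicValuation (algebraMap K F c⁻¹) = 1 := by
    rw [← map_mul, ← map_mul, mul_inv_cancel₀ hc, map_one, map_one]
  calc (1 : ℤᵐ⁰) = v.adicValuation (algebraMap K F c) * v.adicValuation (algebraMap K F c⁻¹) :=
        h2.symm
    _ ≤ v.adicValuation (algebraMap K F c) * 1 := by gcongr
    _ = _ := mul_one _

theorem adicValuation_aeval_le_one (v : Place K F) {y : F} (hy : v.adicValuation y ≤ 1)
    (p : K[X]) : v.adicValuation (aeval y p) ≤ 1 := by
  rw [aeval_eq_sum_range]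
  refine Valuation.map_sum_le _ fun i _ => ?_
  rw [Algebra.smul_def, map_mul, map_pow]
  calc v.adicValuation (algebraMap K F (p.coeff i)) * v.adicValuation y ^ i ≤ 1 * 1 ^ i := by
        gcongr
        exact v.adicValuation_algebraMap_le_one _
    _ = 1 := by simp

theorem adicValuation_aeval_sub_coeff_zero_le (v : Place K F) {y : F}
    (hy : v.adicValuation y ≤ 1) (q : K[X]) :
    v.adicValuation (aeval y q - algebraMap K F (q.coeff 0)) ≤ v.adicValuation y := by
  have h : aeval y q - algebraMap K F (q.coeff 0) = aeval y q.divX * y := by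
    conv_lhs => rw [← divX_mul_X_add q]
    simp
  rw [h, map_mul]
  calc v.adicValuation (aeval y q.divX) * v.adicValuation y ≤ 1 * v.adicValuation y := by
        gcongr
        exact adicValuation_aeval_le_one v hy _
    _ = _ := one_mul _

theorem exists_aeval_eq_pow_mul (r : K[X]) (hr : r ≠ 0) (y : F) :
    ∃ (a : ℕ) (r₁ : K[X]), r₁.coeff 0 ≠ 0 ∧ aeval y r = y ^ a * aeval y r₁ := by
  obtain ⟨q, hq, hdvd⟩ := exists_eq_pow_rootMultiplicity_mul_and_not_dvd r hr 0
  refine ⟨rootMultiplicity 0 r, q, ?_, ?_⟩
  · rw [C_0, sub_zero, X_dvd_iff] at hdvd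
    exact hdvd
  · conv_lhs => rw [hq]
    simp

/-- every nonzero element `φ` of `K(y)` has the shape `y ^ m * (c + ε)` with `c ∈ Kˣ` and
`ε` divisible by `y` at every zero of `y`. -/
theorem exists_leading {y : F} (hy : y ≠ 0) {φ : F} (hφ : φ ∈ K⟮y⟯) (hφ0 : φ ≠ 0) :
    ∃ (m : ℤ) (c : K), c ≠ 0 ∧ ∀ v : Place K F, v.adicValuation y < 1 →
      v.adicValuation (φ * y ^ (-m) - algebraMap K F c) ≤ v.adicValuation y := by
  obtain ⟨r, s, rfl⟩ := (mem_adjoin_simple_iff K φ).mp hφ
  have hR : aeval y r ≠ 0 := by
    intro h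
    simp [h] at hφ0
  have hS : aeval y s ≠ 0 := by
    intro h
    simp [h] at hφ0
  have hr : r ≠ 0 := by
    rintro rfl
    simp at hR
  have hs : s ≠ 0 := by
    rintro rfl
    simp at hS
  obtain ⟨a, r₁, hρ, hr₁⟩ := exists_aeval_eq_pow_mul r hr y
  obtain ⟨b, s₁, hσ, hs₁⟩ := exists_aeval_eq_pow_mul s hs y
  refine ⟨(a : ℤ) - b, r₁.coeff 0 / s₁.coeff 0, div_ne_zero hρ hσ, fun v hv => ?_⟩
  have hS₁0 : aeval y s₁ ≠ 0 := by
    intro h
    apply hS
    rw [hs₁, h, mul_zero]
  have hσF : algebraMap K F (s₁.coeff 0) ≠ 0 := by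
    simpa using hσ
  have h1 : aeval y r / aeval y s * y ^ (-((a : ℤ) - b)) - algebraMap K F (r₁.coeff 0 / s₁.coeff 0)
      = ((aeval y r₁ - algebraMap K F (r₁.coeff 0)) * algebraMap K F (s₁.coeff 0)
          - algebraMap K F (r₁.coeff 0) * (aeval y s₁ - algebraMap K F (s₁.coeff 0)))
        / (aeval y s₁ * algebraMap K F (s₁.coeff 0)) := by
    rw [hr₁, hs₁, map_div₀, neg_sub, zpow_sub₀ hy, zpow_natCast, zpow_natCast]
    have hya : y ^ a ≠ 0 := pow_ne_zero _ hy
    have hyb : y ^ b ≠ 0 := pow_ne_zero _ hy
    field_simp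
    ring
  have hvσ := adicValuation_algebraMap_eq_one v hσ
  have hvρ := adicValuation_algebraMap_eq_one v hρ
  have hR₁ := adicValuation_aeval_sub_coeff_zero_le v hv.le r₁
  have hS₁ := adicValuation_aeval_sub_coeff_zero_le v hv.le s₁
  have hvS₁ : v.adicValuation (aeval y s₁) = 1 := by
    have : aeval y s₁ = (aeval y s₁ - algebraMap K F (s₁.coeff 0)) + algebraMap K F (s₁.coeff 0) := by
      ring
    rw [this, Valuation.map_add_eq_of_lt_right, hvσ]
    rw [hvσ]
    exact lt_of_le_of_lt hS₁ hv
  rw [h1, map_div₀, map_mul, hvS₁, hvσ, mul_one, div_one]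
  apply Valuation.map_sub_le
  · rw [map_mul, hvσ, mul_one]
    exact hR₁
  · rw [map_mul, hvρ, one_mul]
    exact hS₁

/-! ### Step 2: independence modulo `y` implies independence over `K(y)` -/

theorem linearIndependent_of_indep_mod {y : F} (hy : y ≠ 0) (S : Set (Place K F))
    (hS : ∀ v ∈ S, v.adicValuation y < 1) {ι : Type*} [Fintype ι] (r : ι → F)
    (hr : ∀ i, ∀ v ∈ S, v.adicValuation (r i) ≤ 1)
    (H : ∀ d : ι → K,
      (∀ v ∈ S, v.adicValuation (∑ i, algebraMap K F (d i) * r i) ≤ v.adicValuation y) → d = 0) :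
    LinearIndependent K⟮y⟯ r := by
  classical
  rw [Fintype.linearIndependent_iff]
  intro g hg
  by_contra hne
  push Not at hne
  obtain ⟨i₀, hi₀⟩ := hne
  have key : ∀ i, ∃ (m : ℤ) (c : K), g i ≠ 0 → (c ≠ 0 ∧ ∀ v : Place K F, v.adicValuation y < 1 →
      v.adicValuation ((g i : F) * y ^ (-m) - algebraMap K F c) ≤ v.adicValuation y) := by
    intro i
    by_cases hgi : g i = 0
    · exact ⟨0, 0, fun h => absurd hgi h⟩
    · have hgi' : (g i : F) ≠ 0 := by
        intro h
        exact hgi (Subtype.ext h)
      obtain ⟨m, c, hc, hmc⟩ := exists_leading hy (g i).2 hgi'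
      exact ⟨m, c, fun _ => ⟨hc, hmc⟩⟩
  choose m c hmc using key
  obtain ⟨i₁, hi₁, hmin⟩ := Finset.exists_min_image (Finset.univ.filter fun i => g i ≠ 0) m
    ⟨i₀, by simp [hi₀]⟩
  have hgi₁ : g i₁ ≠ 0 := (Finset.mem_filter.mp hi₁).2
  set μ := m i₁ with hμ
  set d : ι → K := fun i => if g i ≠ 0 ∧ m i = μ then c i else 0 with hd
  have hd0 : d = 0 := by
    apply H
    intro v hv
    have hvy := hS v hv
    have hsum : ∑ i, algebraMap K F (d i) * r i
        = ∑ i, (algebraMap K F (d i) - (g i : F) * y ^ (-μ)) * r i := by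
      have h0 : ∑ i, ((g i : F) * y ^ (-μ)) * r i = 0 := by
        have : ∑ i, ((g i : F) * y ^ (-μ)) * r i = y ^ (-μ) * ∑ i, g i • r i := by
          rw [Finset.mul_sum]
          refine Finset.sum_congr rfl fun i _ => ?_
          rw [IntermediateField.smul_def, smul_eq_mul]
          ring
        rw [this, hg, mul_zero]
      simp only [sub_mul, Finset.sum_sub_distrib, h0, sub_zero]
    rw [hsum]
    refine Valuation.map_sum_le _ fun i _ => ?_
    rw [map_mul]
    calc v.adicValuation (algebraMap K F (d i) - (g i : F) * y ^ (-μ)) * v.adicValuation (r i)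
        ≤ v.adicValuation y * 1 := by
          gcongr
          · by_cases hgi : g i = 0
            · have : d i = 0 := by simp [hd, hgi]
              simp [this, hgi]
            · obtain ⟨hc, hmc'⟩ := hmc i hgi
              have hle : μ ≤ m i := hmin i (by simp [hgi])
              rcases hle.eq_or_lt with heq | hlt
              · have : d i = c i := by simp [hd, hgi, heq.symm]
                rw [this, Valuation.map_sub_swap, heq]
                exact hmc' v hvy
              · have : d i = 0 := by
                  simp only [hd]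
                  rw [if_neg]
                  rintro ⟨-, h⟩
                  omega
                rw [this, map_zero, zero_sub, Valuation.map_neg]
                have h1 : v.adicValuation ((g i : F) * y ^ (-(m i))) ≤ 1 := by
                  have h2 := hmc' v hvy
                  have h3 : (g i : F) * y ^ (-(m i))
                      = ((g i : F) * y ^ (-(m i)) - algebraMap K F (c i)) + algebraMap K F (c i) := by
                    ring
                  rw [h3]
                  exact Valuation.map_add_le _ (h2.trans hvy.le)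
                    (v.adicValuation_algebraMap_le_one _)
                obtain ⟨n, hn⟩ := Int.eq_ofNat_of_zero_le (by omega : 0 ≤ m i - μ - 1)
                have h4 : (g i : F) * y ^ (-μ) = ((g i : F) * y ^ (-(m i))) * (y ^ n * y) := by
                  have : -μ = -(m i) + ((n : ℤ) + 1) := by omega
                  rw [this, zpow_add₀ hy, zpow_add₀ hy, zpow_natCast, zpow_one]
                  ring
                rw [h4]
                generalize (g i : F) * y ^ (-(m i)) = G at h1
                rw [map_mul, map_mul, map_pow]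
                calc v.adicValuation G * (v.adicValuation y ^ n * v.adicValuation y)
                    ≤ 1 * (1 ^ n * v.adicValuation y) := by
                      gcongr
                  _ = v.adicValuation y := by simp
          · exact hr i v hv
      _ = v.adicValuation y := mul_one _
  have : d i₁ = c i₁ := by simp [hd, hgi₁, hμ]
  have hc1 := (hmc i₁ hgi₁).1
  rw [← this, hd0] at hc1
  exact hc1 rfl

/-! ### Step 3: construction of a family independent modulo `y` -/

theorem residue_eq_zero_iff_lt_one (v : Place K F) (x : v.toValuationSubring) :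
    IsLocalRing.residue v.toValuationSubring x = 0 ↔ v.adicValuation (x : F) < 1 := by
  rw [IsLocalRing.residue_eq_zero_iff, v.adicValuation_coe,
    IsDedekindDomain.HeightOneSpectrum.intValuation_lt_one_iff_mem,
    Place.heightOneSpectrum_asIdeal]

theorem exists_residue_indep (v : Place K F) {m : ℕ} (b : Fin m → v.ResidueField)
    (hb : LinearIndependent K b) :
    ∃ s : Fin m → F, (∀ j, v.adicValuation (s j) ≤ 1) ∧
      ∀ d : Fin m → K, v.adicValuation (∑ j, algebraMap K F (d j) * s j) < 1 → d = 0 := by
  choose x hx using fun j => IsLocalRing.residue_surjective (b j)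
  refine ⟨fun j => (x j : F), fun j => v.adicValuation_le_one_of_mem (x j).2, fun d hd => ?_⟩
  have h1 : ((∑ j, algebraMap K v.toValuationSubring (d j) * x j : v.toValuationSubring) : F)
      = ∑ j, algebraMap K F (d j) * (x j : F) := by
    push_cast
    rfl
  rw [← h1, ← residue_eq_zero_iff_lt_one, map_sum] at hd
  have h2 : ∑ j, d j • b j = 0 := by
    rw [← hd]
    refine Finset.sum_congr rfl fun j _ => ?_
    rw [map_mul, hx, Algebra.smul_def]
    rfl
  funext j
  exact Fintype.linearIndependent_iff.mp hb d h2 j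

theorem exists_linearIndependent_deg (v : Place K F) :
    ∃ b : Fin v.deg → v.ResidueField, LinearIndependent K b := by
  by_cases hfin : Module.Finite K v.ResidueField
  · exact ⟨Module.finBasis K v.ResidueField,
      (Module.finBasis K v.ResidueField).linearIndependent⟩
  · have h0 : v.deg = 0 := Module.finrank_of_not_finite hfin
    have : IsEmpty (Fin v.deg) := by
      rw [h0]
      infer_instance
    exact ⟨fun _ => 0, linearIndependent_empty_type⟩

variable (S : Finset (Place K F)) (e f : Place K F → ℕ)

theorem exists_local_uniformizers :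
    ∃ t : Place K F → F, ∀ v ∈ S, t v ≠ 0 ∧ v.adicValuation (t v) = exp (-1 : ℤ) ∧
      ∀ w ∈ S, w ≠ v → w.adicValuation (t v) = 1 := by
  classical
  have h : ∀ v : Place K F, ∃ t : F, t ≠ 0 ∧ ∀ w ∈ S, w.ord t = if w = v then 1 else 0 :=
    fun v => WeakApprox.exists_forall_mem_ord_eq S _
  choose t ht0 ht using h
  refine ⟨t, fun v hv => ⟨ht0 v, ?_, fun w hw hwv => ?_⟩⟩
  · rw [v.adicValuation_eq_exp_neg_ord (ht0 v), ht v v hv, if_pos rfl]
  · rw [w.adicValuation_eq_exp_neg_ord (ht0 v), ht v w hw, if_neg hwv]
    simp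

theorem exists_approx (y : F) (hy : ∀ v ∈ S, v.adicValuation y = exp (-(e v : ℤ)))
    (v : Place K F) (hv : v ∈ S) (s : F) :
    ∃ z : F, v.adicValuation (z - s) < 1 ∧
      ∀ w ∈ S, w ≠ v → w.adicValuation z ≤ w.adicValuation y := by
  classical
  obtain ⟨z, hz⟩ := WeakApprox.exists_forall_mem_lt_ord_sub S
    (fun w => if w = v then s else 0) (∑ w ∈ S, (e w : ℤ))
  have hM : (0 : ℤ) ≤ ∑ w ∈ S, (e w : ℤ) := Finset.sum_nonneg fun _ _ => Int.natCast_nonneg _
  refine ⟨z, ?_, fun w hw hwv => ?_⟩
  · have := hz v hv
    rw [if_pos rfl] at this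
    rcases this with h | h
    · rw [h, sub_self, map_zero]
      exact zero_lt_one
    · have hne : z - s ≠ 0 := by
        intro h0
        rw [h0, Place.ord_zero] at h
        omega
      rw [v.adicValuation_eq_exp_neg_ord hne, ← exp_zero, exp_lt_exp]
      omega
  · have := hz w hw
    rw [if_neg hwv, sub_zero] at this
    rw [hy w hw]
    by_cases h0 : z = 0
    · rw [h0, map_zero]
      exact zero_le
    · rcases this with h | h
      · exact absurd h h0
      · rw [w.adicValuation_eq_exp_neg_ord h0, exp_le_exp]
        have : (e w : ℤ) ≤ ∑ w ∈ S, (e w : ℤ) :=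
          Finset.single_le_sum (f := fun w => (e w : ℤ)) (fun _ _ => Int.natCast_nonneg _) hw
        omega

theorem exists_family (y : F) (hy : ∀ v ∈ S, v.adicValuation y = exp (-(e v : ℤ)))
    (hf : ∀ v ∈ S, ∃ b : Fin (f v) → v.ResidueField, LinearIndependent K b) :
    ∃ r : (Σ v : ↥S, Fin (f v.1) × Fin (e v.1)) → F,
      (∀ i, ∀ w ∈ S, w.adicValuation (r i) ≤ 1) ∧
      ∀ d : (Σ v : ↥S, Fin (f v.1) × Fin (e v.1)) → K,
        (∀ k ∈ S, k.adicValuation (∑ i, algebraMap K F (d i) * r i) ≤ k.adicValuation y) →
          d = 0 := by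
  classical
  obtain ⟨t, ht⟩ := exists_local_uniformizers S
  have hs : ∀ v : ↥S, ∃ s : Fin (f v.1) → F, (∀ j, v.1.adicValuation (s j) ≤ 1) ∧
      ∀ d : Fin (f v.1) → K,
        v.1.adicValuation (∑ j, algebraMap K F (d j) * s j) < 1 → d = 0 := by
    intro v
    obtain ⟨b, hb⟩ := hf v.1 v.2
    exact exists_residue_indep v.1 b hb
  choose s hs1 hsind using hs
  have hz : ∀ (v : ↥S) (j : Fin (f v.1)), ∃ z : F, v.1.adicValuation (z - s v j) < 1 ∧
      ∀ w ∈ S, w ≠ v.1 → w.adicValuation z ≤ w.adicValuation y :=
    fun v j => exists_approx S e y hy v.1 v.2 (s v j)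
  choose z hz1 hz2 using hz
  -- valuations of `z`
  have hzle : ∀ (v : ↥S) (j : Fin (f v.1)), ∀ w ∈ S, w.adicValuation (z v j) ≤ 1 := by
    intro v j w hw
    by_cases hwv : w = v.1
    · subst hwv
      have : z v j = (z v j - s v j) + s v j := by ring
      rw [this]
      exact Valuation.map_add_le _ (hz1 v j).le (hs1 v j)
    · refine (hz2 v j w hw hwv).trans ?_
      rw [hy w hw, ← exp_zero, exp_le_exp]
      omega
  have htle : ∀ (v : ↥S), ∀ w ∈ S, w.adicValuation (t v.1) ≤ 1 := by
    intro v w hw
    by_cases hwv : w = v.1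
    · subst hwv
      rw [(ht v.1 v.2).2.1, ← exp_zero, exp_le_exp]
      omega
    · rw [(ht v.1 v.2).2.2 w hw hwv]
  refine ⟨fun i => t i.1.1 ^ (i.2.2 : ℕ) * z i.1 i.2.1, ?_, ?_⟩
  · intro i w hw
    rw [map_mul, map_pow]
    calc w.adicValuation (t i.1.1) ^ (i.2.2 : ℕ) * w.adicValuation (z i.1 i.2.1) ≤ 1 ^ (i.2.2 : ℕ) * 1 := by
          gcongr
          · exact htle i.1 w hw
          · exact hzle i.1 i.2.1 w hw
      _ = 1 := by simp
  · intro d hd
    -- strong induction on the exponent
    have main : ∀ (k : ↥S) (n : ℕ) (a : Fin (e k.1)), (a : ℕ) = n → ∀ j, d ⟨k, (j, a)⟩ = 0 := by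
      intro k n
      induction n using Nat.strong_induction_on with
      | _ n ih =>
        intro a han
        have hk := ht k.1 k.2
        have htk0 : t k.1 ≠ 0 := hk.1
        -- the `(v, a')` blocks
        set blk : (v : ↥S) → Fin (e v.1) → F := fun v a' =>
          ∑ j : Fin (f v.1), algebraMap K F (d ⟨v, (j, a')⟩) * (t v.1 ^ (a' : ℕ) * z v j) with hblk
        have htotal : ∑ i, algebraMap K F (d i) * (t i.1.1 ^ (i.2.2 : ℕ) * z i.1 i.2.1)
            = ∑ v : ↥S, ∑ a' : Fin (e v.1), blk v a' := by
          rw [Fintype.sum_sigma]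
          refine Finset.sum_congr rfl fun v _ => ?_
          rw [Fintype.sum_prod_type_right]
        have hg : (exp (-(n : ℤ)) : ℤᵐ⁰) ≠ 0 := exp_ne_zero
        have hltk : (n : ℤ) < e k.1 := by
          have := a.2
          omega
        -- the total is small
        have h1 : k.1.adicValuation (∑ v : ↥S, ∑ a' : Fin (e v.1), blk v a') < exp (-(n : ℤ)) := by
          rw [← htotal]
          refine lt_of_le_of_lt (hd k.1 k.2) ?_
          rw [hy k.1 k.2, exp_lt_exp]
          omega
        -- blocks at other places are small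
        have h2 : k.1.adicValuation (∑ v ∈ Finset.univ.erase k, ∑ a' : Fin (e v.1), blk v a')
            < exp (-(n : ℤ)) := by
          refine Valuation.map_sum_lt _ hg fun v hv => ?_
          have hvk : k.1 ≠ v.1 := fun h => (Finset.ne_of_mem_erase hv) (Subtype.ext h.symm)
          refine Valuation.map_sum_lt _ hg fun a' _ => ?_
          refine Valuation.map_sum_lt _ hg fun j _ => ?_
          rw [map_mul, map_mul, map_pow]
          calc k.1.adicValuation (algebraMap K F (d ⟨v, (j, a')⟩)) *
                (k.1.adicValuation (t v.1) ^ (a' : ℕ) * k.1.adicValuation (z v j))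
              ≤ 1 * (1 ^ (a' : ℕ) * k.1.adicValuation y) := by
                gcongr
                · exact k.1.adicValuation_algebraMap_le_one _
                · exact htle v k.1 k.2
                · exact hz2 v j k.1 k.2 hvk
            _ = exp (-(e k.1 : ℤ)) := by rw [hy k.1 k.2]; simp
            _ < exp (-(n : ℤ)) := by
                rw [exp_lt_exp]
                omega
        -- the other blocks at `k` are small
        have h3 : k.1.adicValuation (∑ a' ∈ Finset.univ.erase a, blk k a') < exp (-(n : ℤ)) := by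
          refine Valuation.map_sum_lt _ hg fun a' ha' => ?_
          have hne : a' ≠ a := Finset.ne_of_mem_erase ha'
          have hne' : (a' : ℕ) ≠ n := fun h => hne (Fin.ext (h.trans han.symm))
          rcases lt_or_gt_of_ne hne' with hlt | hgt
          · have : blk k a' = 0 := by
              simp only [hblk]
              refine Finset.sum_eq_zero fun j _ => ?_
              rw [ih (a' : ℕ) hlt a' rfl j, map_zero, zero_mul]
            rw [this, map_zero]
            exact zero_lt_iff.mpr hg
          · refine Valuation.map_sum_lt _ hg fun j _ => ?_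
            rw [map_mul, map_mul, map_pow, hk.2.1]
            calc k.1.adicValuation (algebraMap K F (d ⟨k, (j, a')⟩)) *
                  (exp (-1 : ℤ) ^ (a' : ℕ) * k.1.adicValuation (z k j))
                ≤ 1 * (exp (-1 : ℤ) ^ (a' : ℕ) * 1) := by
                  gcongr
                  · exact k.1.adicValuation_algebraMap_le_one _
                  · exact hzle k j k.1 k.2
              _ = exp (-((a' : ℕ) : ℤ)) := by
                  rw [one_mul, mul_one, ← exp_nsmul]
                  simp
              _ < exp (-(n : ℤ)) := by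
                  rw [exp_lt_exp]
                  omega
        -- hence the block `(k, a)` is small
        have h4 : k.1.adicValuation (blk k a) < exp (-(n : ℤ)) := by
          have e1 : ∑ v : ↥S, ∑ a' : Fin (e v.1), blk v a'
              = (∑ a' : Fin (e k.1), blk k a') +
                ∑ v ∈ Finset.univ.erase k, ∑ a' : Fin (e v.1), blk v a' :=
            (Finset.add_sum_erase _ _ (Finset.mem_univ k)).symm
          have e2 : ∑ a' : Fin (e k.1), blk k a' = blk k a + ∑ a' ∈ Finset.univ.erase a, blk k a' :=
            (Finset.add_sum_erase _ _ (Finset.mem_univ a)).symm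
          have e3 : blk k a = (∑ v : ↥S, ∑ a' : Fin (e v.1), blk v a')
              - (∑ v ∈ Finset.univ.erase k, ∑ a' : Fin (e v.1), blk v a')
              - ∑ a' ∈ Finset.univ.erase a, blk k a' := by
            rw [e1, e2]
            ring
          rw [e3]
          exact Valuation.map_sub_lt _ (Valuation.map_sub_lt _ h1 h2) h3
        -- divide by `t ^ n`
        have h5 : blk k a = t k.1 ^ n * ∑ j, algebraMap K F (d ⟨k, (j, a)⟩) * z k j := by
          simp only [hblk]
          rw [Finset.mul_sum, han]
          refine Finset.sum_congr rfl fun j _ => ?_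
          ring
        have h6 : k.1.adicValuation (∑ j, algebraMap K F (d ⟨k, (j, a)⟩) * z k j) < 1 := by
          rw [h5, map_mul, map_pow, hk.2.1, ← exp_nsmul] at h4
          have h7 : (exp (n • (-1 : ℤ)) : ℤᵐ⁰) = exp (-(n : ℤ)) := by simp
          rw [h7] at h4
          by_contra hcon
          push Not at hcon
          have := mul_le_mul_right hcon (exp (-(n : ℤ)))
          rw [mul_one] at this
          exact absurd h4 (not_lt.mpr this)
        -- pass from `z` to `s`
        have h8 : k.1.adicValuation (∑ j, algebraMap K F (d ⟨k, (j, a)⟩) * s k j) < 1 := by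
          have e4 : ∑ j, algebraMap K F (d ⟨k, (j, a)⟩) * s k j
              = (∑ j, algebraMap K F (d ⟨k, (j, a)⟩) * z k j)
                - ∑ j, algebraMap K F (d ⟨k, (j, a)⟩) * (z k j - s k j) := by
            rw [← Finset.sum_sub_distrib]
            refine Finset.sum_congr rfl fun j _ => ?_
            ring
          rw [e4]
          refine Valuation.map_sub_lt _ h6 (Valuation.map_sum_lt _ one_ne_zero fun j _ => ?_)
          rw [map_mul]
          calc k.1.adicValuation (algebraMap K F (d ⟨k, (j, a)⟩)) * k.1.adicValuation (z k j - s k j)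
              ≤ 1 * k.1.adicValuation (z k j - s k j) := by
                gcongr
                exact k.1.adicValuation_algebraMap_le_one _
            _ < 1 := by
                rw [one_mul]
                exact hz1 k j
        have h9 := hsind k (fun j => d ⟨k, (j, a)⟩) h8
        intro j
        exact congrFun h9 j
    funext ⟨k, j, a⟩
    exact main k (a : ℕ) a rfl j

/-! ### The degree bounds -/

/-- **Stichtenoth 1.3.3**, general form: if `y` vanishes to order `e v ≥ 1` at the places
`v ∈ S`, and the residue field of `v` contains `f v` elements linearly independent over `K`, then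
`∑ e v * f v ≤ [F : K(y)]`. -/
theorem sum_mul_le_finrank (y : F) (hy0 : y ≠ 0) [FiniteDimensional K⟮y⟯ F]
    (hy : ∀ v ∈ S, v.adicValuation y = exp (-(e v : ℤ))) (he : ∀ v ∈ S, 0 < e v)
    (hf : ∀ v ∈ S, ∃ b : Fin (f v) → v.ResidueField, LinearIndependent K b) :
    ∑ v ∈ S, e v * f v ≤ finrank K⟮y⟯ F := by
  obtain ⟨r, hr, H⟩ := exists_family S e f y hy hf
  have hli := linearIndependent_of_indep_mod hy0 (S : Set (Place K F))
    (fun v hv => by
      have hv' : v ∈ S := hv
      rw [hy v hv', ← exp_zero, exp_lt_exp]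
      have := he v hv'
      omega) r hr H
  have h1 := hli.fintype_card_le_finrank
  rw [Fintype.card_sigma] at h1
  simp only [Fintype.card_prod, Fintype.card_fin] at h1
  rw [← Finset.sum_coe_sort S (fun v => e v * f v)]
  refine le_trans (le_of_eq ?_) h1
  refine Finset.sum_congr rfl fun v _ => ?_
  ring

/-- **Stichtenoth 1.3.3** (zeros form): `∑ ord_v(y) * deg v ≤ [F : K(y)]` over any finite set of
zeros of `y`.  No hypothesis on `K`, `F` or the residue fields. -/
theorem sum_ord_mul_deg_le_finrank (y : F) [FiniteDimensional K⟮y⟯ F]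
    (hS : ∀ v ∈ S, 0 < v.ord y) :
    ∑ v ∈ S, v.ord y * (v.deg : ℤ) ≤ finrank K⟮y⟯ F := by
  rcases S.eq_empty_or_nonempty with rfl | ⟨v₀, hv₀⟩
  · simp
  have hy0 : y ≠ 0 := by
    rintro rfl
    have := hS v₀ hv₀
    simp at this
  have h := sum_mul_le_finrank S (fun v => (v.ord y).toNat) (fun v => v.deg) y hy0
    (fun v hv => by
      rw [v.adicValuation_eq_exp_neg_ord hy0, Int.toNat_of_nonneg (hS v hv).le])
    (fun v hv => by
      have := hS v hv
      omega)
    (fun v _ => exists_linearIndependent_deg v)
  have h2 : ∑ v ∈ S, v.ord y * (v.deg : ℤ) = ((∑ v ∈ S, (v.ord y).toNat * v.deg : ℕ) : ℤ) := by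
    push_cast
    refine Finset.sum_congr rfl fun v hv => ?_
    rw [Int.toNat_of_nonneg (hS v hv).le]
  rw [h2]
  exact_mod_cast h

/-- the residue field of a zero of `y` is finite over `K` as soon as `F / K(y)` is finite. -/
theorem finite_residueField_of_ord_pos (v : Place K F) (y : F) (hy : 0 < v.ord y)
    [FiniteDimensional K⟮y⟯ F] : Module.Finite K v.ResidueField := by
  by_contra hinf
  have hy0 : y ≠ 0 := by
    rintro rfl
    simp at hy
  set n := finrank K⟮y⟯ F with hn
  have hrank : ((n + 1 : ℕ) : Cardinal) ≤ Module.rank K v.ResidueField := by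
    have h1 : Cardinal.aleph0 ≤ Module.rank K v.ResidueField := by
      rw [← not_lt, Module.rank_lt_aleph0_iff]
      exact hinf
    exact (Cardinal.natCast_lt_aleph0).le.trans h1
  obtain ⟨b, hb⟩ := exists_linearIndependent_of_le_rank hrank
  have h := sum_mul_le_finrank {v} (fun _ => (v.ord y).toNat) (fun _ => n + 1) y hy0
    (fun w hw => by
      rw [Finset.mem_singleton] at hw
      subst hw
      rw [w.adicValuation_eq_exp_neg_ord hy0, Int.toNat_of_nonneg hy.le])
    (fun w _ => by omega)
    (fun w hw => by
      rw [Finset.mem_singleton] at hw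
      subst hw
      exact ⟨b, hb⟩)
  rw [Finset.sum_singleton] at h
  have h1 : 1 ≤ (v.ord y).toNat := by omega
  nlinarith

theorem adjoin_simple_inv (x : F) : K⟮x⁻¹⟯ = K⟮x⟯ := by
  apply le_antisymm
  · rw [adjoin_simple_le_iff]
    exact inv_mem (mem_adjoin_simple_self K x)
  · rw [adjoin_simple_le_iff]
    have := inv_mem (mem_adjoin_simple_self K x⁻¹)
    rwa [inv_inv] at this

/-- **Stichtenoth 1.3.3** (poles form): the degree of the pole divisor of `x` is at most
`[F : K(x)]`. -/
theorem degree_le_finrank_of_poles (x : F) [FiniteDimensional K⟮x⟯ F] {B : Divisor K F}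
    (hB : ∀ v : Place K F, B v = max 0 (-(v.ord x))) :
    Divisor.degree B ≤ finrank K⟮x⟯ F := by
  have hinv : K⟮x⁻¹⟯ = K⟮x⟯ := adjoin_simple_inv x
  have hfd : FiniteDimensional K⟮x⁻¹⟯ F := by
    rw [hinv]
    infer_instance
  have hfr : finrank K⟮x⁻¹⟯ F = finrank K⟮x⟯ F := by
    rw [hinv]
  rw [Fermat.Agent.Lib.RiemannRoch.degree_eq_sum, Finsupp.sum, ← hfr]
  have hpos : ∀ v ∈ B.support, 0 < v.ord x⁻¹ ∧ B v = v.ord x⁻¹ := by
    intro v hv
    have h1 : B v ≠ 0 := Finsupp.mem_support_iff.mp hv
    rw [hB v] at h1 ⊢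
    rw [Place.ord_inv]
    rcases le_or_gt (-(v.ord x)) 0 with h | h
    · exact absurd (max_eq_left h) h1
    · exact ⟨h, max_eq_right h.le⟩
  have h2 := sum_ord_mul_deg_le_finrank B.support x⁻¹ (fun v hv => (hpos v hv).1)
  refine le_trans (le_of_eq ?_) h2
  refine Finset.sum_congr rfl fun v hv => ?_
  rw [(hpos v hv).2]

section riemann

variable [HasPrincipalDivisors K F] [∀ v : Place K F, v.FiniteResidue]

/-- the pole divisor of `x` -/
def poleDivisor (x : F) : Divisor K F := (-(divOf (K := K) x)) ⊔ 0

theorem poleDivisor_apply {x : F} (hx : x ≠ 0) (v : Place K F) :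
    poleDivisor (K := K) x v = max 0 (-(v.ord x)) := by
  rw [poleDivisor, Finsupp.sup_apply, Finsupp.neg_apply, divOf_apply hx, Finsupp.zero_apply,
    sup_comm]

theorem degree_poleDivisor_le (x : F) (hx : x ≠ 0) [FiniteDimensional K⟮x⟯ F] :
    Divisor.degree (poleDivisor (K := K) x) ≤ finrank K⟮x⟯ F :=
  degree_le_finrank_of_poles x (poleDivisor_apply hx)

variable [Nonempty (Place K F)]

/-- Riemann's inequality without the degree hypothesis. -/
theorem exists_rr_le' (x : F) (hx : Transcendental K x) [FiniteDimensional K⟮x⟯ F] :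
    ∃ γ : ℤ, ∀ D : Divisor K F, rr D ≤ γ := by
  have hx0 : x ≠ 0 := by
    rintro rfl
    exact hx isAlgebraic_zero
  exact exists_rr_le x hx (poleDivisor_apply hx0) (degree_poleDivisor_le x hx0)

/-- **Riemann's theorem** `l(D) - i(D) = deg D + l(0) - g` for any function field `F / K` with
principal divisors, finite residue fields, and a transcendental `x` with `F / K(x)` finite. -/
theorem riemann' (x : F) (hx : Transcendental K x) [FiniteDimensional K⟮x⟯ F] (D : Divisor K F) :
    Module.Finite K (H1 D) ∧
      (ell D : ℤ) - finrank K (H1 D) = Divisor.degree D + ell (0 : Divisor K F) - genusFF K F :=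
  riemann_of_bounded (exists_rr_le' x hx) D

end riemann

end Fermat.Agent.Lib.RiemannRoch.DegBound

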