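import Fermat.Agent.Lib.LatticePair.Additivity

/-!
# Linear algebra lemmas on relative quotients of nested subspaces
-/

set_option autoImplicit false

noncomputable section

open Module Submodule

namespace Fermat.Agent.Lib.RiemannRoch

open Fermat.Agent.Lib.LatticePair

variable {K E : Type*} [Field K] [AddCommGroup E] [Module K E]

/-- The relative quotient `T / S` of two subspaces. -/
abbrev RelQ (S T : Submodule K E) : Type _ := ↥T ⧸ S.comap T.subtype

theorem relQ_self_subsingleton (S : Submodule K E) : Subsingleton (RelQ S S) := by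
  rw [Submodule.Quotient.subsingleton_iff, eq_top_iff]
  rintro ⟨x, hx⟩ -
  simp

theorem relQ_subsingleton_of_le {S T : Submodule K E} (h : T ≤ S) : Subsingleton (RelQ S T) := by
  rw [Submodule.Quotient.subsingleton_iff, eq_top_iff]
  rintro ⟨x, hx⟩ -
  simpa using h hx

/-- If `T / S` is finite dimensional of dimension zero and `S ≤ T` then `S = T`. -/
theorem eq_of_finrank_relQ_eq_zero {S T : Submodule K E} (h : S ≤ T) [Module.Finite K (RelQ S T)]
    (h0 : finrank K (RelQ S T) = 0) : S = T := by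
  apply le_antisymm h
  intro x hx
  have hsub : Subsingleton (RelQ S T) := Module.finrank_zero_iff.mp h0
  have : (Submodule.Quotient.mk (⟨x, hx⟩ : T) : RelQ S T) = 0 := Subsingleton.elim _ _
  rw [Submodule.Quotient.mk_eq_zero] at this
  simpa using this

/-- The natural map `T / S → U / S` for `T ≤ U`. -/
def relQMap (S : Submodule K E) {T U : Submodule K E} (h : T ≤ U) : RelQ S T →ₗ[K] RelQ S U :=
  Submodule.mapQ _ _ (Submodule.inclusion h) (by
    intro x hx
    simpa using hx)

theorem relQMap_injective (S : Submodule K E) {T U : Submodule K E} (h : T ≤ U) :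
    Function.Injective (relQMap S h) := by
  rw [← LinearMap.ker_eq_bot, LinearMap.ker_eq_bot']
  intro x hx
  obtain ⟨y, rfl⟩ := Submodule.Quotient.mk_surjective _ x
  rw [relQMap, Submodule.mapQ_apply, Submodule.Quotient.mk_eq_zero] at hx
  rw [Submodule.Quotient.mk_eq_zero]
  simpa using hx

theorem range_relQMap (S : Submodule K E) {T U : Submodule K E} (h : T ≤ U) :
    LinearMap.range (relQMap S h) = (T.comap U.subtype).map (S.comap U.subtype).mkQ := by
  ext z
  constructor
  · rintro ⟨x, rfl⟩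
    obtain ⟨y, rfl⟩ := Submodule.Quotient.mk_surjective _ x
    refine ⟨Submodule.inclusion h y, ?_, rfl⟩
    simp
  · rintro ⟨y, hy, rfl⟩
    refine ⟨Submodule.Quotient.mk ⟨(y : E), by simpa using hy⟩, ?_⟩
    rw [relQMap, Submodule.mapQ_apply]
    rfl

/-- Dimensions of relative quotients add up along a chain `S ≤ T ≤ U`. -/
theorem finrank_relQ_chain {S T U : Submodule K E} (hST : S ≤ T) (hTU : T ≤ U)
    [Module.Finite K (RelQ S T)] [Module.Finite K (RelQ T U)] :
    Module.Finite K (RelQ S U) ∧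
      finrank K (RelQ S U) = finrank K (RelQ T U) + finrank K (RelQ S T) := by
  set S' : Submodule K U := S.comap U.subtype with hS'
  set T' : Submodule K U := T.comap U.subtype with hT'
  have hle : S' ≤ T' := Submodule.comap_mono hST
  set R : Submodule K (RelQ S U) := T'.map S'.mkQ with hR
  have e1 : RelQ S T ≃ₗ[K] R :=
    (LinearEquiv.ofInjective (relQMap S hTU) (relQMap_injective S hTU)).trans
      (LinearEquiv.ofEq _ _ (range_relQMap S hTU))
  have e2 : (RelQ S U ⧸ R) ≃ₗ[K] RelQ T U := Submodule.quotientQuotientEquivQuotient S' T' hle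
  have : Module.Finite K R := Module.Finite.equiv e1
  have : Module.Finite K (RelQ S U ⧸ R) := Module.Finite.equiv e2.symm
  obtain ⟨h1, h2⟩ := finite_and_finrank_of_sub_quot R
  refine ⟨h1, ?_⟩
  rw [h2, e2.finrank_eq, ← e1.finrank_eq]

section sixTerm

variable (M M' N : Submodule K E)

/-- The map `(M' ⊓ N) → M' / M`. -/
def sixP : ↥(M' ⊓ N) →ₗ[K] RelQ M M' :=
  (M.comap M'.subtype).mkQ ∘ₗ Submodule.inclusion inf_le_left

/-- The map `M' / M → (M' ⊔ N) / (M ⊔ N)`. -/
def sixQ : RelQ M M' →ₗ[K] RelQ (M ⊔ N) (M' ⊔ N) :=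
  Submodule.mapQ _ _ (Submodule.inclusion le_sup_left) (by
    intro x hx
    rw [Submodule.mem_comap] at hx ⊢
    exact Submodule.mem_sup_left hx)

theorem sixQ_surjective : Function.Surjective (sixQ M M' N) := by
  intro z
  obtain ⟨⟨y, hy⟩, rfl⟩ := Submodule.Quotient.mk_surjective _ z
  obtain ⟨m, hm, n, hn, rfl⟩ := Submodule.mem_sup.mp hy
  refine ⟨Submodule.Quotient.mk ⟨m, hm⟩, ?_⟩
  rw [sixQ, Submodule.mapQ_apply, Submodule.Quotient.eq, Submodule.mem_comap]
  have : ((Submodule.inclusion (le_sup_left : M' ≤ M' ⊔ N) ⟨m, hm⟩ - ⟨m + n, hy⟩ :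
      ↥(M' ⊔ N)) : E) = -n := by
    simp
  rw [Submodule.subtype_apply, this]
  exact Submodule.mem_sup_right (N.neg_mem hn)

theorem range_sixP_eq_ker_sixQ (h : M ≤ M') :
    LinearMap.range (sixP M M' N) = LinearMap.ker (sixQ M M' N) := by
  ext z
  constructor
  · rintro ⟨⟨x, hx⟩, rfl⟩
    rw [LinearMap.mem_ker, sixP, LinearMap.comp_apply, Submodule.mkQ_apply, sixQ,
      Submodule.mapQ_apply, Submodule.Quotient.mk_eq_zero, Submodule.mem_comap]
    exact Submodule.mem_sup_right (Submodule.mem_inf.mp hx).2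
  · intro hz
    obtain ⟨⟨y, hy⟩, rfl⟩ := Submodule.Quotient.mk_surjective _ z
    rw [LinearMap.mem_ker, sixQ, Submodule.mapQ_apply, Submodule.Quotient.mk_eq_zero,
      Submodule.mem_comap] at hz
    have hz' : y ∈ M ⊔ N := hz
    obtain ⟨m, hm, n, hn, hmn⟩ := Submodule.mem_sup.mp hz'
    have hn' : n ∈ M' ⊓ N := by
      refine Submodule.mem_inf.mpr ⟨?_, hn⟩
      have : n = y - m := by rw [← hmn]; abel
      rw [this]
      exact M'.sub_mem hy (h hm)
    refine ⟨⟨n, hn'⟩, ?_⟩
    rw [sixP, LinearMap.comp_apply, Submodule.mkQ_apply, Submodule.Quotient.eq,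
      Submodule.mem_comap]
    have : ((Submodule.inclusion (inf_le_left : M' ⊓ N ≤ M') ⟨n, hn'⟩ - ⟨y, hy⟩ : ↥M') : E)
        = -m := by
      simp [← hmn]
    rw [Submodule.subtype_apply, this]
    exact M.neg_mem hm

theorem ker_sixP :
    LinearMap.ker (sixP M M' N) = (M ⊓ N).comap (M' ⊓ N).subtype := by
  ext ⟨x, hx⟩
  rw [LinearMap.mem_ker, sixP, LinearMap.comp_apply, Submodule.mkQ_apply,
    Submodule.Quotient.mk_eq_zero, Submodule.mem_comap, Submodule.mem_comap]
  simp only [Submodule.subtype_apply, Submodule.coe_inclusion, Submodule.mem_inf]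
  exact ⟨fun h1 => ⟨h1, (Submodule.mem_inf.mp hx).2⟩, fun h1 => h1.1⟩

/-- The six term exact sequence, as a dimension formula. -/
theorem sixTerm (h : M ≤ M') [Module.Finite K (RelQ M M')] [Module.Finite K ↥(M ⊓ N)] :
    Module.Finite K ↥(M' ⊓ N) ∧ Module.Finite K (RelQ (M ⊔ N) (M' ⊔ N)) ∧
      finrank K (RelQ M M') + finrank K ↥(M ⊓ N) =
        finrank K ↥(M' ⊓ N) + finrank K (RelQ (M ⊔ N) (M' ⊔ N)) := by
  have hle : M ⊓ N ≤ M' ⊓ N := inf_le_inf_right N h
  have e1 : LinearMap.ker (sixP M M' N) ≃ₗ[K] ↥(M ⊓ N) :=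
    (LinearEquiv.ofEq _ _ (ker_sixP M M' N)).trans (Submodule.comapSubtypeEquivOfLe hle)
  have : Module.Finite K (LinearMap.ker (sixP M M' N)) := Module.Finite.equiv e1.symm
  obtain ⟨f1, f2⟩ := finite_and_finrank_of_ker_range (sixP M M' N)
  have f3 : Module.Finite K (RelQ (M ⊔ N) (M' ⊔ N)) :=
    Module.Finite.of_surjective _ (sixQ_surjective M M' N)
  refine ⟨f1, f3, ?_⟩
  have h1 := LinearMap.finrank_range_add_finrank_ker (sixQ M M' N)
  rw [LinearMap.range_eq_top.mpr (sixQ_surjective M M' N), finrank_top,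
    ← range_sixP_eq_ker_sixQ M M' N h] at h1
  rw [f2, e1.finrank_eq] at *
  omega

end sixTerm

end Fermat.Agent.Lib.RiemannRoch
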