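import Fermat.Agent.Lib.RiemannRoch.Adele
import Fermat.Agent.S24.PlaceBasic
import Fermat.Agent.Lib.RiemannRoch.LinAlg

/-!
# Local dimension count

For a place `v` and a divisor `D`, the quotient `A(D + v) / A(D)` is isomorphic to the residue field
of `v`.  Consequently `A(D') / A(D)` has dimension `deg D' - deg D` for `D ≤ D'`.
-/

set_option autoImplicit false
set_option linter.unusedSectionVars false

noncomputable section

open AlgebraicCurve WithZero Module

namespace Fermat.Agent.Lib.RiemannRoch

open Fermat.Agent.S24.ZD.PlaceLemmas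

variable {K F : Type*} [Field K] [Field F] [Algebra K F]

section local_

variable (v : Place K F)

/-- A chosen uniformizer at `v`. -/
def unif : F := (exists_adicValuation_eq_exp_neg_one v).choose

theorem adicValuation_unif : v.adicValuation (unif v) = exp (-1 : ℤ) :=
  (exists_adicValuation_eq_exp_neg_one v).choose_spec

theorem unif_ne_zero : unif v ≠ 0 := by
  intro h
  have := adicValuation_unif v
  rw [h, map_zero] at this
  exact exp_ne_zero this.symm

theorem adicValuation_unif_zpow (n : ℤ) : v.adicValuation (unif v ^ n) = exp (-n) := by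
  rw [map_zpow₀, adicValuation_unif, ← exp_zsmul, smul_eq_mul, mul_neg, mul_one]

/-- The `K`-subspace `{f | v f ≤ exp n}` of `F`. -/
def ball (n : ℤ) : Submodule K F where
  carrier := {f | v.adicValuation f ≤ exp n}
  zero_mem' := by simp
  add_mem' := by
    intro f g hf hg
    have hf' : v.adicValuation f ≤ exp n := hf
    have hg' : v.adicValuation g ≤ exp n := hg
    exact (Valuation.map_add _ _ _).trans (max_le hf' hg')
  smul_mem' := fun c f hf => by
    show v.adicValuation (c • f) ≤ exp n
    rw [Algebra.smul_def, map_mul]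
    exact (mul_le_of_le_one_left' (v.adicValuation_algebraMap_le_one c)).trans hf

theorem mem_ball {n : ℤ} {f : F} : f ∈ ball v n ↔ v.adicValuation f ≤ exp n := Iff.rfl

theorem unif_zpow_mul_mem {n : ℤ} {f : F} (hf : f ∈ ball v n) :
    unif v ^ n * f ∈ v.toValuationSubring := by
  rw [mem_iff_adicValuation_le_one, map_mul, adicValuation_unif_zpow]
  calc exp (-n) * v.adicValuation f ≤ exp (-n) * exp n := by gcongr; exact hf
    _ = 1 := by rw [← exp_add]; simp

/-- Multiplication by `π ^ n`, from the ball of radius `n` to the valuation ring. -/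
def scaleMap (n : ℤ) : ball v n →ₗ[K] v.toValuationSubring where
  toFun f := ⟨unif v ^ n * f, unif_zpow_mul_mem v f.2⟩
  map_add' f g := by
    apply Subtype.ext
    simp [mul_add]
  map_smul' c f := by
    apply Subtype.ext
    show unif v ^ n * ((c • f : ball v n) : F) = ((c • (⟨unif v ^ n * f, _⟩ : v.toValuationSubring) :
      v.toValuationSubring) : F)
    rw [Algebra.smul_def c (⟨unif v ^ n * f, _⟩ : v.toValuationSubring)]
    simp [Algebra.smul_def, mul_left_comm]

/-- The local residue map of level `n`. -/
def locRes (n : ℤ) : ball v n →ₗ[K] v.ResidueField :=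
  (IsScalarTower.toAlgHom K v.toValuationSubring v.ResidueField).toLinearMap ∘ₗ scaleMap v n

theorem locRes_apply (n : ℤ) (f : ball v n) :
    locRes v n f = IsLocalRing.residue _ (⟨unif v ^ n * f, unif_zpow_mul_mem v f.2⟩ :
      v.toValuationSubring) := rfl

theorem mem_maximalIdeal_iff (a : v.toValuationSubring) :
    a ∈ IsLocalRing.maximalIdeal v.toValuationSubring ↔ v.adicValuation (a : F) < 1 := by
  rw [IsLocalRing.mem_maximalIdeal, mem_nonunits_iff, ← v.adicValuation_coe_eq_one_iff,
    lt_iff_le_and_ne]
  exact ⟨fun h => ⟨v.adicValuation_le_one_of_mem a.2, h⟩, fun h => h.2⟩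

theorem locRes_eq_zero_iff (n : ℤ) (f : ball v n) :
    locRes v n f = 0 ↔ (f : F) ∈ ball v (n - 1) := by
  rw [locRes_apply, IsLocalRing.residue_eq_zero_iff, mem_maximalIdeal_iff, mem_ball]
  show v.adicValuation (unif v ^ n * (f : F)) < 1 ↔ _
  rw [map_mul, adicValuation_unif_zpow]
  rcases eq_or_ne (f : F) 0 with h0 | h0
  · simp [h0]
  · have hne := v.adicValuation_ne_zero h0
    rw [← exp_log hne, ← exp_add, ← exp_zero, exp_lt_exp, exp_le_exp]
    omega

theorem locRes_surjective (n : ℤ) : Function.Surjective (locRes v n) := by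
  intro c
  obtain ⟨a, rfl⟩ := IsLocalRing.residue_surjective c
  have hmem : unif v ^ (-n) * (a : F) ∈ ball v n := by
    rw [mem_ball, map_mul, adicValuation_unif_zpow, neg_neg]
    calc exp n * v.adicValuation (a : F) ≤ exp n * 1 := by
          gcongr; exact v.adicValuation_le_one_of_mem a.2
      _ = exp n := mul_one _
  refine ⟨⟨_, hmem⟩, ?_⟩
  rw [locRes_apply]
  congr 1
  apply Subtype.ext
  show unif v ^ n * (unif v ^ (-n) * (a : F)) = a
  rw [← mul_assoc, ← zpow_add₀ (unif_ne_zero v)]
  simp

end local_

section global

/-- Evaluation of an element of `A(D)` at the place `v`. -/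
def evalBall (D : Divisor K F) (v : Place K F) : repartitionsOf D →ₗ[K] ball v (D v) where
  toFun α := ⟨((α : repartitions K F) : Place K F → F) v, α.2 v⟩
  map_add' _ _ := rfl
  map_smul' _ _ := rfl

/-- The residue map `A(D) → κ(v)`. -/
def globalRes (D : Divisor K F) (v : Place K F) : repartitionsOf D →ₗ[K] v.ResidueField :=
  locRes v (D v) ∘ₗ evalBall D v

theorem globalRes_surjective (D : Divisor K F) (v : Place K F) :
    Function.Surjective (globalRes D v) := by
  classical
  intro c
  obtain ⟨f, rfl⟩ := locRes_surjective v (D v) c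
  have hmem : single v (f : F) ∈ repartitionsOf D := by
    intro w
    by_cases hw : w = v
    · subst hw
      rw [single_apply_same]
      exact f.2
    · rw [single_apply_of_ne hw, map_zero]
      exact zero_le
  refine ⟨⟨single v (f : F), hmem⟩, ?_⟩
  rw [globalRes, LinearMap.comp_apply]
  congr 1
  apply Subtype.ext
  exact single_apply_same v (f : F)

theorem ker_globalRes (D : Divisor K F) (v : Place K F) :
    LinearMap.ker (globalRes (D + Finsupp.single v 1) v) =
      (repartitionsOf D).comap (repartitionsOf (D + Finsupp.single v 1)).subtype := by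
  ext α
  rw [LinearMap.mem_ker, globalRes, LinearMap.comp_apply, locRes_eq_zero_iff, Submodule.mem_comap,
    Submodule.subtype_apply, mem_ball]
  have hv : (D + Finsupp.single v (1 : ℤ) : Divisor K F) v - 1 = D v := by simp
  constructor
  · intro h w
    by_cases hw : w = v
    · subst hw
      rw [hv] at h
      exact h
    · have := α.2 w
      rwa [Finsupp.add_apply, Finsupp.single_eq_of_ne hw, add_zero] at this
  · intro h
    rw [hv]
    exact h v

/-- `A(D + v) / A(D)` is the residue field of `v`. -/
def stepEquiv (D : Divisor K F) (v : Place K F) :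
    RelQ (repartitionsOf D) (repartitionsOf (D + Finsupp.single v 1)) ≃ₗ[K] v.ResidueField :=
  (Submodule.quotEquivOfEq _ _ (ker_globalRes D v).symm).trans
    (LinearMap.quotKerEquivOfSurjective _ (globalRes_surjective _ v))

variable [∀ v : Place K F, v.FiniteResidue]

/-- The statement: `A(D') / A(D)` is finite dimensional of dimension `deg D' - deg D`. -/
def DimClaim (D D' : Divisor K F) : Prop :=
  Module.Finite K (RelQ (repartitionsOf D) (repartitionsOf D')) ∧
    (finrank K (RelQ (repartitionsOf D) (repartitionsOf D')) : ℤ) =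
      Divisor.degree D' - Divisor.degree D

theorem dimClaim_refl (D : Divisor K F) : DimClaim D D := by
  have := relQ_self_subsingleton (repartitionsOf D)
  have hfin : Finite (RelQ (repartitionsOf D) (repartitionsOf D)) := Finite.of_subsingleton
  exact ⟨Module.Finite.of_finite, by rw [finrank_zero_of_subsingleton]; simp⟩

theorem dimClaim_step (D : Divisor K F) (v : Place K F) :
    DimClaim D (D + Finsupp.single v 1) := by
  have : Module.Finite K v.ResidueField := Place.FiniteResidue.finite
  refine ⟨Module.Finite.equiv (stepEquiv D v).symm, ?_⟩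
  rw [(stepEquiv D v).finrank_eq, map_add, Divisor.degree_single]
  simp [Place.deg]

theorem dimClaim_trans {D D' D'' : Divisor K F} (h1 : D ≤ D') (h2 : D' ≤ D'')
    (c1 : DimClaim D D') (c2 : DimClaim D' D'') : DimClaim D D'' := by
  obtain ⟨f1, e1⟩ := c1
  obtain ⟨f2, e2⟩ := c2
  obtain ⟨f3, e3⟩ := finrank_relQ_chain (repartitionsOf_mono h1) (repartitionsOf_mono h2)
  refine ⟨f3, ?_⟩
  rw [e3]
  push_cast
  rw [e1, e2]
  ring

/-- The cast of an effective divisor. -/
def castDiv : (Place K F →₀ ℕ) →+ Divisor K F :=
  Finsupp.mapRange.addMonoidHom (Nat.castAddMonoidHom ℤ)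

theorem castDiv_nonneg (E : Place K F →₀ ℕ) : 0 ≤ castDiv E := by
  intro v
  simp [castDiv]

theorem dimClaim_add_castDiv (E : Place K F →₀ ℕ) : ∀ D : Divisor K F, DimClaim D (D + castDiv E) := by
  induction E using Finsupp.induction_linear with
  | zero =>
    intro D
    rw [map_zero, add_zero]
    exact dimClaim_refl D
  | add f g hf hg =>
    intro D
    rw [map_add, ← add_assoc]
    exact dimClaim_trans (le_add_of_nonneg_right (castDiv_nonneg f))
      (le_add_of_nonneg_right (castDiv_nonneg g)) (hf D) (hg _)
  | single a b =>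
    induction b with
    | zero =>
      intro D
      rw [Finsupp.single_zero, map_zero, add_zero]
      exact dimClaim_refl D
    | succ b ih =>
      intro D
      have h1 : castDiv (Finsupp.single a (b + 1)) =
          castDiv (Finsupp.single a b) + Finsupp.single a (1 : ℤ) := by
        rw [Finsupp.single_add, map_add]
        congr 1
        simp [castDiv]
      rw [h1, ← add_assoc]
      refine dimClaim_trans (le_add_of_nonneg_right (castDiv_nonneg _))
        (le_add_of_nonneg_right ?_) (ih D) (dimClaim_step _ a)
      intro v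
      simp only [Finsupp.coe_zero, Pi.zero_apply]
      exact Finsupp.single_nonneg.mpr zero_le_one v

/-- For `D ≤ D'`, the quotient `A(D') / A(D)` has dimension `deg D' - deg D`. -/
theorem dimClaim_of_le {D D' : Divisor K F} (h : D ≤ D') : DimClaim D D' := by
  have hE : ∃ E : Place K F →₀ ℕ, D' = D + castDiv E := by
    refine ⟨(D' - D).mapRange Int.toNat (by simp), ?_⟩
    ext v
    have hv : D v ≤ D' v := h v
    simp only [castDiv, Finsupp.mapRange.addMonoidHom_apply, Finsupp.add_apply,
      Finsupp.mapRange_apply, Finsupp.sub_apply, Nat.coe_castAddMonoidHom]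
    rw [Int.toNat_of_nonneg (by omega)]
    ring
  obtain ⟨E, rfl⟩ := hE
  exact dimClaim_add_castDiv E D

end global

end Fermat.Agent.Lib.RiemannRoch
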