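import Fermat.Agent.Lib.RiemannRoch.DegBound
import Fermat.Agent.Lib.RiemannRoch.LocalDim

/-!
# Char-free dictionary for function fields of one variable (RR-lib, part F1–F4)

Setting: `K` ANY field, `F / K` a field, `x : F` transcendental over `K` with `F / K(x)` finite.
No characteristic or separability hypothesis.

* (F1) `ord_eq_zero_of_isAlgebraic` : algebraic elements have order `0` at every place;
  `transcendental_of_ord_ne_zero`.
* (F2) `finiteDimensional_adjoin_of_transcendental` : `F / K(y)` is finite for every
  transcendental `y`.
* (F3) `finiteResidue` : every place has finite residue field (`v.FiniteResidue`), `deg_pos`.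
* (F4) `finite_zeros`, `finite_poles`, `finite_support_ord`, `exists_divisor_ord` :
  a nonzero function has finitely many zeros and poles, so its divisor exists.
-/

set_option autoImplicit false

noncomputable section

open AlgebraicCurve WithZero Module IntermediateField Polynomial

namespace Fermat.Agent.Lib.RiemannRoch.FunctionField

open Fermat.Agent.Lib.RiemannRoch Fermat.Agent.Lib.RiemannRoch.DegBound

variable {K F : Type*} [Field K] [Field F] [Algebra K F]

/-! ### (F1) algebraic elements have order zero -/

/-- a nonzero algebraic element cannot have positive order. -/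
theorem ord_le_zero_of_isAlgebraic (v : Place K F) {y : F} (hy : IsAlgebraic K y) (hy0 : y ≠ 0) :
    v.ord y ≤ 0 := by
  by_contra hpos
  push Not at hpos
  have hlt : v.adicValuation y < 1 := by
    rw [v.adicValuation_eq_exp_neg_ord hy0, ← exp_zero, exp_lt_exp]
    omega
  obtain ⟨p, hp0, hp⟩ := hy
  obtain ⟨a, q, hq0, hq⟩ := exists_aeval_eq_pow_mul p hp0 y
  rw [hp] at hq
  have hq' : aeval y q = 0 := by
    rcases mul_eq_zero.1 hq.symm with h | h
    · exact absurd (pow_ne_zero a hy0 h) id
    · exact h
  have h1 := adicValuation_aeval_sub_coeff_zero_le v hlt.le q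
  rw [hq', zero_sub, Valuation.map_neg, adicValuation_algebraMap_eq_one v hq0] at h1
  exact absurd (lt_of_le_of_lt h1 hlt) (lt_irrefl _)

/-- (F1) a nonzero element algebraic over `K` has order `0` at every place. -/
theorem ord_eq_zero_of_isAlgebraic (v : Place K F) {y : F} (hy : IsAlgebraic K y) (hy0 : y ≠ 0) :
    v.ord y = 0 := by
  apply le_antisymm (ord_le_zero_of_isAlgebraic v hy hy0)
  have h := ord_le_zero_of_isAlgebraic v hy.inv (inv_ne_zero hy0)
  rw [v.ord_inv] at h
  omega

/-- (F1') an element with nonzero order at some place is transcendental. -/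
theorem transcendental_of_ord_ne_zero (v : Place K F) {y : F} (hy : v.ord y ≠ 0) :
    Transcendental K y := by
  intro halg
  have hy0 : y ≠ 0 := by
    rintro rfl
    simp at hy
  exact hy (ord_eq_zero_of_isAlgebraic v halg hy0)

/-! ### (F2) exchange -/

open scoped IntermediateField.algebraAdjoinAdjoin in
/-- If `F / K(x)` is finite and `y` is transcendental over `K`, then `F / K(y)` is algebraic. -/
theorem isAlgebraic_adjoin_of_transcendental {x : F} [FiniteDimensional K⟮x⟯ F]
    {y : F} (hy : Transcendental K y) : Algebra.IsAlgebraic K⟮y⟯ F := by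
  have h0 : Algebra.IsAlgebraic K⟮x⟯ F := Algebra.IsAlgebraic.of_finite _ _
  have h1 : Algebra.IsAlgebraic (Algebra.adjoin K ({x} : Set F)) F :=
    (IsFractionRing.comap_isAlgebraic_iff (A := Algebra.adjoin K ({x} : Set F)) (K := K⟮x⟯)).mpr h0
  have hle : Algebra.trdeg K F ≤ 1 := by
    have := Algebra.IsAlgebraic.trdeg_le_cardinalMk K ({x} : Set F)
    simpa using this
  have hind : AlgebraicIndependent K (fun _ : Unit => y) :=
    algebraicIndependent_unique_type_iff.mpr hy
  have hb : IsTranscendenceBasis K (fun _ : Unit => y) := by
    apply hind.isTranscendenceBasis_of_lift_trdeg_le_of_finite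
    simpa using hle
  have h2 := hb.isAlgebraic
  have hr : Set.range (fun _ : Unit => y) = {y} := by
    ext; simp [eq_comm]
  rw [hr] at h2
  exact (IsFractionRing.comap_isAlgebraic_iff (A := Algebra.adjoin K ({y} : Set F))
    (K := K⟮y⟯)).mp h2

/-- (F2) If `F / K(x)` is finite and `y` is transcendental over `K`, then `F / K(y)` is finite. -/
theorem finiteDimensional_adjoin_of_transcendental {x : F} [FiniteDimensional K⟮x⟯ F]
    {y : F} (hy : Transcendental K y) : FiniteDimensional K⟮y⟯ F := by
  have h1 : Algebra.EssFiniteType K K⟮x⟯ :=
    IntermediateField.essFiniteType_iff.mpr ⟨{x}, by simp⟩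
  have h2 : Algebra.EssFiniteType K F := Algebra.EssFiniteType.comp K K⟮x⟯ F
  have h3 : Algebra.EssFiniteType K⟮y⟯ F := Algebra.EssFiniteType.of_comp K K⟮y⟯ F
  have h4 : Algebra.IsAlgebraic K⟮y⟯ F := isAlgebraic_adjoin_of_transcendental (x := x) hy
  exact Algebra.finite_of_essFiniteType_of_isAlgebraic

/-! ### (F3) residue fields are finite -/

section Finite

variable (K) (x : F) [FiniteDimensional K⟮x⟯ F]

include x

/-- (F3) every place of a function field of one variable has finite residue field. -/
theorem finite_residueField (v : Place K F) : Module.Finite K v.ResidueField := by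
  have hord : v.ord (unif v) = 1 := by
    have h1 := adicValuation_unif v
    rw [v.adicValuation_eq_exp_neg_ord (unif_ne_zero v), exp_inj] at h1
    omega
  have htr : Transcendental K (unif v) :=
    transcendental_of_ord_ne_zero v (by rw [hord]; exact one_ne_zero)
  have := finiteDimensional_adjoin_of_transcendental (x := x) htr
  exact finite_residueField_of_ord_pos v (unif v) (by rw [hord]; exact one_pos)

/-- (F3) every place of a function field of one variable has finite residue field. -/
theorem finiteResidue (v : Place K F) : v.FiniteResidue := ⟨finite_residueField K x v⟩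

/-- the degree of a place is positive. -/
theorem deg_pos (v : Place K F) : 0 < v.deg := by
  have := finite_residueField K x v
  exact Module.finrank_pos

/-! ### (F4) finiteness of zeros and poles -/

/-- (F4) a nonzero function has finitely many zeros. -/
theorem finite_zeros {f : F} (hf : f ≠ 0) : {v : Place K F | 0 < v.ord f}.Finite := by
  by_cases halg : IsAlgebraic K f
  · convert Set.finite_empty
    ext v
    simp only [Set.mem_ofPred_eq, Set.mem_empty_iff_false, iff_false, not_lt]
    rw [ord_eq_zero_of_isAlgebraic v halg hf]
  · have htr : Transcendental K f := halg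
    have := finiteDimensional_adjoin_of_transcendental (x := x) htr
    by_contra hinf
    have hinf' : {v : Place K F | 0 < v.ord f}.Infinite := hinf
    obtain ⟨S, hS, hcard⟩ := hinf'.exists_subset_card_eq (finrank K⟮f⟯ F + 1)
    have h1 := sum_ord_mul_deg_le_finrank S f (fun v hv => hS hv)
    have h2 : (S.card : ℤ) ≤ ∑ v ∈ S, v.ord f * (v.deg : ℤ) := by
      rw [Finset.card_eq_sum_ones, Nat.cast_sum]
      refine Finset.sum_le_sum fun v hv => ?_
      have ho : 0 < v.ord f := hS hv
      have hd : (0 : ℤ) < v.deg := by exact_mod_cast deg_pos K x v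
      push_cast
      nlinarith
    rw [hcard] at h2
    push_cast at h2
    omega

/-- (F4) a nonzero function has finitely many poles. -/
theorem finite_poles {f : F} (hf : f ≠ 0) : {v : Place K F | v.ord f < 0}.Finite := by
  have h := finite_zeros K x (inv_ne_zero hf)
  convert h using 1
  ext v
  simp only [Set.mem_ofPred_eq, v.ord_inv]
  omega

/-- (F4) the order function of a nonzero function has finite support. -/
theorem finite_support_ord {f : F} (hf : f ≠ 0) :
    (Function.support fun v : Place K F => v.ord f).Finite := by
  refine ((finite_zeros K x hf).union (finite_poles K x hf)).subset ?_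
  intro v hv
  simp only [Function.mem_support, ne_eq] at hv
  simp only [Set.mem_union, Set.mem_ofPred_eq]
  omega

/-- (F4) the divisor of a nonzero function exists. -/
theorem exists_divisor_ord {f : F} (hf : f ≠ 0) :
    ∃ D : Divisor K F, ∀ v : Place K F, D v = v.ord f :=
  ⟨Finsupp.ofSupportFinite _ (finite_support_ord K x hf), fun _ => rfl⟩

end Finite

end Fermat.Agent.Lib.RiemannRoch.FunctionField
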