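import Fermat.Agent.Lib.RiemannRoch.Consequences
import Fermat.Agent.S24.PrincipalDiv
import Fermat.Agent.S24.PrincDiv

/-!
# Riemann's theorem over an algebraically closed field of characteristic zero

All hypotheses of `riemann` are discharged using the P-S24 dictionary (`Fermat.Agent.S24.PD`,
`Fermat.Agent.S24.PDiv`): for `K` algebraically closed of characteristic zero, `x : F`
transcendental over `K` and `F / K(x)` finite.
-/

set_option autoImplicit false
set_option linter.unusedSectionVars false
set_option linter.style.haveILetI false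

noncomputable section

open AlgebraicCurve WithZero Module IntermediateField

namespace Fermat.Agent.Lib.RiemannRoch

variable {K F : Type*} [Field K] [Field F] [Algebra K F] [IsAlgClosed K] [CharZero K]

section

variable {x : F} (hx : Transcendental K x) [FiniteDimensional K⟮x⟯ F]
include hx

theorem hasPrincipalDivisors_cz : HasPrincipalDivisors K F :=
  Fermat.Agent.S24.PD.hasPrincipalDivisors hx

theorem finiteResidue_cz (v : Place K F) : v.FiniteResidue :=
  ⟨Fermat.Agent.S24.PD.finite_residueField hx v⟩

theorem nonempty_place_cz : Nonempty (Place K F) := by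
  obtain ⟨inst, hsum⟩ := Fermat.Agent.S24.PDiv.sum_ord_poles x hx
  by_contra hne
  rw [not_nonempty_iff] at hne
  have : IsEmpty {v : Place K F // v.ord x < 0} := inferInstance
  rw [Finset.univ_eq_empty, Finset.sum_empty] at hsum
  have hpos : 0 < finrank K⟮x⟯ F := Module.finrank_pos
  omega

/-- The pole divisor of `x` has degree `[F : K(x)]`. -/
theorem exists_poleDivisor_cz : ∃ B : Divisor K F, (∀ v : Place K F, B v = max 0 (-(v.ord x))) ∧
    Divisor.degree B = finrank K⟮x⟯ F := by
  classical
  haveI := hasPrincipalDivisors_cz hx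
  have hx0 : x ≠ 0 := by
    rintro rfl
    exact hx isAlgebraic_zero
  obtain ⟨Dx, hDx, -⟩ := HasPrincipalDivisors.exists_divisor (K := K) x hx0
  set B : Divisor K F := 0 ⊔ -Dx with hBdef
  have hB : ∀ v : Place K F, B v = max 0 (-(v.ord x)) := by
    intro v
    rw [hBdef, Finsupp.sup_apply, Finsupp.neg_apply, hDx v]
    rfl
  refine ⟨B, hB, ?_⟩
  obtain ⟨inst, hsum⟩ := Fermat.Agent.S24.PDiv.sum_ord_poles x hx
  rw [degree_eq_sum, ← hsum]
  have hdeg : ∀ v : Place K F, (v.deg : ℤ) = 1 := fun v => by
    rw [Fermat.Agent.S24.PD.deg_eq_one hx v]; rfl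
  simp only [hdeg, mul_one]
  have hsupp : ∀ v : Place K F, v ∈ B.support ↔ v.ord x < 0 := by
    intro v
    rw [Finsupp.mem_support_iff, hB]
    constructor
    · intro h
      by_contra hcon
      exact h (max_eq_left (by omega))
    · intro h
      have : max 0 (-(v.ord x)) = -(v.ord x) := max_eq_right (by omega)
      omega
  rw [Finsupp.sum]
  have := Finset.sum_subtype (s := B.support) (p := fun v : Place K F => v.ord x < 0)
    (F := inst) hsupp (f := fun v => B v)
  rw [this]
  refine Finset.sum_congr rfl fun v _ => ?_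
  rw [hB]
  exact max_eq_right (by have := v.2; omega)

end

/-- **Riemann's theorem**, `K` algebraically closed of characteristic zero. -/
theorem riemann_cz {x : F} (hx : Transcendental K x) [FiniteDimensional K⟮x⟯ F]
    (D : Divisor K F) :
    Module.Finite K (riemannRochSpace D) ∧ Module.Finite K (H1 D) ∧
      (finrank K (riemannRochSpace D) : ℤ) - finrank K (H1 D) =
        Divisor.degree D + 1 - genusFF K F := by
  haveI := hasPrincipalDivisors_cz hx
  haveI : ∀ v : Place K F, v.FiniteResidue := finiteResidue_cz hx
  haveI := nonempty_place_cz hx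
  obtain ⟨B, hB, hdeg⟩ := exists_poleDivisor_cz hx
  obtain ⟨h1, h2⟩ := riemann x hx hB hdeg.le D
  refine ⟨finite_riemannRochSpace D, h1, ?_⟩
  rw [ell_zero_eq_one] at h2
  exact_mod_cast h2

/-- Riemann's inequality, `K` algebraically closed of characteristic zero. -/
theorem exists_rr_le_cz {x : F} (hx : Transcendental K x) [FiniteDimensional K⟮x⟯ F] :
    haveI := hasPrincipalDivisors_cz hx
    haveI : ∀ v : Place K F, v.FiniteResidue := finiteResidue_cz hx
    haveI := nonempty_place_cz hx
    ∃ γ : ℤ, ∀ D : Divisor K F, rr D ≤ γ := by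
  haveI := hasPrincipalDivisors_cz hx
  haveI : ∀ v : Place K F, v.FiniteResidue := finiteResidue_cz hx
  haveI := nonempty_place_cz hx
  obtain ⟨B, hB, hdeg⟩ := exists_poleDivisor_cz hx
  exact exists_rr_le x hx hB hdeg.le

end Fermat.Agent.Lib.RiemannRoch
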