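import Mathlib
import Fermat.Prelude.Def_AlgebraicCurve_CanonicalDivisor
import Fermat.Prelude.Def_AlgebraicCurve_Repartitions
import Fermat.Agent.S24.FFDataAll

/-!
helper8 (RR library, Part III, Kaehler link).  **Characteristic zero only** (the identification
of the order of `dx` with the tame different exponent needs tameness; everything here is used
only for `AlgebraicCurve.genus`, the Kaehler genus of the Prelude).

Setting: `K` algebraically closed of characteristic zero, `x : F` transcendental, `F / K(x)` finite.
* `hasCanonicalDivisor_of_divisor_dx`: if the orders of `dx` form a divisor `W` then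
  `HasCanonicalDivisor K F`.
* `degree_eq_degree_dx`: every nonzero differential has a divisor of the same degree as `W`.
* `genus_eq_of_degree_dx`: `2 g - 2 = deg W → AlgebraicCurve.genus K F = g`.
* `genus_eq_genusFF`: if moreover `deg W = 2 genusFF - 2` (Riemann-Roch, lattice duality) then
  the Kaehler genus equals the adelic genus.
-/

set_option autoImplicit false

open AlgebraicCurve KaehlerDifferential IntermediateField

noncomputable section

namespace Fermat.Agent.Lib.RiemannRoch.KaehlerLink

variable {K F : Type*} [Field K] [Field F] [Algebra K F] [IsAlgClosed K] [CharZero K]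
variable {x : F} (hx : Transcendental K x) [FiniteDimensional K⟮x⟯ F]

include hx

/-- The order of `f • dx` at `v`. -/
theorem ordDifferential_smul_dx (v : Place K F) {f : F} (hf : f ≠ 0) :
    v.ordDifferential (f • D K F x) = v.ord f + v.ordDifferential (D K F x) := by
  have h := Fermat.Agent.S24.FFDataAll.ffData hx
  have hnt : Nontrivial Ω[F⁄K] := ⟨⟨_, _, h.dx_ne⟩⟩
  have := h.dcoord v
  have hc : v.differentialCoeff (D K F x) ≠ 0 := by
    intro h0
    have h1 := v.differentialCoeff_smul_dCoord (D K F x)
    rw [h0, zero_smul] at h1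
    exact h.dx_ne h1.symm
  exact v.ordDifferential_smul hf hc

/-- Every nonzero differential is `f • dx` with `f ≠ 0`. -/
theorem exists_eq_smul_dx {ω : Ω[F⁄K]} (hω : ω ≠ 0) : ∃ f : F, f ≠ 0 ∧ ω = f • D K F x := by
  have h := Fermat.Agent.S24.FFDataAll.ffData hx
  have hmem : ω ∈ Submodule.span F {D K F x} := by rw [h.span_dx]; exact Submodule.mem_top
  obtain ⟨f, hf⟩ := Submodule.mem_span_singleton.mp hmem
  refine ⟨f, ?_, hf.symm⟩
  rintro rfl
  rw [zero_smul] at hf
  exact hω hf.symm

/-- If the orders of `dx` form a divisor, every nonzero differential has a divisor. -/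
theorem hasCanonicalDivisor_of_divisor_dx (W : Divisor K F)
    (hW : ∀ v : Place K F, W v = v.ordDifferential (D K F x)) :
    HasCanonicalDivisor (K := K) (F := F) := by
  refine ⟨fun ω hω => ?_⟩
  obtain ⟨f, hf0, rfl⟩ := exists_eq_smul_dx hx hω
  have hpd : HasPrincipalDivisors K F := Fermat.Agent.S24.PD.hasPrincipalDivisors hx
  obtain ⟨E, hE, -⟩ := HasPrincipalDivisors.exists_divisor (K := K) f hf0
  refine ⟨E + W, fun v => ?_⟩
  rw [Finsupp.add_apply, hE, hW, ordDifferential_smul_dx hx v hf0]

/-- Every nonzero differential has a divisor of the same degree as the divisor of `dx`. -/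
theorem degree_eq_degree_dx (W : Divisor K F)
    (hW : ∀ v : Place K F, W v = v.ordDifferential (D K F x))
    {ω : Ω[F⁄K]} (hω : ω ≠ 0) (Dω : Divisor K F)
    (hDω : ∀ v : Place K F, Dω v = v.ordDifferential ω) :
    Divisor.degree Dω = Divisor.degree W := by
  have h := Fermat.Agent.S24.FFDataAll.ffData hx
  obtain ⟨f, hf0, rfl⟩ := exists_eq_smul_dx hx hω
  have hE : ∀ v : Place K F, (Dω - W) v = v.ord f := by
    intro v
    rw [Finsupp.sub_apply, hDω, hW, ordDifferential_smul_dx hx v hf0]
    ring
  have h0 := h.deg_principal f hf0 (Dω - W) hE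
  rw [map_sub, sub_eq_zero] at h0
  exact h0

/-- The Kaehler genus from the degree of the divisor of `dx`. -/
theorem genus_eq_of_degree_dx [HasCanonicalDivisor (K := K) (F := F)] (W : Divisor K F)
    (hW : ∀ v : Place K F, W v = v.ordDifferential (D K F x)) (g : ℕ)
    (hg : (2 * g : ℤ) - 2 = Divisor.degree W) :
    AlgebraicCurve.genus K F = g := by
  have h := Fermat.Agent.S24.FFDataAll.ffData hx
  have hex : ∃ ω : Ω[F⁄K], ω ≠ 0 := ⟨_, h.dx_ne⟩
  rw [AlgebraicCurve.genus, dif_pos hex]
  have hdeg := degree_eq_degree_dx hx W hW hex.choose_spec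
    (canonicalDivisorOf hex.choose_spec) (fun v => canonicalDivisorOf_apply hex.choose_spec v)
  rw [hdeg, ← hg]
  have h2 : (2 * (g : ℤ) - 2 + 2).toNat = 2 * g := by
    have : (2 * (g : ℤ) - 2 + 2) = ((2 * g : ℕ) : ℤ) := by push_cast; ring
    rw [this, Int.toNat_natCast]
  rw [h2]
  omega

/-- **Kaehler genus = adelic genus**, given that the divisor `W` of `dx` has degree
`2 genusFF - 2` (which is what Riemann-Roch with canonical divisor `W` gives). -/
theorem genus_eq_genusFF [HasCanonicalDivisor (K := K) (F := F)] (W : Divisor K F)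
    (hW : ∀ v : Place K F, W v = v.ordDifferential (D K F x))
    (hdeg : Divisor.degree W = 2 * (genusFF K F : ℤ) - 2) :
    AlgebraicCurve.genus K F = genusFF K F :=
  genus_eq_of_degree_dx hx W hW (genusFF K F) hdeg.symm

end Fermat.Agent.Lib.RiemannRoch.KaehlerLink

end
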