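import Mathlib
import Fermat.Agent.S20.RR.DualCount
import Fermat.Agent.S24.PlacesDedekind
import Fermat.Agent.S24.DiffOrdAll
import Fermat.Agent.Lib.RiemannRoch.KaehlerLink

/-!
helper8 (RR library, Part III, Kaehler link).  **Characteristic zero only.**

Generic AKLB setting of `S20/RR/DualCount.lean` (`A` Dedekind with fraction field `E`, `F / E`
finite separable, `B` the integral closure of `A` in `F`), with `K ⊆ A` algebraically closed of
characteristic zero and `F / K` a function field (`x` transcendental, `F / K(x)` finite).
For a prime `w` of `B` over a principal prime `(π)` of `A`, the exponent of `w` in the different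
of `B / A` is the order at the place of `w` of the Kaehler differential `d π`:
`count w Diff = ord_w (dπ / dt_w)`.
-/

set_option autoImplicit false

open AlgebraicCurve KaehlerDifferential IntermediateField IsDedekindDomain
  IsDedekindDomain.HeightOneSpectrum FractionalIdeal nonZeroDivisors
open Fermat.Agent.S20.RR.DedekindMem Fermat.Agent.S20.RR.DualCount Fermat.Agent.S24.PD

noncomputable section

namespace Fermat.Agent.Lib.RiemannRoch.TameDifferent

variable {K : Type*} [Field K] [IsAlgClosed K] [CharZero K]
variable (A E : Type*) (F : Type*) {B : Type*} [CommRing A] [Field E] [CommRing B] [Field F]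
  [Algebra A E] [Algebra B F] [Algebra A B] [Algebra E F] [Algebra A F]
  [IsScalarTower A E F] [IsScalarTower A B F]
  [IsFractionRing A E] [FiniteDimensional E F] [Algebra.IsSeparable E F] [IsIntegralClosure B A F]
  [IsDedekindDomain A] [IsDedekindDomain B] [IsFractionRing B F] [Module.IsTorsionFree A B]
  [Algebra K A] [Algebra K B] [Algebra K F] [IsScalarTower K B F]

omit [IsAlgClosed K] [CharZero K] [Algebra A B] [Algebra A F] [IsScalarTower A B F]
  [IsIntegralClosure B A F] [IsDedekindDomain A] [Module.IsTorsionFree A B] [Algebra K A] in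
/-- The place of a prime of `B` computes `ordAt`. -/
theorem placeOfPrime_ord_eq_ordAt (w : HeightOneSpectrum B) (f : F) :
    (placeOfPrime (K := K) (F := F) w).ord f = ordAt F w f :=
  placeOfPrime_ord w f

include E in
/-- **Tame different exponent as the order of a Kaehler differential.** -/
theorem count_differentIdeal_eq_ordDifferential {x : F} (hx : Transcendental K x)
    [FiniteDimensional K⟮x⟯ F] (v : HeightOneSpectrum A) (w : HeightOneSpectrum B)
    [w.asIdeal.LiesOver v.asIdeal] {π : A} (hπ : v.asIdeal = Ideal.span {π}) :
    count F w ((differentIdeal A B : Ideal B) : FractionalIdeal B⁰ F) =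
      (placeOfPrime (K := K) (F := F) w).ordDifferential (D K F (algebraMap A F π)) ∧
    (placeOfPrime (K := K) (F := F) w).ord (algebraMap A F π) =
      (w.asIdeal.ramificationIdx A : ℤ) := by
  have h1 := count_differentIdeal_of_algebra A E F K w
  have h2 := ordAt_algebraMap_generator A E F v w hπ
  have h3 := placeOfPrime_ord_eq_ordAt (K := K) F w (algebraMap A F π)
  have : Module.Finite A B := IsIntegralClosure.finite A E F B
  have hpos : 0 < w.asIdeal.ramificationIdx A := Ideal.ramificationIdx_pos w.asIdeal A
  have hne : (placeOfPrime (K := K) (F := F) w).ord (algebraMap A F π) ≠ 0 := by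
    rw [h3, h2]
    exact_mod_cast hpos.ne'
  have h4 := Fermat.Agent.S24.ffData_ord_diff x hx (placeOfPrime (K := K) (F := F) w)
    (algebraMap A F π) hne
  refine ⟨?_, by rw [h3, h2]⟩
  rw [h1, h4, h3, h2]

include E in
/-- Finite-place form: if `d π = d x` (e.g. `π = x - a`), the exponent of the different at `w` is
the order of `dx` at the place of `w`. -/
theorem count_differentIdeal_eq_ordDifferential_dx {x : F} (hx : Transcendental K x)
    [FiniteDimensional K⟮x⟯ F] (v : HeightOneSpectrum A) (w : HeightOneSpectrum B)
    [w.asIdeal.LiesOver v.asIdeal] {π : A} (hπ : v.asIdeal = Ideal.span {π})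
    (hD : D K F (algebraMap A F π) = D K F x) :
    count F w ((differentIdeal A B : Ideal B) : FractionalIdeal B⁰ F) =
      (placeOfPrime (K := K) (F := F) w).ordDifferential (D K F x) := by
  rw [(count_differentIdeal_eq_ordDifferential A E F hx v w hπ).1, hD]

include E in
/-- Infinite-place form: if `π = x⁻¹`, the exponent of the different at `w` minus twice the
ramification index is the order of `dx` at the place of `w`; moreover `ord_w x = -e_w`. -/
theorem count_differentIdeal_sub_eq_ordDifferential_dx {x : F} (hx : Transcendental K x)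
    [FiniteDimensional K⟮x⟯ F] (v : HeightOneSpectrum A) (w : HeightOneSpectrum B)
    [w.asIdeal.LiesOver v.asIdeal] {π : A} (hπ : v.asIdeal = Ideal.span {π})
    (hinv : algebraMap A F π = x⁻¹) :
    count F w ((differentIdeal A B : Ideal B) : FractionalIdeal B⁰ F) -
        2 * (w.asIdeal.ramificationIdx A : ℤ) =
      (placeOfPrime (K := K) (F := F) w).ordDifferential (D K F x) ∧
    (placeOfPrime (K := K) (F := F) w).ord x = -(w.asIdeal.ramificationIdx A : ℤ) := by
  obtain ⟨h1, h2⟩ := count_differentIdeal_eq_ordDifferential A E F hx v w hπ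
  have hx0 : x ≠ 0 := by
    rintro rfl
    exact hx (isAlgebraic_zero)
  set P := placeOfPrime (K := K) (F := F) w with hP
  rw [hinv] at h1 h2
  have hord : P.ord x = -(w.asIdeal.ramificationIdx A : ℤ) := by
    have := P.ord_inv x
    omega
  refine ⟨?_, hord⟩
  have hne : -x⁻¹ ^ 2 ≠ 0 := neg_ne_zero.mpr (pow_ne_zero _ (inv_ne_zero hx0))
  rw [h1, Derivation.leibniz_inv,
    Fermat.Agent.Lib.RiemannRoch.KaehlerLink.ordDifferential_smul_dx hx P hne]
  have h3 : P.ord (-x⁻¹ ^ 2) = 2 * P.ord x⁻¹ := by
    have h4 : P.ord (-x⁻¹ ^ 2) = P.ord (x⁻¹ ^ (2 : ℤ)) := by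
      simp only [Place.ord, Valuation.map_neg]
      norm_cast
    rw [h4, P.ord_zpow]
  rw [h3, h2]
  ring

end Fermat.Agent.Lib.RiemannRoch.TameDifferent

end
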