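import Mathlib
import Fermat.Agent.S20.RR.DictionaryLine
import Fermat.Agent.Lib.RiemannRoch.TameDifferent

/-!
helper8 (RR library, Part III, Kaehler link).  **Characteristic zero only** from section `Charts`
on (section `Bridge` and `Poly` are characteristic free).

`E`-setting of `S20/RR/DictionaryLine.lean`: `E = Frac K[X]`, `F / E` finite separable,
`x = xF K E F`.
* `Bridge`: `x` is transcendental over `K`, the image of `E` in `F` is `K(x)`, and `F / K(x)` is
  finite (so all the `x`-setting results of the library apply in the `E`-setting).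
* `Poly`: over algebraically closed `K`, every nonzero prime of `polyR K E ≃ K[X]` is `(X - a)`.
* `Charts` (`K` algebraically closed of characteristic zero): the exponents of the differents
  of the two charts are the orders of the Kaehler differential `dx`:
  `count_differentIdeal_polyR`: `count w Diff_R = ord_w (dx)`;
  `count_differentIdeal_inftyS`: `count w Diff_S - 2 e_w = ord_w (dx)` and `ord_w x = -e_w`.
-/

set_option autoImplicit false
set_option linter.unusedSectionVars false
set_option linter.style.haveILetI false

open AlgebraicCurve KaehlerDifferential IntermediateField IsDedekindDomain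
  IsDedekindDomain.HeightOneSpectrum FractionalIdeal nonZeroDivisors Polynomial
open Fermat.Agent.S20.RR.DedekindMem Fermat.Agent.S20.RR.DualCount Fermat.Agent.S24.PD
open Fermat.Agent.S20.RR.LineDataFrac Fermat.Agent.S20.RR.Dictionary
open Fermat.Agent.Lib.RiemannRoch.TameDifferent

noncomputable section

namespace Fermat.Agent.Lib.RiemannRoch.KaehlerCharts

section Bridge

variable {K E F : Type*} [Field K] [Field E] [Field F]
  [Algebra K[X] E] [IsFractionRing K[X] E] [Algebra K E] [IsScalarTower K K[X] E]
  [Algebra K F] [Algebra E F] [IsScalarTower K E F] [FiniteDimensional E F]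

/-- The coordinate `x` of the `E`-setting is transcendental over `K`. -/
theorem transcendental_xF : Transcendental K (xF K E F) := by
  rw [transcendental_iff_injective]
  intro p q h
  rw [← algebraMap_poly_eq_aeval, ← algebraMap_poly_eq_aeval] at h
  exact IsFractionRing.injective K[X] E ((algebraMap E F).injective h)

/-- The image of `E` in `F` is `K(x)`. -/
theorem fieldRange_eq_adjoin_xF :
    (IsScalarTower.toAlgHom K E F).fieldRange = K⟮xF K E F⟯ := by
  apply IsFractionRing.algHom_fieldRange_eq_of_comp_eq_of_range_eq (A := K[X])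
    (g := aeval (xF K E F))
  · ext p
    · simp only [RingHom.coe_comp, Function.comp_apply, RingHom.coe_coe, IsScalarTower.coe_toAlgHom',
        aeval_C]
      rw [← algebraMap_eq_C, ← IsScalarTower.algebraMap_apply K E F]
    · simp only [RingHom.coe_comp, Function.comp_apply, RingHom.coe_coe, IsScalarTower.coe_toAlgHom',
        aeval_X]
      rfl
  · exact (Algebra.adjoin_singleton_eq_range_aeval K (xF K E F)).symm

theorem algebraMap_mem_adjoin_xF (e : E) : algebraMap E F e ∈ K⟮xF K E F⟯ := by
  rw [← fieldRange_eq_adjoin_xF]
  exact ⟨e, rfl⟩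

/-- `F` is finite over `K(x)`. -/
instance finiteDimensional_adjoin_xF : FiniteDimensional K⟮xF K E F⟯ F := by
  let f : E →+* K⟮xF K E F⟯ :=
    (algebraMap E F).codRestrict K⟮xF K E F⟯.toSubfield.toSubring algebraMap_mem_adjoin_xF
  letI : Algebra E K⟮xF K E F⟯ := f.toAlgebra
  haveI : IsScalarTower E K⟮xF K E F⟯ F := IsScalarTower.of_algebraMap_eq (fun e => rfl)
  exact Module.Finite.of_restrictScalars_finite E K⟮xF K E F⟯ F

end Bridge

section Poly

variable {K : Type*} [Field K] [IsAlgClosed K]

/-- Over an algebraically closed field every irreducible polynomial generates an ideal `(X - a)`. -/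
theorem exists_span_X_sub_C {q : K[X]} (hq : Irreducible q) :
    ∃ a : K, Ideal.span {q} = Ideal.span {X - C a} := by
  have hdeg := IsAlgClosed.degree_eq_one_of_irreducible K hq
  have h1 := Polynomial.eq_X_add_C_of_degree_eq_one hdeg
  have hlc : q.leadingCoeff ≠ 0 := leadingCoeff_ne_zero.mpr hq.ne_zero
  refine ⟨-(q.coeff 0 / q.leadingCoeff), ?_⟩
  have h2 : q = C q.leadingCoeff * (X - C (-(q.coeff 0 / q.leadingCoeff))) := by
    conv_lhs => rw [h1]
    rw [mul_sub, ← C_mul, mul_neg, mul_div_cancel₀ _ hlc, C_neg, sub_neg_eq_add]
  have hu : IsUnit (C q.leadingCoeff) := isUnit_C.mpr (isUnit_iff_ne_zero.mpr hlc)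
  conv_lhs => rw [h2]
  exact Ideal.span_singleton_mul_left_unit hu _

variable {E : Type*} [Field E] [Algebra K[X] E] [IsFractionRing K[X] E] [Algebra K E]
  [IsScalarTower K K[X] E]

/-- Every nonzero prime of the affine coordinate ring `polyR K E ≃ K[X]` is `(X - a)`. -/
theorem exists_span_polyR (p : Ideal ↥(polyR K E)) [p.IsPrime] (hp : p ≠ ⊥) :
    ∃ a : K, p = Ideal.span {polyEquiv K E (X - C a)} := by
  have hprin : p.IsPrincipal := IsPrincipalIdealRing.principal p
  have hπ : Prime (Submodule.IsPrincipal.generator p) :=
    Submodule.IsPrincipal.prime_generator_of_isPrime p hp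
  set π := Submodule.IsPrincipal.generator p with hπdef
  have hspan : p = Ideal.span {π} := (Ideal.span_singleton_generator p).symm
  set q := (polyEquiv K E).symm π with hqdef
  have hq : Irreducible q :=
    (MulEquiv.irreducible_iff (polyEquiv K E).symm.toMulEquiv).mpr hπ.irreducible
  obtain ⟨a, ha⟩ := exists_span_X_sub_C hq
  refine ⟨a, ?_⟩
  have hπq : π = polyEquiv K E q := by rw [hqdef, AlgEquiv.apply_symm_apply]
  have := congrArg (Ideal.map (polyEquiv K E : K[X] →+* ↥(polyR K E))) ha
  rw [Ideal.map_span, Ideal.map_span, Set.image_singleton, Set.image_singleton] at this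
  rw [hspan, hπq]
  exact this

end Poly

section Charts

variable {K E F : Type*} [Field K] [Field E] [Field F] [IsAlgClosed K] [CharZero K]
  [Algebra K[X] E] [IsFractionRing K[X] E] [Algebra K E] [IsScalarTower K K[X] E]
  [Algebra K F] [Algebra E F] [IsScalarTower K E F] [FiniteDimensional E F]
  [Algebra.IsSeparable E F]

instance isScalarTower_intCl (A : Subalgebra K E) :
    IsScalarTower ↥A ↥(IntCl (F := F) A) F :=
  IsScalarTower.of_algebraMap_eq (fun _ => rfl)

instance isTorsionFree_intCl (A : Subalgebra K E) [IsDedekindDomain A] [IsFractionRing A E] :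
    Module.IsTorsionFree ↥A ↥(IntCl (F := F) A) :=
  isTorsionFree_of_isIntegralClosure ↥A E F ↥(IntCl (F := F) A)

/-- The prime of `A` below a prime of the integral closure. -/
def primeBelow (A : Subalgebra K E) [IsDedekindDomain A] [IsFractionRing A E]
    (w : HeightOneSpectrum (IntCl (F := F) A)) : HeightOneSpectrum ↥A where
  asIdeal := w.asIdeal.under ↥A
  isPrime := inferInstance
  ne_bot := by
    have : Algebra.IsIntegral ↥A ↥(IntCl (F := F) A) := IsIntegralClosure.isIntegral_algebra ↥A F
    exact mt Ideal.eq_bot_of_comap_eq_bot w.ne_bot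

instance liesOver_primeBelow (A : Subalgebra K E) [IsDedekindDomain A] [IsFractionRing A E]
    (w : HeightOneSpectrum (IntCl (F := F) A)) :
    w.asIdeal.LiesOver (primeBelow A w).asIdeal := ⟨rfl⟩

theorem algebraMap_polyEquiv (p : K[X]) :
    algebraMap ↥(polyR K E) F (polyEquiv K E p) = aeval (xF K E F) p := by
  rw [← algebraMap_poly_eq_aeval]
  rfl

/-- **Finite places.**  The exponent of the different of the affine chart at a prime `w` is the
order of `dx` at the corresponding place. -/
theorem count_differentIdeal_polyR (w : HeightOneSpectrum (IntCl (F := F) (polyR K E))) :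
    count F w ((differentIdeal ↥(polyR K E) ↥(IntCl (F := F) (polyR K E)) :
        Ideal ↥(IntCl (F := F) (polyR K E))) :
        FractionalIdeal (↥(IntCl (F := F) (polyR K E)))⁰ F) =
      (placeOf w : Place K F).ordDifferential (D K F (xF K E F)) := by
  obtain ⟨a, ha⟩ := exists_span_polyR (primeBelow (polyR K E) w).asIdeal
    (primeBelow (polyR K E) w).ne_bot
  refine count_differentIdeal_eq_ordDifferential_dx ↥(polyR K E) E F (K := K)
    (transcendental_xF (K := K) (E := E) (F := F)) (primeBelow (polyR K E) w) w ha ?_
  rw [algebraMap_polyEquiv, map_sub, aeval_X, aeval_C, map_sub, Derivation.map_algebraMap,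
    sub_zero]

theorem algebraMap_unifS :
    algebraMap ↥(inftyS K E) F (unifS K E) = (xF K E F)⁻¹ := by
  change algebraMap E F (algebraMap K[X] E X)⁻¹ = _
  rw [map_inv₀]
  rfl

/-- **Infinite places.**  The exponent of the different of the chart at infinity at a prime `w`,
minus twice the ramification index, is the order of `dx` at the corresponding place; and the
order of `x` there is minus the ramification index. -/
theorem count_differentIdeal_inftyS (w : HeightOneSpectrum (IntCl (F := F) (inftyS K E))) :
    count F w ((differentIdeal ↥(inftyS K E) ↥(IntCl (F := F) (inftyS K E)) :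
        Ideal ↥(IntCl (F := F) (inftyS K E))) :
        FractionalIdeal (↥(IntCl (F := F) (inftyS K E)))⁰ F) -
        2 * (w.asIdeal.ramificationIdx ↥(inftyS K E) : ℤ) =
      (placeOf w : Place K F).ordDifferential (D K F (xF K E F)) ∧
    (placeOf w : Place K F).ord (xF K E F) = -(w.asIdeal.ramificationIdx ↥(inftyS K E) : ℤ) := by
  have hlies := liesOver_maximalIdeal ↥(inftyS K E) F w
  exact count_differentIdeal_sub_eq_ordDifferential_dx ↥(inftyS K E) E F (K := K)
    (transcendental_xF (K := K) (E := E) (F := F))
    (IsDiscreteValuationRing.maximalIdeal ↥(inftyS K E)) w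
    (irreducible_unifS (k := K) (E := E)).maximalIdeal_eq algebraMap_unifS

end Charts

end Fermat.Agent.Lib.RiemannRoch.KaehlerCharts

end
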