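import Mathlib
import Fermat.Agent.S20.RR.Canonical
import Fermat.Agent.Lib.RiemannRoch.KaehlerCharts
import Fermat.Agent.Lib.RiemannRoch.KaehlerLink
import Fermat.Agent.Lib.RiemannRoch.AlgClosedCharZero

/-!
helper8 (RR library, Part III, Kaehler link, final form).  **Characteristic zero only.**

`E`-setting of `S20/RR/DictionaryLine.lean` (`E = Frac K[X]`, `F / E` finite separable,
`x = xF K E F`) with `K` algebraically closed of characteristic zero.
* `canonicalX_eq_ordDifferential`: the characteristic-free canonical divisor `W_x = canonicalX`
  of `S20/RR/Canonical.lean` (defined from the differents of the two charts) is the divisor of the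
  Kaehler differential `dx`: `W_x v = ord_v (dx)` at every place.
* `hasCanonicalDivisor_line`: every nonzero Kaehler differential has a divisor.
* `genus_eq_genusFF_of_degree`, `genus_eq_genusFF_of_duality`: once `deg W_x = 2 genusFF - 2`
  (resp. once the duality `dim H¹(D) = l(W_x - D)` is known) the Kaehler genus
  `AlgebraicCurve.genus K F` of the Prelude equals the adelic genus `genusFF K F`.
-/

set_option autoImplicit false
set_option linter.unusedSectionVars false
set_option linter.style.haveILetI false

open AlgebraicCurve KaehlerDifferential IntermediateField IsDedekindDomain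
  IsDedekindDomain.HeightOneSpectrum FractionalIdeal nonZeroDivisors Polynomial Module
open Fermat.Agent.S20.RR.LineDataFrac Fermat.Agent.S20.RR.Dictionary Fermat.Agent.S20.RR.Canonical
open Fermat.Agent.Lib.RiemannRoch.KaehlerCharts

noncomputable section

namespace Fermat.Agent.Lib.RiemannRoch.KaehlerLinkFinal

variable {K E F : Type*} [Field K] [Field E] [Field F] [IsAlgClosed K] [CharZero K]
  [Algebra K[X] E] [IsFractionRing K[X] E] [Algebra K E] [IsScalarTower K K[X] E]
  [Algebra K F] [Algebra E F] [IsScalarTower K E F] [FiniteDimensional E F]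
  [Algebra.IsSeparable E F]

/-- **The canonical divisor `W_x` is the divisor of the Kaehler differential `dx`.** -/
theorem canonicalX_eq_ordDifferential (v : Place K F) :
    canonicalX K E F v = v.ordDifferential (D K F (xF K E F)) := by
  rcases mem_placesOver_polyR_or_inftyS (K := K) (E := E) v with hv | hv
  · rw [canonicalX_apply_of_polyR v hv]
    have h := count_differentIdeal_polyR (K := K) (E := E) (F := F) (primeOf v hv)
    rw [placeOf_primeOf] at h
    exact h
  · rw [canonicalX_apply_of_inftyS v hv]
    have h := (count_differentIdeal_inftyS (K := K) (E := E) (F := F) (primeOf v hv)).1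
    rw [placeOf_primeOf] at h
    exact h

/-- Every nonzero Kaehler differential of `F / K` has a divisor. -/
theorem hasCanonicalDivisor_line (K E F : Type*) [Field K] [Field E] [Field F] [IsAlgClosed K] [CharZero K]
    [Algebra K[X] E] [IsFractionRing K[X] E] [Algebra K E] [IsScalarTower K K[X] E]
    [Algebra K F] [Algebra E F] [IsScalarTower K E F] [FiniteDimensional E F]
    [Algebra.IsSeparable E F] :
    HasCanonicalDivisor (K := K) (F := F) :=
  KaehlerLink.hasCanonicalDivisor_of_divisor_dx (transcendental_xF (K := K) (E := E) (F := F))
    (canonicalX K E F) canonicalX_eq_ordDifferential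

/-- If `deg W_x = 2 genusFF - 2` then the Kaehler genus is the adelic genus. -/
theorem genus_eq_genusFF_of_degree (K E F : Type*) [Field K] [Field E] [Field F] [IsAlgClosed K] [CharZero K]
    [Algebra K[X] E] [IsFractionRing K[X] E] [Algebra K E] [IsScalarTower K K[X] E]
    [Algebra K F] [Algebra E F] [IsScalarTower K E F] [FiniteDimensional E F]
    [Algebra.IsSeparable E F] [HasCanonicalDivisor (K := K) (F := F)]
    (hdeg : Divisor.degree (canonicalX K E F) = 2 * (genusFF K F : ℤ) - 2) :
    AlgebraicCurve.genus K F = genusFF K F :=
  KaehlerLink.genus_eq_genusFF (transcendental_xF (K := K) (E := E) (F := F))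
    (canonicalX K E F) canonicalX_eq_ordDifferential hdeg

/-- If the duality theorem `dim H¹(D) = l(W_x - D)` holds then the Kaehler genus is the adelic
genus, and `deg W_x = 2 g - 2`. -/
theorem genus_eq_genusFF_of_duality (K E F : Type*) [Field K] [Field E] [Field F] [IsAlgClosed K] [CharZero K]
    [Algebra K[X] E] [IsFractionRing K[X] E] [Algebra K E] [IsScalarTower K K[X] E]
    [Algebra K F] [Algebra E F] [IsScalarTower K E F] [FiniteDimensional E F]
    [Algebra.IsSeparable E F] [HasCanonicalDivisor (K := K) (F := F)]
    (hW : ∀ D : Divisor K F, finrank K (H1 D) = finrank K (riemannRochSpace (canonicalX K E F - D))) :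
    AlgebraicCurve.genus K F = genusFF K F ∧
      Divisor.degree (canonicalX K E F) = 2 * (genusFF K F : ℤ) - 2 := by
  have hx := transcendental_xF (K := K) (E := E) (F := F)
  haveI := hasPrincipalDivisors_cz hx
  haveI : ∀ v : Place K F, v.FiniteResidue := finiteResidue_cz hx
  haveI := nonempty_place_cz hx
  have hγ := exists_rr_le_cz hx
  have hdeg := degree_canonical hγ (W := canonicalX K E F) hW
  rw [ell_zero_eq_one] at hdeg
  have hdeg' : Divisor.degree (canonicalX K E F) = 2 * (genusFF K F : ℤ) - 2 := by
    rw [hdeg]; norm_num
  exact ⟨genus_eq_genusFF_of_degree K E F hdeg', hdeg'⟩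

end Fermat.Agent.Lib.RiemannRoch.KaehlerLinkFinal

end
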