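import Mathlib
import Fermat.Agent.Lib.RiemannRoch.KaehlerLinkFinal

/-!
helper8 (RR library, Part III).  Bridge from the `x`-setting (`x : F` transcendental over `K`,
`F / K(x)` finite; the setting of `Lib/RiemannRoch/Riemann.lean` and of P-S24) to the `E`-setting
of `S20/RR/DictionaryLine.lean` (`E = Frac K[X]`, `F / E` finite separable), with `E := K(x)`:
* `polyAlgebra x : Algebra K[X] K⟮x⟯` (`X ↦ x`; a reducible def, use
  `attribute [local instance] polyAlgebra`), `isScalarTower_polyAlgebra`,
  `isFractionRing_polyAlgebra hx : IsFractionRing K[X] K⟮x⟯`, `xF_eq : xF K K⟮x⟯ F = x`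
  (characteristic free);
* **characteristic zero, `K` algebraically closed**: `exists_divisor_dx hx`: the orders of the
  Kaehler differential `dx` form a divisor; `hasCanonicalDivisor_cz hx : HasCanonicalDivisor`.
-/

set_option autoImplicit false
set_option linter.unusedSectionVars false
set_option linter.style.haveILetI false

open AlgebraicCurve KaehlerDifferential IntermediateField Polynomial Module
open Fermat.Agent.S20.RR.LineDataFrac Fermat.Agent.S20.RR.Dictionary Fermat.Agent.S20.RR.Canonical

noncomputable section

namespace Fermat.Agent.Lib.RiemannRoch.XSetting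

variable {K F : Type*} [Field K] [Field F] [Algebra K F] (x : F)

/-- The `K[X]`-algebra structure on `K(x)` with `X ↦ x`. -/
@[reducible] def polyAlgebra : Algebra K[X] K⟮x⟯ :=
  (aeval (AdjoinSimple.gen K x)).toRingHom.toAlgebra

attribute [local instance] polyAlgebra

theorem algebraMap_polyAlgebra (p : K[X]) :
    algebraMap K[X] K⟮x⟯ p = aeval (AdjoinSimple.gen K x) p := rfl

instance isScalarTower_polyAlgebra : IsScalarTower K K[X] K⟮x⟯ :=
  IsScalarTower.of_algebraMap_eq (fun a => by
    rw [algebraMap_polyAlgebra, ← Polynomial.C_eq_algebraMap, aeval_C])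

variable {x}

/-- For transcendental `x`, `K(x)` is the fraction field of `K[X]`. -/
theorem isFractionRing_polyAlgebra (hx : Transcendental K x) : IsFractionRing K[X] K⟮x⟯ := by
  let e : RatFunc K ≃ₐ[K[X]] K⟮x⟯ :=
    AlgEquiv.ofRingEquiv (f := (RatFunc.algEquivOfTranscendental x hx).toRingEquiv) (fun p => by
      change RatFunc.algEquivOfTranscendental x hx (algebraMap K[X] (RatFunc K) p) = _
      rw [RatFunc.algEquivOfTranscendental_algebraMap]
      rfl)
  exact IsFractionRing.of_algEquiv e

/-- The coordinate of the `E`-setting with `E = K(x)` is `x`. -/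
theorem xF_eq : xF K K⟮x⟯ F = x := by
  unfold xF
  rw [algebraMap_polyAlgebra, aeval_X]
  rfl

section CharZero

variable [IsAlgClosed K] [CharZero K] (hx : Transcendental K x) [FiniteDimensional K⟮x⟯ F]
include hx

/-- The orders of `dx` form a divisor (the canonical divisor `W_x`). -/
theorem exists_divisor_dx :
    ∃ W : Divisor K F, ∀ v : Place K F, W v = v.ordDifferential (D K F x) := by
  haveI := isFractionRing_polyAlgebra hx
  refine ⟨canonicalX K K⟮x⟯ F, fun v => ?_⟩
  have h := KaehlerLinkFinal.canonicalX_eq_ordDifferential (K := K) (E := K⟮x⟯) (F := F) v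
  rw [xF_eq] at h
  exact h

/-- Over an algebraically closed field of characteristic zero, every nonzero Kaehler differential
of a function field has a divisor. -/
theorem hasCanonicalDivisor_cz : HasCanonicalDivisor (K := K) (F := F) := by
  obtain ⟨W, hW⟩ := exists_divisor_dx hx
  exact KaehlerLink.hasCanonicalDivisor_of_divisor_dx hx W hW

end CharZero

end Fermat.Agent.Lib.RiemannRoch.XSetting

end
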