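import Mathlib
import Fermat.Prelude.Def_AlgebraicCurve_Repartitions
import Fermat.Agent.Lib.RiemannRoch.WeakApprox

/-!
helper8 (RR library, Part III bridge).  **Adelic `H¹` as a lattice-pair quotient.**

For a finite set `S` of places (the "infinite" places) and a divisor `D` put
`finPart S D = {f | ∀ v ∉ S, ord_v f ≥ -D v}` and `infPart S D = {f | ∀ v ∈ S, ord_v f ≥ -D v}`
(`K`-subspaces of `F`).  Then `riemannRochSpace D = finPart S D ⊓ infPart S D` and, assuming
that every function has finitely many poles and strong approximation off `S`,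
`H1 D ≃ₗ[K] F ⧸ (finPart S D ⊔ infPart S D)`.
-/

set_option autoImplicit false

open AlgebraicCurve WithZero
open scoped Classical

noncomputable section

namespace Fermat.Agent.Lib.RiemannRoch.H1Iso

variable {K F : Type*} [Field K] [Field F] [Algebra K F]

/-- functions satisfying the `D`-condition at all places outside `S` -/
def finPart (S : Finset (Place K F)) (D : Divisor K F) : Submodule K F where
  carrier := {f | ∀ v : Place K F, v ∉ S → v.adicValuation f ≤ exp (D v)}
  zero_mem' := by
    intro v _
    simp
  add_mem' := by
    intro f g hf hg v hv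
    exact (Valuation.map_add _ _ _).trans (max_le (hf v hv) (hg v hv))
  smul_mem' := by
    intro c f hf v hv
    show v.adicValuation (c • f) ≤ exp (D v)
    rw [Algebra.smul_def, map_mul]
    exact (mul_le_of_le_one_left' (v.adicValuation_algebraMap_le_one c)).trans (hf v hv)

/-- functions satisfying the `D`-condition at all places in `S` -/
def infPart (S : Finset (Place K F)) (D : Divisor K F) : Submodule K F where
  carrier := {f | ∀ v : Place K F, v ∈ S → v.adicValuation f ≤ exp (D v)}
  zero_mem' := by
    intro v _
    simp
  add_mem' := by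
    intro f g hf hg v hv
    exact (Valuation.map_add _ _ _).trans (max_le (hf v hv) (hg v hv))
  smul_mem' := by
    intro c f hf v hv
    show v.adicValuation (c • f) ≤ exp (D v)
    rw [Algebra.smul_def, map_mul]
    exact (mul_le_of_le_one_left' (v.adicValuation_algebraMap_le_one c)).trans (hf v hv)

theorem mem_finPart {S : Finset (Place K F)} {D : Divisor K F} {f : F} :
    f ∈ finPart S D ↔ ∀ v : Place K F, v ∉ S → v.adicValuation f ≤ exp (D v) := Iff.rfl

theorem mem_infPart {S : Finset (Place K F)} {D : Divisor K F} {f : F} :
    f ∈ infPart S D ↔ ∀ v : Place K F, v ∈ S → v.adicValuation f ≤ exp (D v) := Iff.rfl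

theorem mem_finPart_iff_ord {S : Finset (Place K F)} {D : Divisor K F} {f : F} :
    f ∈ finPart S D ↔ ∀ v : Place K F, v ∉ S → f = 0 ∨ -D v ≤ v.ord f :=
  forall_congr' fun v => imp_congr_right fun _ => v.adicValuation_le_exp_iff

theorem mem_infPart_iff_ord {S : Finset (Place K F)} {D : Divisor K F} {f : F} :
    f ∈ infPart S D ↔ ∀ v : Place K F, v ∈ S → f = 0 ∨ -D v ≤ v.ord f :=
  forall_congr' fun v => imp_congr_right fun _ => v.adicValuation_le_exp_iff

theorem riemannRochSpace_eq_inf (S : Finset (Place K F)) (D : Divisor K F) :
    riemannRochSpace D = finPart S D ⊓ infPart S D := by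
  ext f
  rw [Submodule.mem_inf, mem_finPart, mem_infPart]
  constructor
  · intro h
    exact ⟨fun v _ => h v, fun v _ => h v⟩
  · rintro ⟨h1, h2⟩ v
    by_cases hv : v ∈ S
    · exact h2 v hv
    · exact h1 v hv

section Repartitions

/-- Every repartition has finitely many poles, provided every element of `F` does. -/
theorem finite_poles (hF : ∀ f : F, {v : Place K F | ¬ v.adicValuation f ≤ 1}.Finite)
    (α : ↥(repartitions K F)) :
    {v : Place K F | ¬ v.adicValuation ((α : Place K F → F) v) ≤ 1}.Finite := by
  obtain ⟨α, hα⟩ := α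
  show {v : Place K F | ¬ v.adicValuation (α v) ≤ 1}.Finite
  unfold repartitions at hα
  induction hα using Algebra.adjoin_induction with
  | mem x hx => exact hx
  | algebraMap r => exact hF r
  | add x y _ _ hx hy =>
    apply (hx.union hy).subset
    intro v hv
    by_contra hcon
    rw [Set.mem_union, not_or] at hcon
    simp only [Set.mem_ofPred_eq, not_not] at hcon hv
    exact hv ((Valuation.map_add _ _ _).trans (max_le hcon.1 hcon.2))
  | mul x y _ _ hx hy =>
    apply (hx.union hy).subset
    intro v hv
    by_contra hcon
    rw [Set.mem_union, not_or] at hcon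
    simp only [Set.mem_ofPred_eq, not_not] at hcon hv
    apply hv
    show v.adicValuation (x v * y v) ≤ 1
    rw [map_mul]
    exact mul_le_one' hcon.1 hcon.2

/-- The repartition equal to `h` at the places of `S` and `0` elsewhere. -/
def infRep (S : Finset (Place K F)) (h : F) : ↥(repartitions K F) :=
  ⟨fun v => if v ∈ S then h else 0, mem_repartitions_of_finite (by
    apply S.finite_toSet.subset
    intro v hv
    by_contra hvS
    simp only [Set.mem_ofPred_eq] at hv
    rw [if_neg (by simpa using hvS)] at hv
    simp at hv)⟩

theorem infRep_apply (S : Finset (Place K F)) (h : F) (v : Place K F) :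
    ((infRep S h : ↥(repartitions K F)) : Place K F → F) v = if v ∈ S then h else 0 := rfl

/-- `infRep` as a `K`-linear map. -/
def infRepLinear (S : Finset (Place K F)) : F →ₗ[K] ↥(repartitions K F) where
  toFun := infRep S
  map_add' f g := by
    apply Subtype.ext
    funext v
    show (if v ∈ S then f + g else 0) = (if v ∈ S then f else 0) + (if v ∈ S then g else 0)
    split_ifs <;> simp
  map_smul' c f := by
    apply Subtype.ext
    funext v
    show (if v ∈ S then c • f else 0) = c • (if v ∈ S then f else 0)
    split_ifs <;> simp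

/-- The map `F → H¹(D)` sending `h` to the class of the repartition `h` on `S`, `0` off `S`. -/
def toH1 (S : Finset (Place K F)) (D : Divisor K F) : F →ₗ[K] H1 D :=
  (repartitionsOf D ⊔ principalRepartitions K F).mkQ ∘ₗ infRepLinear S

theorem coe_algebraMap_repartitions (f : F) (v : Place K F) :
    ((algebraMap F ↥(repartitions K F) f : ↥(repartitions K F)) : Place K F → F) v = f := rfl

theorem algebraMap_mem_principalRepartitions (f : F) :
    algebraMap F ↥(repartitions K F) f ∈ principalRepartitions K F :=
  mem_principalRepartitions_iff.mpr ⟨f, rfl⟩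

/-- The kernel of `F → H¹(D)` is the sum of the two lattices. -/
theorem ker_toH1 (S : Finset (Place K F)) (D : Divisor K F) :
    LinearMap.ker (toH1 S D) = finPart S D ⊔ infPart S D := by
  ext h
  rw [LinearMap.mem_ker, toH1, LinearMap.comp_apply, Submodule.mkQ_apply,
    Submodule.Quotient.mk_eq_zero, Submodule.mem_sup, Submodule.mem_sup]
  constructor
  · rintro ⟨γ, hγ, β, hβ, hsum⟩
    obtain ⟨f, hf⟩ := mem_principalRepartitions_iff.mp hβ
    have hval : ∀ v : Place K F, (γ : Place K F → F) v + f = if v ∈ S then h else 0 := by
      intro v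
      have := congrArg (fun x : ↥(repartitions K F) => (x : Place K F → F) v) hsum
      simp only [Subalgebra.coe_add, Pi.add_apply] at this
      rw [hf] at this
      exact this
    refine ⟨f, ?_, h - f, ?_, by ring⟩
    · intro v hv
      have h1 := hval v
      rw [if_neg hv] at h1
      have h2 : f = -((γ : Place K F → F) v) := by
        rw [eq_neg_iff_add_eq_zero, add_comm]; exact h1
      rw [h2, Valuation.map_neg]
      exact hγ v
    · intro v hv
      have h1 := hval v
      rw [if_pos hv] at h1
      have h2 : h - f = (γ : Place K F → F) v := by rw [← h1]; ring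
      rw [h2]
      exact hγ v
  · rintro ⟨f, hf, g, hg, rfl⟩
    refine ⟨infRepLinear S (f + g) - algebraMap F ↥(repartitions K F) f, ?_,
      algebraMap F ↥(repartitions K F) f, algebraMap_mem_principalRepartitions f, by
        rw [sub_add_cancel]⟩
    intro v
    show v.adicValuation ((if v ∈ S then f + g else 0) - f) ≤ exp (D v)
    by_cases hv : v ∈ S
    · rw [if_pos hv, add_sub_cancel_left]
      exact hg v hv
    · rw [if_neg hv, zero_sub, Valuation.map_neg]
      exact hf v hv

/-- Strong approximation off the finite set `S`: finitely many prescribed approximations at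
places outside `S`, integrality at all remaining places outside `S`. -/
def StrongApproxOff (S : Finset (Place K F)) : Prop :=
  ∀ T : Finset (Place K F), Disjoint T S → ∀ (a : Place K F → F) (n : Place K F → ℤ),
    ∃ f : F, (∀ v ∈ T, v.adicValuation (f - a v) ≤ exp (n v)) ∧
      ∀ v : Place K F, v ∉ T → v ∉ S → v.adicValuation f ≤ 1

/-- Strong approximation in `ord` form implies `StrongApproxOff`. -/
theorem strongApproxOff_of_ord (S : Finset (Place K F))
    (h : ∀ T : Finset (Place K F), Disjoint T S → ∀ (a : Place K F → F) (n : Place K F → ℤ),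
      ∃ f : F, (∀ v ∈ T, f = a v ∨ n v ≤ v.ord (f - a v)) ∧
        ∀ v : Place K F, v ∉ T → v ∉ S → f ∈ v.toValuationSubring) :
    StrongApproxOff S := by
  intro T hT a n
  obtain ⟨f, hf1, hf2⟩ := h T hT a (fun v => -n v)
  refine ⟨f, ?_, fun v hvT hvS => v.adicValuation_le_one_of_mem (hf2 v hvT hvS)⟩
  intro v hv
  rw [Place.adicValuation_le_exp_iff]
  rcases hf1 v hv with h0 | h1
  · left; rw [h0, sub_self]
  · right; exact h1

/-- Every element of `F` has finitely many poles when principal divisors exist. -/
theorem finite_poles_of_hasPrincipalDivisors [HasPrincipalDivisors K F] (f : F) :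
    {v : Place K F | ¬ v.adicValuation f ≤ 1}.Finite := by
  rcases eq_or_ne f 0 with rfl | hf
  · have : {v : Place K F | ¬ v.adicValuation (0 : F) ≤ 1} = ∅ := by
      ext v
      simp
    rw [this]
    exact Set.finite_empty
  · obtain ⟨D, hD, _⟩ := HasPrincipalDivisors.exists_divisor (K := K) f hf
    apply D.support.finite_toSet.subset
    intro v hv
    rw [Set.mem_ofPred_eq, Place.not_adicValuation_le_one_iff] at hv
    rw [Finset.mem_coe, Finsupp.mem_support_iff, hD v]
    omega

/-- `F → H¹(D)` is onto (finitely many poles + strong approximation off `S`). -/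
theorem toH1_surjective (S : Finset (Place K F)) (D : Divisor K F)
    (hF : ∀ f : F, {v : Place K F | ¬ v.adicValuation f ≤ 1}.Finite)
    (hSA : StrongApproxOff S) : Function.Surjective (toH1 S D) := by
  intro x
  obtain ⟨α, rfl⟩ := Submodule.mkQ_surjective _ x
  have hP := finite_poles hF α
  set T : Finset (Place K F) := (hP.toFinset ∪ D.support).filter (fun v => v ∉ S) with hT
  have hdisj : Disjoint T S := by
    rw [Finset.disjoint_left]
    intro v hv
    exact (Finset.mem_filter.mp hv).2
  obtain ⟨f, hf1, hf2⟩ := hSA T hdisj (fun v => (α : Place K F → F) v) (fun v => D v)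
  -- `β = α - f` satisfies the `D`-condition off `S`
  have hβ : ∀ v : Place K F, v ∉ S →
      v.adicValuation ((α : Place K F → F) v - f) ≤ exp (D v) := by
    intro v hvS
    by_cases hvT : v ∈ T
    · rw [Valuation.map_sub_swap]
      exact hf1 v hvT
    · have hnot : v ∉ hP.toFinset ∪ D.support := by
        intro hmem
        exact hvT (Finset.mem_filter.mpr ⟨hmem, hvS⟩)
      rw [Finset.mem_union, not_or] at hnot
      have h1 : v.adicValuation ((α : Place K F → F) v) ≤ 1 := by
        by_contra hcon
        exact hnot.1 (hP.mem_toFinset.mpr hcon)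
      have h2 : D v = 0 := by
        by_contra hcon
        exact hnot.2 (Finsupp.mem_support_iff.mpr hcon)
      rw [h2, exp_zero]
      exact (Valuation.map_sub _ _ _).trans (max_le h1 (hf2 v hvT hvS))
  -- weak approximation at the places of `S`
  obtain ⟨h, hh⟩ := WeakApprox.exists_forall_mem_lt_ord_sub S
    (fun v => (α : Place K F → F) v - f) (∑ v ∈ S, |D v|)
  have hh' : ∀ v ∈ S, v.adicValuation (h - ((α : Place K F → F) v - f)) ≤ exp (D v) := by
    intro v hv
    rw [Place.adicValuation_le_exp_iff]
    rcases hh v hv with h0 | h1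
    · left; rw [h0, sub_self]
    · right
      have h2 : |D v| ≤ ∑ w ∈ S, |D w| :=
        Finset.single_le_sum (f := fun w => |D w|) (fun w _ => abs_nonneg _) hv
      have h3 := neg_abs_le (D v)
      omega
  refine ⟨h, ?_⟩
  rw [toH1, LinearMap.comp_apply, Submodule.mkQ_apply, Submodule.mkQ_apply,
    Submodule.Quotient.eq, Submodule.mem_sup]
  refine ⟨infRepLinear S h - α + algebraMap F ↥(repartitions K F) f, ?_,
    -algebraMap F ↥(repartitions K F) f,
    Submodule.neg_mem _ (algebraMap_mem_principalRepartitions f), by ring⟩
  intro v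
  show v.adicValuation ((if v ∈ S then h else 0) - (α : Place K F → F) v + f) ≤ exp (D v)
  by_cases hv : v ∈ S
  · rw [if_pos hv]
    have := hh' v hv
    rwa [show h - ((α : Place K F → F) v - f) = h - (α : Place K F → F) v + f by ring] at this
  · rw [if_neg hv]
    have := hβ v hv
    rw [← Valuation.map_neg] at this
    rwa [show -((α : Place K F → F) v - f) = 0 - (α : Place K F → F) v + f by ring] at this

/-- **Adelic `H¹` as a lattice-pair quotient.** -/
def h1Iso (S : Finset (Place K F)) (D : Divisor K F)
    (hF : ∀ f : F, {v : Place K F | ¬ v.adicValuation f ≤ 1}.Finite)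
    (hSA : StrongApproxOff S) :
    (F ⧸ (finPart S D ⊔ infPart S D)) ≃ₗ[K] H1 D :=
  (Submodule.quotEquivOfEq _ _ (ker_toH1 S D).symm).trans
    (LinearMap.quotKerEquivOfSurjective (toH1 S D) (toH1_surjective S D hF hSA))

theorem finrank_H1_eq (S : Finset (Place K F)) (D : Divisor K F)
    (hF : ∀ f : F, {v : Place K F | ¬ v.adicValuation f ≤ 1}.Finite)
    (hSA : StrongApproxOff S) :
    Module.finrank K (H1 D) = Module.finrank K (F ⧸ (finPart S D ⊔ infPart S D)) :=
  (h1Iso S D hF hSA).finrank_eq.symm

theorem genusFF_eq (S : Finset (Place K F))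
    (hF : ∀ f : F, {v : Place K F | ¬ v.adicValuation f ≤ 1}.Finite)
    (hSA : StrongApproxOff S) :
    genusFF K F = Module.finrank K (F ⧸ (finPart S (0 : Divisor K F) ⊔ infPart S 0)) :=
  finrank_H1_eq S 0 hF hSA

end Repartitions

end Fermat.Agent.Lib.RiemannRoch.H1Iso

end
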