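import Fermat.Agent.Lib.RiemannRoch.RiemannRochSep
import Fermat.Agent.Lib.RiemannRoch.FunctionField
import Fermat.Agent.Lib.RiemannRoch.XSetting
import Fermat.Agent.S20.RR.Hurwitz
import Fermat.Agent.S20.RR.CanonicalCompare

/-!
# Riemann-Roch for separably generated function fields: final, hypothesis-free statements

`K` is an arbitrary field (any characteristic), `x : F` is transcendental over `K` and
`F / K(x)` is finite and separable.  Then, in the language of the Prelude
(`Place`, `Divisor`, `riemannRochSpace`, `H1`, `genusFF`):

* `nonempty_place`, `finiteResidue`, `hasPrincipalDivisors`: the three standing hypotheses of the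
  Riemann-Roch library hold;
* `riemannRoch_sep`: there is a divisor `W` with `i(D) = l(W - D)`,
  `l(D) = deg D + l(0) - g + l(W - D)`, `l(W) = g`, `deg W = 2g - 2 l(0)`;
* for `K` algebraically closed all places have degree one and `l(0) = 1`.
-/

set_option autoImplicit false
set_option linter.unusedSectionVars false
set_option linter.style.haveILetI false

noncomputable section

open AlgebraicCurve WithZero Module IntermediateField Polynomial IsDedekindDomain

namespace Fermat.Agent.Lib.RiemannRoch.FunctionFieldRR

open Fermat.Agent.Lib.RiemannRoch Fermat.Agent.S20.RR.SerreDuality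
  Fermat.Agent.S20.RR.Dictionary Fermat.Agent.S20.RR.LineDataFrac

section ESetting

variable (K E F : Type*) [Field K] [Field E] [Field F]
  [Algebra K[X] E] [IsFractionRing K[X] E] [Algebra K E] [IsScalarTower K K[X] E]
  [Algebra K F] [Algebra E F] [IsScalarTower K E F] [FiniteDimensional E F]
  [Algebra.IsSeparable E F]

/-- The integral closure of `K[x]` in `F` is not a field. -/
theorem not_isField_intCl : ¬ IsField (IntCl (F := F) (polyR K E)) := by
  intro h
  have hinj : Function.Injective
      (algebraMap ↥(polyR K E) (IntCl (F := F) (polyR K E))) := by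
    intro a b hab
    have h2 : algebraMap ↥(polyR K E) F a = algebraMap ↥(polyR K E) F b :=
      congrArg (fun t => algebraMap (IntCl (F := F) (polyR K E)) F t) hab
    exact Subtype.ext ((algebraMap E F).injective h2)
  have h1 : IsField ↥(polyR K E) :=
    isField_of_isIntegral_of_isField (R := ↥(polyR K E)) (S := IntCl (F := F) (polyR K E))
      hinj h
  have h2 : IsField K[X] := (polyEquiv K E).toRingEquiv.toMulEquiv.isField h1
  exact Polynomial.not_isField K h2

include E in
/-- There is at least one place. -/
theorem nonempty_place_E : Nonempty (Place K F) := by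
  obtain ⟨M, hM⟩ := Ideal.exists_maximal (IntCl (F := F) (polyR K E))
  have hbot : M ≠ ⊥ := Ring.ne_bot_of_isMaximal_of_not_isField hM (not_isField_intCl K E F)
  exact ⟨placeOf (K := K) (F := F) (A := polyR K E) ⟨M, hM.isPrime, hbot⟩⟩

variable [∀ v : Place K F, v.FiniteResidue] [HasPrincipalDivisors K F]

open Fermat.Agent.S20.RR.Canonical in
/-- **The Hurwitz genus formula**, any field `K`, `F / K(x)` finite separable:
`2g - 2 l(0) = deg Diff(finite chart) + deg Diff(infinite chart) - 2 [F : K(x)]`. -/
theorem hurwitz_E :
    2 * (genusFF K F : ℤ) - 2 * finrank K (riemannRochSpace (0 : Divisor K F)) =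
      Divisor.degree (divOfExps (polyR K E) (diffExps (F := F) (polyR K E))) +
        Divisor.degree (divOfExps (inftyS K E) (diffExps (F := F) (inftyS K E))) -
          2 * (finrank E F : ℤ) := by
  haveI := nonempty_place_E K E F
  rw [← Fermat.Agent.S20.RR.Hurwitz.degree_canonicalX K E F,
    Fermat.Agent.S20.RR.Canonical.canonicalX_eq_canonicalDiv K E F]
  exact (RiemannRochSep.degree_canonicalDiv K E F).symm

end ESetting

section XSetting

open Fermat.Agent.Lib.RiemannRoch.XSetting

variable {K F : Type*} [Field K] [Field F] [Algebra K F] {x : F} (hx : Transcendental K x)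
  [FiniteDimensional K⟮x⟯ F] [Algebra.IsSeparable K⟮x⟯ F]

attribute [local instance] polyAlgebra

include hx in
/-- A separably generated function field has a place. -/
theorem nonempty_place : Nonempty (Place K F) := by
  haveI := isFractionRing_polyAlgebra hx
  exact nonempty_place_E K K⟮x⟯ F

omit [Algebra.IsSeparable K⟮x⟯ F] in
/-- All residue fields are finite over `K` (no separability needed). -/
theorem finiteResidue (x : F) [FiniteDimensional K⟮x⟯ F] (v : Place K F) : v.FiniteResidue :=
  FunctionField.finiteResidue K x v

include hx in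
/-- **Principal divisors have degree zero** in a separably generated function field, any
characteristic. -/
theorem hasPrincipalDivisors : HasPrincipalDivisors K F := by
  haveI := isFractionRing_polyAlgebra hx
  haveI := nonempty_place hx
  haveI : ∀ v : Place K F, v.FiniteResidue := FunctionField.finiteResidue K x
  exact RiemannRochSep.hasPrincipalDivisors K K⟮x⟯ F
    (fun v g hg hg0 => FunctionField.ord_eq_zero_of_isAlgebraic v hg hg0)

omit [Algebra.IsSeparable K⟮x⟯ F] in
/-- Over an algebraically closed field all places have degree one. -/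
theorem deg_eq_one [IsAlgClosed K] (x : F) [FiniteDimensional K⟮x⟯ F] (v : Place K F) :
    v.deg = 1 := by
  have hfin : Module.Finite K v.ResidueField := FunctionField.finite_residueField K x v
  have hbij : Function.Bijective (algebraMap K v.ResidueField) :=
    IsAlgClosed.algebraMap_bijective_of_isIntegral
  have e : K ≃ₗ[K] v.ResidueField :=
    LinearEquiv.ofBijective (Algebra.linearMap K v.ResidueField) hbij
  rw [Place.deg, ← e.finrank_eq, Module.finrank_self]

include hx in
/-- **The Riemann-Roch theorem** for a separably generated function field over an arbitrary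
field `K`: there is a (canonical) divisor `W` with `deg W = 2g - 2 l(0)`, `l(W) = g`,
`i(D) = l(W - D)` and `l(D) = deg D + l(0) - g + l(W - D)` for all divisors `D`. -/
theorem riemannRoch_sep :
    ∃ W : Divisor K F,
      Divisor.degree W =
        2 * (genusFF K F : ℤ) - 2 * finrank K (riemannRochSpace (0 : Divisor K F)) ∧
      finrank K (riemannRochSpace W) = genusFF K F ∧
      ∀ D : Divisor K F, Module.Finite K (riemannRochSpace D) ∧ Module.Finite K (H1 D) ∧
        finrank K (H1 D) = finrank K (riemannRochSpace (W - D)) ∧
        (finrank K (riemannRochSpace D) : ℤ) =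
          Divisor.degree D + finrank K (riemannRochSpace (0 : Divisor K F)) - genusFF K F +
            finrank K (riemannRochSpace (W - D)) := by
  haveI := isFractionRing_polyAlgebra hx
  haveI := nonempty_place hx
  haveI : ∀ v : Place K F, v.FiniteResidue := FunctionField.finiteResidue K x
  haveI := hasPrincipalDivisors hx
  refine ⟨canonicalDiv K K⟮x⟯ F, RiemannRochSep.degree_canonicalDiv K K⟮x⟯ F,
    (genusFF_eq_finrank_canonical K K⟮x⟯ F).symm, fun D => ⟨?_, ?_, ?_, ?_⟩⟩
  · exact Fermat.Agent.S20.RR.SerreDuality.finite_riemannRochSpace K K⟮x⟯ F D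
  · exact Fermat.Agent.S20.RR.SerreDuality.finite_H1 K K⟮x⟯ F D
  · exact finrank_H1_eq K K⟮x⟯ F D
  · exact RiemannRochSep.riemannRoch K K⟮x⟯ F D

include hx in
/-- **Riemann-Roch**, `K` algebraically closed of any characteristic, `F / K(x)` finite
separable: `deg W = 2g - 2`, `l(W) = g`, `i(D) = l(W - D)`, `l(D) = deg D + 1 - g + l(W - D)`. -/
theorem riemannRoch_sep_algClosed [IsAlgClosed K] :
    ∃ W : Divisor K F,
      Divisor.degree W = 2 * (genusFF K F : ℤ) - 2 ∧
      finrank K (riemannRochSpace W) = genusFF K F ∧
      ∀ D : Divisor K F, Module.Finite K (riemannRochSpace D) ∧ Module.Finite K (H1 D) ∧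
        finrank K (H1 D) = finrank K (riemannRochSpace (W - D)) ∧
        (finrank K (riemannRochSpace D) : ℤ) =
          Divisor.degree D + 1 - genusFF K F + finrank K (riemannRochSpace (W - D)) := by
  haveI := nonempty_place hx
  haveI : ∀ v : Place K F, v.FiniteResidue := FunctionField.finiteResidue K x
  haveI := hasPrincipalDivisors hx
  have h1 : finrank K (riemannRochSpace (0 : Divisor K F)) = 1 := ell_zero_eq_one
  obtain ⟨W, hW1, hW2, hW⟩ := riemannRoch_sep hx
  rw [h1] at hW1
  refine ⟨W, by simpa using hW1, hW2, fun D => ?_⟩
  obtain ⟨a, b, c, d⟩ := hW D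
  rw [h1] at d
  exact ⟨a, b, c, by simpa using d⟩

include hx in
/-- Riemann's inequality and the equality for large degree (`K` algebraically closed). -/
theorem riemann_ineq_algClosed [IsAlgClosed K] (D : Divisor K F) :
    Divisor.degree D + 1 - genusFF K F ≤ (finrank K (riemannRochSpace D) : ℤ) ∧
    (2 * (genusFF K F : ℤ) - 2 < Divisor.degree D →
      (finrank K (riemannRochSpace D) : ℤ) = Divisor.degree D + 1 - genusFF K F) := by
  haveI := nonempty_place hx
  haveI : ∀ v : Place K F, v.FiniteResidue := FunctionField.finiteResidue K x
  haveI := hasPrincipalDivisors hx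
  obtain ⟨W, hW1, -, hW⟩ := riemannRoch_sep_algClosed hx
  obtain ⟨-, -, -, d⟩ := hW D
  refine ⟨by rw [d]; linarith [Int.natCast_nonneg (finrank K (riemannRochSpace (W - D)))],
    fun hD => ?_⟩
  have h0 : riemannRochSpace (W - D) = ⊥ :=
    riemannRochSpace_eq_bot_of_degree_neg (by rw [map_sub]; linarith)
  rw [h0, finrank_bot] at d
  simpa using d

end XSetting

end Fermat.Agent.Lib.RiemannRoch.FunctionFieldRR
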