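import Fermat.Agent.Lib.RiemannRoch.Weil
import Fermat.Agent.Lib.RiemannRoch.AlgClosedCharZero

/-!
# The Riemann-Roch theorem over an algebraically closed field of characteristic zero

For `K` algebraically closed of characteristic zero, `x : F` transcendental over `K` and
`F / K(x)` finite, the function field `F / K` (in the Prelude repartition language) satisfies the
full Riemann-Roch theorem, with `g = genusFF K F = dim_K A / (A(0) + F)`.  No instance
hypotheses besides `[IsAlgClosed K] [CharZero K]` are needed.
-/

set_option autoImplicit false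
set_option linter.unusedSectionVars false
set_option linter.style.haveILetI false

noncomputable section

open AlgebraicCurve WithZero Module IntermediateField

namespace Fermat.Agent.Lib.RiemannRoch

variable {K F : Type*} [Field K] [Field F] [Algebra K F] [IsAlgClosed K] [CharZero K]

/-- **Riemann-Roch**, `K` algebraically closed of characteristic zero: there is a canonical
divisor `W` of degree `2g - 2` with `l(W) = g`, `i(D) = l(W - D)` and
`l(D) = deg D + 1 - g + l(W - D)` for every divisor `D`. -/
theorem riemannRoch_cz {x : F} (hx : Transcendental K x) [FiniteDimensional K⟮x⟯ F] :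
    ∃ W : Divisor K F, Divisor.degree W = 2 * (genusFF K F : ℤ) - 2 ∧
      finrank K (riemannRochSpace W) = genusFF K F ∧
      ∀ D : Divisor K F, Module.Finite K (riemannRochSpace D) ∧ Module.Finite K (H1 D) ∧
        finrank K (H1 D) = finrank K (riemannRochSpace (W - D)) ∧
        (finrank K (riemannRochSpace D) : ℤ) =
          Divisor.degree D + 1 - genusFF K F + finrank K (riemannRochSpace (W - D)) := by
  haveI := hasPrincipalDivisors_cz hx
  haveI : ∀ v : Place K F, v.FiniteResidue := finiteResidue_cz hx
  haveI := nonempty_place_cz hx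
  have hγ := exists_rr_le_cz hx
  obtain ⟨W, h1, h2, h3, h4⟩ := exists_riemannRoch hγ
  rw [ell_zero_eq_one] at h4
  refine ⟨W, by simpa using h4, h3, fun D => ⟨finite_riemannRochSpace D, finite_H1 hγ D, h1 D, ?_⟩⟩
  have := h2 D
  rw [ell_zero_eq_one] at this
  exact_mod_cast this

/-- Consequence: `l(D) = deg D + 1 - g` as soon as `deg D > 2g - 2`. -/
theorem ell_eq_of_degree_gt_cz {x : F} (hx : Transcendental K x) [FiniteDimensional K⟮x⟯ F]
    {D : Divisor K F} (hD : 2 * (genusFF K F : ℤ) - 2 < Divisor.degree D) :
    (finrank K (riemannRochSpace D) : ℤ) = Divisor.degree D + 1 - genusFF K F := by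
  haveI := hasPrincipalDivisors_cz hx
  haveI : ∀ v : Place K F, v.FiniteResidue := finiteResidue_cz hx
  haveI := nonempty_place_cz hx
  obtain ⟨W, hW, -, h⟩ := riemannRoch_cz (K := K) hx
  obtain ⟨-, -, -, h4⟩ := h D
  have h0 : riemannRochSpace (W - D) = ⊥ :=
    riemannRochSpace_eq_bot_of_degree_neg (by rw [map_sub]; linarith)
  rw [h0, finrank_bot] at h4
  simpa using h4

end Fermat.Agent.Lib.RiemannRoch
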