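import Mathlib
import Fermat.Agent.S20.RR.CanonicalDuality
import Fermat.Agent.Lib.RiemannRoch.XSetting
import Fermat.Agent.Lib.RiemannRoch.RiemannRochCZ

/-!
helper8 (RR library, final Kaehler comparison).  **Characteristic zero, `K` algebraically closed.**

The Kaehler genus `AlgebraicCurve.genus K F` of the Prelude (half the degree of the divisor of a
nonzero Kaehler differential, plus one) equals the adelic genus `genusFF K F = dim_K A / (A(0)+F)`
of the Prelude's repartition language.

* `E`-setting (`E = Frac K[X]`, `F / E` finite separable): `degree_canonicalX`,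
  `genus_eq_genusFF_line`.
* `x`-setting (`x : F` transcendental over `K`, `F / K(x)` finite): `riemannRoch_dx_cz` (full
  Riemann-Roch with the canonical divisor `W = div(dx)` of the Kaehler differential `dx`),
  `genus_eq_genusFF_cz`.

Inputs: Serre duality for `canonicalX` (helper30 `CanonicalDuality`, helper67 `SerreDuality`),
Riemann's theorem (helper26), `canonicalX = div(dx)` (`KaehlerLinkFinal`).
-/

set_option autoImplicit false
set_option linter.unusedSectionVars false
set_option linter.style.haveILetI false

open AlgebraicCurve KaehlerDifferential IntermediateField Polynomial Module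
open Fermat.Agent.S20.RR.LineDataFrac Fermat.Agent.S20.RR.Dictionary Fermat.Agent.S20.RR.Canonical

noncomputable section

namespace Fermat.Agent.Lib.RiemannRoch.GenusCompare

section ESetting

variable (K E F : Type*) [Field K] [Field E] [Field F] [IsAlgClosed K] [CharZero K]
  [Algebra K[X] E] [IsFractionRing K[X] E] [Algebra K E] [IsScalarTower K K[X] E]
  [Algebra K F] [Algebra E F] [IsScalarTower K E F] [FiniteDimensional E F]
  [Algebra.IsSeparable E F]

/-- `deg W_x = 2 g - 2` with `g` the adelic genus. -/
theorem degree_canonicalX :
    Divisor.degree (canonicalX K E F) = 2 * (genusFF K F : ℤ) - 2 := by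
  haveI := KaehlerLinkFinal.hasCanonicalDivisor_line K E F
  exact (KaehlerLinkFinal.genus_eq_genusFF_of_duality K E F
    (fun D => finrank_H1_eq_finrank_riemannRochSpace E D)).2

include E in
/-- **The Kaehler genus is the adelic genus** (`E`-setting). -/
theorem genus_eq_genusFF_line [HasCanonicalDivisor (K := K) (F := F)] :
    AlgebraicCurve.genus K F = genusFF K F :=
  (KaehlerLinkFinal.genus_eq_genusFF_of_duality K E F
    (fun D => finrank_H1_eq_finrank_riemannRochSpace E D)).1

end ESetting

section XSetting

variable {K F : Type*} [Field K] [Field F] [Algebra K F] [IsAlgClosed K] [CharZero K]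
  {x : F} (hx : Transcendental K x) [FiniteDimensional K⟮x⟯ F]
include hx

attribute [local instance] XSetting.polyAlgebra

/-- **Riemann-Roch with the canonical divisor of the Kaehler differential `dx`**: the orders of
`dx` form a divisor `W` of degree `2 g - 2` (`g = genusFF K F`), with `l(W) = g`, Serre duality
`i(D) = l(W - D)` and `l(D) = deg D + 1 - g + l(W - D)` for every divisor `D`. -/
theorem riemannRoch_dx_cz :
    ∃ W : Divisor K F, (∀ v : Place K F, W v = v.ordDifferential (D K F x)) ∧
      Divisor.degree W = 2 * (genusFF K F : ℤ) - 2 ∧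
      finrank K (riemannRochSpace W) = genusFF K F ∧
      ∀ D : Divisor K F, Module.Finite K (riemannRochSpace D) ∧ Module.Finite K (H1 D) ∧
        finrank K (H1 D) = finrank K (riemannRochSpace (W - D)) ∧
        (finrank K (riemannRochSpace D) : ℤ) =
          Divisor.degree D + 1 - genusFF K F + finrank K (riemannRochSpace (W - D)) := by
  haveI := XSetting.isFractionRing_polyAlgebra hx
  haveI := hasPrincipalDivisors_cz hx
  haveI : ∀ v : Place K F, v.FiniteResidue := finiteResidue_cz hx
  haveI := nonempty_place_cz hx
  have hdual : ∀ D : Divisor K F, finrank K (H1 D) =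
      finrank K (riemannRochSpace (canonicalX K K⟮x⟯ F - D)) :=
    fun D => finrank_H1_eq_finrank_riemannRochSpace K⟮x⟯ D
  refine ⟨canonicalX K K⟮x⟯ F, fun v => ?_, degree_canonicalX K K⟮x⟯ F, ?_, fun D => ?_⟩
  · have h := KaehlerLinkFinal.canonicalX_eq_ordDifferential (K := K) (E := K⟮x⟯) (F := F) v
    rw [XSetting.xF_eq] at h
    exact h
  · have := hdual 0
    rw [sub_zero] at this
    exact this.symm
  · obtain ⟨h1, h2, h3⟩ := riemann_cz hx D
    refine ⟨h1, h2, hdual D, ?_⟩
    rw [← hdual D]
    linarith

/-- **The Kaehler genus is the adelic genus** (`x`-setting): for every function field `F / K`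
over an algebraically closed field of characteristic zero. -/
theorem genus_eq_genusFF_cz [HasCanonicalDivisor (K := K) (F := F)] :
    AlgebraicCurve.genus K F = genusFF K F := by
  obtain ⟨W, hW, hdeg, -⟩ := riemannRoch_dx_cz hx
  exact KaehlerLink.genus_eq_genusFF hx W hW hdeg

end XSetting

end Fermat.Agent.Lib.RiemannRoch.GenusCompare

end
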