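import Mathlib
import Fermat.Agent.S24
import Fermat.Agent.Lib.RiemannRoch.GenusCompare

/-!
helper8 (RR library): the modular corollaries needed by P-GATEWAY (c).

For `F_N = modularFunctionFieldBar N`, the function field of `X₀(N)` over `Kbar = AlgebraicClosure ℚ`
(Prelude), with coordinate `j`:
* `finiteDimensional_modular N : FiniteDimensional Kbar⟮jF N⟯ (FF N)` (from P-S24);
* `hasCanonicalDivisor_modular N : HasCanonicalDivisor Kbar F_N` (the instance hypothesis of
  `S24.result`);
* `genus_modular N`: the Kaehler genus of `F_N` is `genusFormula N` (= `S24.result` with the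
  instance discharged);
* `genusFF_modular N`: the adelic genus `genusFF Kbar F_N` is `genusFormula N`;
* `riemannRoch_modular N`: full Riemann-Roch for `F_N` with `g = genusFF`, `W = div(dj)`;
* `le_finrank_riemannRochSpace_modular`, `finrank_riemannRochSpace_modular_of_degree_gt`:
  `l(D) ≥ deg D + 1 - g`, with equality for `deg D > 2 g - 2`, with `(g : ℚ) = genusFormula N`.
-/

set_option autoImplicit false
set_option linter.unusedSectionVars false
set_option linter.style.haveILetI false

open AlgebraicCurve KaehlerDifferential IntermediateField ModularCurve CongruenceSubgroup Module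
open Fermat.Agent.S24 Fermat.Agent.S24.Setup

noncomputable section

namespace Fermat.Agent.Lib.RiemannRoch.Modular

variable (N : ℕ) [NeZero N]

/-- `F_N` is finite over `Kbar(j)`. -/
theorem finiteDimensional_modular : FiniteDimensional Kbar⟮jF N⟯ (FF N) := by
  have hdeg := EmbedTheta.hdeg_of N
    (fun θ hfix hgr hper a hq => HDeg.exists_poly N θ hfix hgr hper a hq)
  have halg : ∀ g ∈ genSetF N, IsAlgebraic Kbar⟮jF N⟯ g := by
    intro g hg
    obtain ⟨p, hp0, -, hpa⟩ := hdeg g (Algebra.subset_adjoin hg)
    exact ⟨p, hp0, hpa⟩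
  have hgen := GenRing.exists_div N halg
  obtain ⟨D, -⟩ := Embed.exists_embData' N
  exact (Conj.finrank_and_norm D hgen hdeg).1

/-- Every nonzero Kaehler differential of `F_N / Kbar` has a divisor. -/
theorem hasCanonicalDivisor_modular :
    HasCanonicalDivisor (K := AlgebraicClosure ℚ) (F := ↥(modularFunctionFieldBar N)) :=
  haveI := finiteDimensional_modular N
  XSetting.hasCanonicalDivisor_cz (TransJ.transcendental_jF N)

/-- The Kaehler genus of `F_N` is the genus formula (`S24.result` with its instance hypothesis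
discharged). -/
theorem genus_modular :
    haveI := hasCanonicalDivisor_modular N
    (AlgebraicCurve.genus (AlgebraicClosure ℚ) ↥(modularFunctionFieldBar N) : ℚ) =
      genusFormula N :=
  haveI := hasCanonicalDivisor_modular N
  Fermat.Agent.S24.result N

/-- **The adelic genus of `X₀(N)` is the genus formula.** -/
theorem genusFF_modular :
    (genusFF (AlgebraicClosure ℚ) ↥(modularFunctionFieldBar N) : ℚ) = genusFormula N := by
  haveI := hasCanonicalDivisor_modular N
  haveI := finiteDimensional_modular N
  rw [← GenusCompare.genus_eq_genusFF_cz (TransJ.transcendental_jF N)]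
  exact Fermat.Agent.S24.result N

/-- **Riemann-Roch for `X₀(N)`** over `Kbar`, with the canonical divisor `W = div(dj)`:
`deg W = 2 g - 2`, `l(W) = g`, `i(D) = l(W - D)`, `l(D) = deg D + 1 - g + l(W - D)`, where
`g = genusFF Kbar F_N` satisfies `(g : ℚ) = genusFormula N`. -/
theorem riemannRoch_modular :
    ∃ (g : ℕ) (W : Divisor Kbar (FF N)), (g : ℚ) = genusFormula N ∧ g = genusFF Kbar (FF N) ∧
      (∀ v : Place Kbar (FF N), W v = v.ordDifferential (D Kbar (FF N) (jF N))) ∧
      Divisor.degree W = 2 * (g : ℤ) - 2 ∧
      finrank Kbar (riemannRochSpace W) = g ∧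
      ∀ D : Divisor Kbar (FF N), Module.Finite Kbar (riemannRochSpace D) ∧
        Module.Finite Kbar (H1 D) ∧
        finrank Kbar (H1 D) = finrank Kbar (riemannRochSpace (W - D)) ∧
        (finrank Kbar (riemannRochSpace D) : ℤ) =
          Divisor.degree D + 1 - g + finrank Kbar (riemannRochSpace (W - D)) := by
  haveI := finiteDimensional_modular N
  obtain ⟨W, h1, h2, h3, h4⟩ := GenusCompare.riemannRoch_dx_cz (TransJ.transcendental_jF N)
  exact ⟨genusFF Kbar (FF N), W, genusFF_modular N, rfl, h1, h2, h3, h4⟩

/-- Riemann's inequality for `X₀(N)`: `l(D) ≥ deg D + 1 - g`. -/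
theorem le_finrank_riemannRochSpace_modular (D : Divisor Kbar (FF N)) :
    Divisor.degree D + 1 - (genusFF Kbar (FF N) : ℤ) ≤ finrank Kbar (riemannRochSpace D) := by
  obtain ⟨g, W, -, rfl, -, -, -, h⟩ := riemannRoch_modular N
  obtain ⟨-, -, -, h4⟩ := h D
  rw [h4]
  have : (0 : ℤ) ≤ (finrank Kbar (riemannRochSpace (W - D)) : ℤ) := Int.natCast_nonneg _
  linarith

/-- For `deg D > 2 g - 2`: `l(D) = deg D + 1 - g`. -/
theorem finrank_riemannRochSpace_modular_of_degree_gt {D : Divisor Kbar (FF N)}
    (hD : 2 * (genusFF Kbar (FF N) : ℤ) - 2 < Divisor.degree D) :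
    (finrank Kbar (riemannRochSpace D) : ℤ) = Divisor.degree D + 1 - genusFF Kbar (FF N) :=
  haveI := finiteDimensional_modular N
  ell_eq_of_degree_gt_cz (TransJ.transcendental_jF N) hD

end Fermat.Agent.Lib.RiemannRoch.Modular

end
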