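import Mathlib
import Fermat.Prelude.Def_AlgebraicCurve_Repartitions
import Fermat.Prelude.Def_AlgebraicCurve_IsCurveOver

/-!
# Repartitions (adeles) of a function field in the language of the prelude

Basic facts on `AlgebraicCurve.repartitions`: an element is a repartition iff it has finitely many
poles; every repartition lies in some `repartitionsOf D`; sup/inf of the spaces `repartitionsOf D`.
-/

set_option autoImplicit false
set_option linter.unusedSectionVars false

noncomputable section

open AlgebraicCurve WithZero

namespace Fermat.Agent.Lib.RiemannRoch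

variable {K F : Type*} [Field K] [Field F] [Algebra K F]

/-- The set of poles of a family of local components. -/
def poles (α : Place K F → F) : Set (Place K F) := {v | ¬ v.adicValuation (α v) ≤ 1}

theorem mem_poles_iff {α : Place K F → F} {v : Place K F} :
    v ∈ poles α ↔ ¬ v.adicValuation (α v) ≤ 1 := Iff.rfl

theorem poles_add_subset (α β : Place K F → F) : poles (α + β) ⊆ poles α ∪ poles β := by
  intro v hv
  by_contra h
  rw [Set.mem_union, not_or, mem_poles_iff, mem_poles_iff, not_not, not_not] at h
  exact hv ((Valuation.map_add _ _ _).trans (max_le h.1 h.2))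

theorem poles_mul_subset (α β : Place K F → F) : poles (α * β) ⊆ poles α ∪ poles β := by
  intro v hv
  by_contra h
  rw [Set.mem_union, not_or, mem_poles_iff, mem_poles_iff, not_not, not_not] at h
  apply hv
  show v.adicValuation (α v * β v) ≤ 1
  rw [map_mul]
  exact mul_le_one' h.1 h.2

variable [HasPrincipalDivisors K F]

theorem finite_poles_const (f : F) : (poles (fun _ : Place K F => f)).Finite := by
  rcases eq_or_ne f 0 with rfl | hf
  · convert Set.finite_empty
    ext v
    simp [mem_poles_iff]
  · obtain ⟨D, hD, -⟩ := HasPrincipalDivisors.exists_divisor (K := K) f hf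
    refine D.support.finite_toSet.subset fun v hv => ?_
    rw [mem_poles_iff, v.not_adicValuation_le_one_iff] at hv
    rw [Finset.mem_coe, Finsupp.mem_support_iff, hD v]
    omega

theorem mem_repartitions_iff {α : Place K F → F} :
    α ∈ repartitions K F ↔ (poles α).Finite := by
  constructor
  · intro h
    induction h using Algebra.adjoin_induction with
    | mem x hx => exact hx
    | algebraMap r => exact finite_poles_const r
    | add x y _ _ hx hy => exact (hx.union hy).subset (poles_add_subset x y)
    | mul x y _ _ hx hy => exact (hx.union hy).subset (poles_mul_subset x y)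
  · exact mem_repartitions_of_finite

theorem finite_poles (α : repartitions K F) : (poles (α : Place K F → F)).Finite :=
  mem_repartitions_iff.mp α.2

/-- Every repartition lies in `repartitionsOf D` for some divisor `D ≥ D₀`. -/
theorem exists_mem_repartitionsOf (α : repartitions K F) (D₀ : Divisor K F) :
    ∃ D : Divisor K F, D₀ ≤ D ∧ α ∈ repartitionsOf D := by
  classical
  set s : Finset (Place K F) := (finite_poles α).toFinset with hs
  set D₁ : Divisor K F := Finsupp.onFinset s
    (fun v => if v ∈ s then log (v.adicValuation ((α : Place K F → F) v)) else 0)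
    (fun v hv => by
      by_contra h
      simp [h] at hv) with hD₁
  have hα : α ∈ repartitionsOf D₁ := by
    intro v
    by_cases hv : v ∈ s
    · have hne : v.adicValuation ((α : Place K F → F) v) ≠ 0 := by
        intro h0
        rw [hs, Set.Finite.mem_toFinset, mem_poles_iff, h0] at hv
        exact hv zero_le_one
      rw [hD₁, Finsupp.onFinset_apply, if_pos hv, exp_log hne]
    · rw [hD₁, Finsupp.onFinset_apply, if_neg hv, exp_zero]
      rw [hs, Set.Finite.mem_toFinset, mem_poles_iff, not_not] at hv
      exact hv
  exact ⟨D₀ ⊔ D₁, le_sup_left, repartitionsOf_mono le_sup_right hα⟩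

omit [HasPrincipalDivisors K F] in
/-- The repartition with a single nonzero component. -/
def single [DecidableEq (Place K F)] (v : Place K F) (f : F) : repartitions K F :=
  ⟨Pi.single v f, mem_repartitions_of_finite <| (Set.finite_singleton v).subset fun w hw => by
    by_contra h
    rw [Set.mem_singleton_iff] at h
    rw [Set.mem_ofPred_eq, Pi.single_eq_of_ne h, map_zero] at hw
    exact hw zero_le_one⟩

omit [HasPrincipalDivisors K F] in
@[simp]
theorem single_apply_same [DecidableEq (Place K F)] (v : Place K F) (f : F) :
    (single v f : Place K F → F) v = f := by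
  show (Pi.single v f : Place K F → F) v = f
  simp

omit [HasPrincipalDivisors K F] in
theorem single_apply_of_ne [DecidableEq (Place K F)] {v w : Place K F} (h : w ≠ v) (f : F) :
    (single v f : Place K F → F) w = 0 := by
  show (Pi.single v f : Place K F → F) w = 0
  simp [h]

/-- The diagonal embedding of `F` into the repartitions, as a `K`-linear map. -/
def diag : F →ₗ[K] repartitions K F :=
  (Algebra.linearMap F (repartitions K F)).restrictScalars K

omit [HasPrincipalDivisors K F] in
@[simp]
theorem diag_apply (f : F) (v : Place K F) : ((diag (K := K) f : repartitions K F) : Place K F → F) v = f :=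
  rfl

omit [HasPrincipalDivisors K F] in
theorem diag_injective [Nonempty (Place K F)] : Function.Injective (diag (K := K) (F := F)) := by
  intro f g h
  obtain ⟨v⟩ := ‹Nonempty (Place K F)›
  have := congrArg (fun α : repartitions K F => (α : Place K F → F) v) h
  simpa using this

omit [HasPrincipalDivisors K F] in
theorem range_diag : LinearMap.range (diag (K := K) (F := F)) = principalRepartitions K F := by
  ext α
  rw [mem_principalRepartitions_iff, LinearMap.mem_range]
  constructor
  · rintro ⟨f, rfl⟩
    exact ⟨f, rfl⟩
  · rintro ⟨f, hf⟩
    exact ⟨f, Subtype.ext hf.symm⟩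

omit [HasPrincipalDivisors K F] in
theorem diag_mem_repartitionsOf_iff {D : Divisor K F} {f : F} :
    diag (K := K) f ∈ repartitionsOf D ↔ f ∈ riemannRochSpace D := Iff.rfl

omit [HasPrincipalDivisors K F] in
theorem repartitionsOf_inf (D D' : Divisor K F) :
    repartitionsOf D ⊓ repartitionsOf D' = repartitionsOf (D ⊓ D') := by
  ext α
  rw [Submodule.mem_inf]
  constructor
  · rintro ⟨h1, h2⟩ v
    rw [Finsupp.inf_apply]
    rcases le_total (D v) (D' v) with h | h
    · rw [inf_eq_left.mpr h]; exact h1 v
    · rw [inf_eq_right.mpr h]; exact h2 v
  · intro h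
    exact ⟨repartitionsOf_mono inf_le_left h, repartitionsOf_mono inf_le_right h⟩

theorem repartitionsOf_sup (D D' : Divisor K F) :
    repartitionsOf D ⊔ repartitionsOf D' = repartitionsOf (D ⊔ D') := by
  classical
  apply le_antisymm
  · exact sup_le (repartitionsOf_mono le_sup_left) (repartitionsOf_mono le_sup_right)
  · intro α hα
    have hβ : (fun v => if D' v ≤ D v then (α : Place K F → F) v else 0) ∈ repartitions K F := by
      rw [mem_repartitions_iff]
      refine (finite_poles α).subset fun v hv => ?_
      rw [mem_poles_iff] at hv ⊢
      by_cases h : D' v ≤ D v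
      · simpa [h] using hv
      · simp [h] at hv
    set β : repartitions K F := ⟨_, hβ⟩ with hβdef
    have h1 : β ∈ repartitionsOf D := by
      intro v
      show v.adicValuation (if D' v ≤ D v then (α : Place K F → F) v else 0) ≤ exp (D v)
      by_cases h : D' v ≤ D v
      · rw [if_pos h]
        have := hα v
        rwa [Finsupp.sup_apply, sup_eq_left.mpr h] at this
      · rw [if_neg h, map_zero]; exact zero_le
    have h2 : α - β ∈ repartitionsOf D' := by
      intro v
      show v.adicValuation ((α : Place K F → F) v -
        (if D' v ≤ D v then (α : Place K F → F) v else 0)) ≤ exp (D' v)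
      by_cases h : D' v ≤ D v
      · rw [if_pos h, sub_self, map_zero]; exact zero_le
      · rw [if_neg h, sub_zero]
        have := hα v
        rwa [Finsupp.sup_apply, sup_eq_right.mpr (le_of_not_ge h)] at this
    have : α = β + (α - β) := by abel
    rw [this]
    exact Submodule.add_mem_sup h1 h2

omit [HasPrincipalDivisors K F] in
theorem diag_mem_inf (D : Divisor K F) (f : riemannRochSpace D) :
    diag (K := K) (f : F) ∈ repartitionsOf D ⊓ principalRepartitions K F := by
  refine Submodule.mem_inf.mpr ⟨diag_mem_repartitionsOf_iff.mpr f.2, ?_⟩
  rw [← range_diag]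
  exact LinearMap.mem_range_self _ _

omit [HasPrincipalDivisors K F] in
/-- `L(D)` is the intersection of `A(D)` with the principal repartitions. -/
def riemannRochEquiv [Nonempty (Place K F)] (D : Divisor K F) :
    riemannRochSpace D ≃ₗ[K] ↥(repartitionsOf D ⊓ principalRepartitions K F) :=
  LinearEquiv.ofBijective
    ((diag.comp (riemannRochSpace D).subtype).codRestrict _ (diag_mem_inf D))
    ⟨fun f g h => by
      have := congrArg Subtype.val h
      exact Subtype.ext (diag_injective this), fun α => by
      obtain ⟨h1, h2⟩ := Submodule.mem_inf.mp α.2
      have h3 : (α : repartitions K F) ∈ LinearMap.range (diag (K := K) (F := F)) := by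
        rw [range_diag]; exact h2
      obtain ⟨f, hf⟩ := h3
      refine ⟨⟨f, ?_⟩, Subtype.ext hf⟩
      rw [← diag_mem_repartitionsOf_iff, hf]
      exact h1⟩

end Fermat.Agent.Lib.RiemannRoch
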