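import Fermat.Agent.Lib.RiemannRoch.Riemann

/-!
# Consequences of Riemann's theorem and of the duality theorem

Everything here is stated with the two inputs as explicit hypotheses:
* `hγ : ∃ γ, ∀ D, rr D ≤ γ` (Riemann's inequality, see `exists_rr_le`), and
* `hW : ∀ D, finrank K (H1 D) = ell (W - D)` (duality for a canonical divisor `W`).
-/

set_option autoImplicit false
set_option linter.unusedSectionVars false

noncomputable section

open AlgebraicCurve WithZero Module

namespace Fermat.Agent.Lib.RiemannRoch

variable {K F : Type*} [Field K] [Field F] [Algebra K F]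
variable [HasPrincipalDivisors K F] [∀ v : Place K F, v.FiniteResidue] [Nonempty (Place K F)]

/-- `i(D)`, the index of speciality. -/
def idx (D : Divisor K F) : ℕ := finrank K (H1 D)

theorem idx_zero : idx (0 : Divisor K F) = genusFF K F := rfl

theorem idx_eq_zero_of_sup_eq_top {D : Divisor K F}
    (h : repartitionsOf D ⊔ principalRepartitions K F = ⊤) : idx D = 0 := by
  have : Subsingleton (H1 D) := Submodule.Quotient.subsingleton_iff.mpr h
  exact finrank_zero_of_subsingleton

section riemann

variable (hγ : ∃ γ : ℤ, ∀ D : Divisor K F, rr D ≤ γ)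
include hγ

theorem finite_H1 (D : Divisor K F) : Module.Finite K (H1 D) := (riemann_of_bounded hγ D).1

theorem ell_sub_idx (D : Divisor K F) :
    (ell D : ℤ) - idx D = Divisor.degree D + ell (0 : Divisor K F) - genusFF K F :=
  (riemann_of_bounded hγ D).2

/-- Riemann's inequality in its sharp form. -/
theorem le_ell_of_riemann (D : Divisor K F) :
    Divisor.degree D + ell (0 : Divisor K F) - genusFF K F ≤ ell D := by
  have := ell_sub_idx hγ D
  have h2 : (0 : ℤ) ≤ idx D := Int.natCast_nonneg _
  linarith

/-- For divisors of large degree `l(D) = deg D + l(0) - g`. -/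
theorem exists_degree_bound_ell :
    ∃ c : ℤ, ∀ D : Divisor K F, c ≤ Divisor.degree D →
      idx D = 0 ∧ (ell D : ℤ) = Divisor.degree D + ell (0 : Divisor K F) - genusFF K F := by
  obtain ⟨c, hc⟩ := exists_degree_bound hγ
  refine ⟨c, fun D hD => ?_⟩
  have h0 := idx_eq_zero_of_sup_eq_top (hc D hD)
  refine ⟨h0, ?_⟩
  have := ell_sub_idx hγ D
  rw [h0] at this
  simpa using this

/-- `i(D)` only depends on the linear equivalence class. -/
theorem idx_add_divOf {f : F} (hf : f ≠ 0) (D : Divisor K F) :
    idx (D + divOf (K := K) f) = idx D := by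
  have h1 := ell_sub_idx hγ (D + divOf (K := K) f)
  have h2 := ell_sub_idx hγ D
  rw [ell_add_divOf hf, map_add, degree_divOf, add_zero] at h1
  have : (idx (D + divOf (K := K) f) : ℤ) = idx D := by linarith
  exact_mod_cast this

/-- `i` is antitone. -/
theorem idx_anti {D D' : Divisor K F} (h : D ≤ D') : idx D' ≤ idx D := by
  have h1 := ell_sub_idx hγ D
  have h2 := ell_sub_idx hγ D'
  have h3 := rr_mono h
  rw [rr, rr] at h3
  have : (idx D' : ℤ) ≤ idx D := by linarith
  exact_mod_cast this

end riemann

section duality

variable (hγ : ∃ γ : ℤ, ∀ D : Divisor K F, rr D ≤ γ) {W : Divisor K F}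
  (hW : ∀ D : Divisor K F, finrank K (H1 D) = ell (W - D))
include hγ hW

/-- **Riemann-Roch**. -/
theorem riemannRoch (D : Divisor K F) :
    (ell D : ℤ) = Divisor.degree D + ell (0 : Divisor K F) - genusFF K F + ell (W - D) := by
  have := ell_sub_idx hγ D
  rw [idx, hW D] at this
  linarith

theorem ell_canonical : ell W = genusFF K F := by
  have := hW 0
  rw [sub_zero] at this
  exact this.symm

theorem degree_canonical :
    Divisor.degree W = 2 * (genusFF K F : ℤ) - 2 * ell (0 : Divisor K F) := by
  have h := riemannRoch hγ hW W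
  rw [sub_self, ell_canonical hγ hW] at h
  linarith

/-- If `deg D > deg W` then `l(D) = deg D + l(0) - g`. -/
theorem ell_eq_of_degree_gt {D : Divisor K F} (h : Divisor.degree W < Divisor.degree D) :
    (ell D : ℤ) = Divisor.degree D + ell (0 : Divisor K F) - genusFF K F := by
  have h1 := riemannRoch hγ hW D
  have h2 : ell (W - D) = 0 := ell_eq_zero_of_degree_neg (by rw [map_sub]; linarith)
  rw [h2] at h1
  simpa using h1

end duality

section algClosed

theorem pow_mem_zero {f : F} (hf : f ∈ riemannRochSpace (0 : Divisor K F)) (n : ℕ) :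
    f ^ n ∈ riemannRochSpace (0 : Divisor K F) := by
  intro v
  have := hf v
  simp only [Finsupp.coe_zero, Pi.zero_apply, exp_zero] at this ⊢
  rw [map_pow]
  exact pow_le_one' this n

/-- Functions without poles are algebraic over `K`. -/
theorem isAlgebraic_of_mem_zero {f : F} (hf : f ∈ riemannRochSpace (0 : Divisor K F)) :
    IsAlgebraic K f := by
  have hsub : Subalgebra.toSubmodule (Algebra.adjoin K {f}) ≤
      riemannRochSpace (0 : Divisor K F) := by
    intro y hy
    rw [Subalgebra.mem_toSubmodule, Algebra.adjoin_singleton_eq_range_aeval] at hy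
    obtain ⟨p, rfl⟩ := hy
    show Polynomial.aeval f p ∈ _
    rw [Polynomial.aeval_eq_sum_range]
    refine Submodule.sum_mem _ fun i _ => ?_
    exact Submodule.smul_mem _ _ (pow_mem_zero hf i)
  have hfin : FiniteDimensional K ↥(Subalgebra.toSubmodule (Algebra.adjoin K {f})) :=
    Submodule.finiteDimensional_of_le hsub
  have hfin' : FiniteDimensional K ↥(Algebra.adjoin K {f}) := hfin
  have hint : IsIntegral K (⟨f, Algebra.self_mem_adjoin_singleton K f⟩ : Algebra.adjoin K {f}) :=
    (Algebra.IsIntegral.of_finite K ↥(Algebra.adjoin K {f})).isIntegral _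
  exact (hint.map (Algebra.adjoin K {f}).val).isAlgebraic

/-- Over an algebraically closed field of constants, `L(0) = K`. -/
theorem ell_zero_eq_one [IsAlgClosed K] : ell (0 : Divisor K F) = 1 := by
  apply le_antisymm _ one_le_ell_zero
  have h1 : (1 : F) ∈ riemannRochSpace (0 : Divisor K F) := by
    intro v
    simp
  refine finrank_le_one (⟨1, h1⟩ : riemannRochSpace (0 : Divisor K F)) fun w => ?_
  have hint : IsIntegral K (w : F) := (isAlgebraic_of_mem_zero w.2).isIntegral
  have hdeg : (minpoly K (w : F)).degree = 1 :=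
    IsAlgClosed.degree_eq_one_of_irreducible K (minpoly.irreducible hint)
  obtain ⟨a, ha⟩ := minpoly.mem_range_of_degree_eq_one K (w : F) hdeg
  refine ⟨a, Subtype.ext ?_⟩
  simp [← ha, Algebra.smul_def]

end algClosed

end Fermat.Agent.Lib.RiemannRoch
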