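import Fermat.Agent.Lib.RiemannRoch.Consequences

/-!
# The moving lemma

Over an infinite constant field, for a divisor `D` of large degree and a finite set `B` of places
there is `f ∈ L(D)` with exact order `-D(Q)` at every `Q ∈ B` (a vector space over an infinite
field is not a finite union of proper subspaces).  Consequently every divisor is linearly
equivalent to `E - e P` with `E ≥ 0` avoiding `B`, and every class in `Pic⁰` has such a
representative.
-/

set_option autoImplicit false
set_option linter.unusedSectionVars false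

noncomputable section

open AlgebraicCurve WithZero Module

namespace Fermat.Agent.Lib.RiemannRoch.Moving

open Fermat.Agent.Lib.RiemannRoch

variable {K F : Type*} [Field K] [Field F] [Algebra K F]

theorem riemannRochSpace_mono' {D D' : Divisor K F} (h : D ≤ D') :
    riemannRochSpace D ≤ riemannRochSpace D' := fun _ hf v =>
  (hf v).trans (exp_le_exp.mpr (h v))

/-- An element of `L(D)` outside `L(D - Q)` has exact order `-D(Q)` at `Q`. -/
theorem ord_eq_of_not_mem {D : Divisor K F} {Q : Place K F} {f : F}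
    (hf : f ∈ riemannRochSpace D) (hnot : f ∉ riemannRochSpace (D - Finsupp.single Q 1)) :
    f ≠ 0 ∧ Q.ord f = -D Q := by
  have hf0 : f ≠ 0 := by
    rintro rfl
    exact hnot (Submodule.zero_mem _)
  refine ⟨hf0, ?_⟩
  rw [mem_riemannRochSpace_iff] at hf hnot
  have hQ := (hf Q).resolve_left hf0
  by_contra hne
  apply hnot
  intro v
  right
  have hv := (hf v).resolve_left hf0
  rw [Finsupp.sub_apply]
  by_cases hvQ : v = Q
  · subst hvQ
    rw [Finsupp.single_eq_same]
    omega
  · rw [Finsupp.single_eq_of_ne hvQ]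
    omega

variable [HasPrincipalDivisors K F] [∀ v : Place K F, v.FiniteResidue] [Nonempty (Place K F)]

section moving

variable (hγ : ∃ γ : ℤ, ∀ D : Divisor K F, rr D ≤ γ)
include hγ

/-- For `D` of large degree, `L(D - Q)` is a proper subspace of `L(D)`. -/
theorem exists_bound_ne : ∃ c : ℤ, ∀ (D : Divisor K F) (Q : Place K F),
    c ≤ Divisor.degree D - Q.deg →
      riemannRochSpace (D - Finsupp.single Q 1) ≠ riemannRochSpace D := by
  obtain ⟨c, hc⟩ := exists_degree_bound_ell hγ
  refine ⟨c, fun D Q hD heq => ?_⟩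
  have hpos : (1 : ℤ) ≤ Q.deg := by exact_mod_cast deg_pos Q
  have h1 := (hc D (by linarith)).2
  have h2 := (hc (D - Finsupp.single Q 1)
    (by rw [map_sub, Divisor.degree_single, one_mul]; exact hD)).2
  rw [map_sub, Divisor.degree_single, one_mul] at h2
  have h3 : ell (D - Finsupp.single Q 1) = ell D := by
    rw [ell, ell, heq]
  rw [h3] at h2
  linarith

variable [Infinite K]

/-- **Moving lemma, function form**: for `D` of large degree and a finite set `B` of places
there is `f ∈ L(D)`, `f ≠ 0`, with `ord_Q f = -D(Q)` for every `Q ∈ B`. -/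
theorem exists_function_exact_order (B : Finset (Place K F)) :
    ∃ c : ℤ, ∀ D : Divisor K F, c ≤ Divisor.degree D →
      ∃ f : F, f ≠ 0 ∧ f ∈ riemannRochSpace D ∧ ∀ Q ∈ B, Q.ord f = -D Q := by
  classical
  obtain ⟨c₀, hc₀⟩ := exists_bound_ne hγ
  obtain ⟨c₁, hc₁⟩ := exists_degree_bound_ell hγ
  refine ⟨max (max c₁ (genusFF K F)) (c₀ + (B.sup fun Q => Q.deg : ℕ)), fun D hD => ?_⟩
  have hD1 : c₁ ≤ Divisor.degree D := le_trans (le_trans (le_max_left _ _) (le_max_left _ _)) hD
  have hDg : (genusFF K F : ℤ) ≤ Divisor.degree D :=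
    le_trans (le_trans (le_max_right _ _) (le_max_left _ _)) hD
  have hD0 : c₀ + (B.sup fun Q => Q.deg : ℕ) ≤ Divisor.degree D := le_trans (le_max_right _ _) hD
  -- `L(D)` is nontrivial
  have hell : 1 ≤ ell D := by
    have h1 := (hc₁ D hD1).2
    have h2 : (1 : ℤ) ≤ ell (0 : Divisor K F) := by exact_mod_cast one_le_ell_zero
    have : (1 : ℤ) ≤ ell D := by linarith
    exact_mod_cast this
  have hnontriv : Nontrivial ↥(riemannRochSpace D) :=
    Module.finrank_pos_iff.mp hell
  -- the proper subspaces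
  set S : Place K F → Subspace K ↥(riemannRochSpace D) := fun Q =>
    (riemannRochSpace (D - Finsupp.single Q 1)).comap (riemannRochSpace D).subtype with hS
  have hle : ∀ Q : Place K F, riemannRochSpace (D - Finsupp.single Q 1) ≤ riemannRochSpace D :=
    fun Q => riemannRochSpace_mono' (by
      intro v
      rw [Finsupp.sub_apply]
      have : (0 : ℤ) ≤ Finsupp.single Q (1 : ℤ) v := Finsupp.single_nonneg.mpr zero_le_one v
      omega)
  have hSne : ∀ Q ∈ B, S Q ≠ ⊤ := by
    intro Q hQ htop
    have hdeg : ((Q.deg : ℕ) : ℤ) ≤ ((B.sup fun Q => Q.deg : ℕ) : ℤ) := by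
      exact_mod_cast Finset.le_sup (f := fun Q : Place K F => Q.deg) hQ
    apply hc₀ D Q (by linarith)
    refine le_antisymm (hle Q) fun f hf => ?_
    have : (⟨f, hf⟩ : ↥(riemannRochSpace D)) ∈ S Q := by rw [htop]; exact Submodule.mem_top
    exact this
  set s : Finset (Subspace K ↥(riemannRochSpace D)) := insert ⊥ (B.image S) with hs
  have htop : (⊤ : Subspace K ↥(riemannRochSpace D)) ∉ s := by
    rw [hs, Finset.mem_insert, Finset.mem_image]
    rintro (h | ⟨Q, hQ, h⟩)
    · exact top_ne_bot h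
    · exact hSne Q hQ h
  have hcov := Subspace.biUnion_ne_univ_of_top_notMem htop
  obtain ⟨f, hf⟩ : ∃ f : ↥(riemannRochSpace D), f ∉ ⋃ p ∈ s, (p : Set ↥(riemannRochSpace D)) := by
    by_contra hcon
    apply hcov
    ext f
    simp only [Set.mem_univ, iff_true]
    by_contra hf
    exact hcon ⟨f, hf⟩
  simp only [Set.mem_iUnion, not_exists] at hf
  have hfbot : f ≠ 0 := fun h0 => hf ⊥ (by rw [hs]; exact Finset.mem_insert_self _ _)
    (by rw [h0]; exact Submodule.zero_mem _)
  refine ⟨f, fun h0 => hfbot (Subtype.ext h0), f.2, fun Q hQ => ?_⟩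
  have hnot : (f : F) ∉ riemannRochSpace (D - Finsupp.single Q 1) := by
    intro hmem
    exact hf (S Q) (by rw [hs]; exact Finset.mem_insert_of_mem (Finset.mem_image_of_mem S hQ)) hmem
  exact (ord_eq_of_not_mem f.2 hnot).2

/-- **Moving lemma, divisor form**: every divisor `D` is linearly equivalent to `E - e P` with
`E ≥ 0` vanishing on the finite set `B`, for all large `e`. -/
theorem exists_effective_avoiding (B : Finset (Place K F)) (P : Place K F) (D : Divisor K F) :
    ∃ e₀ : ℕ, ∀ e : ℕ, e₀ ≤ e → ∃ (E : Divisor K F) (f : F), f ≠ 0 ∧ 0 ≤ E ∧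
      (∀ Q ∈ B, E Q = 0) ∧ E = D + Finsupp.single P (e : ℤ) + divOf (K := K) f := by
  obtain ⟨c, hc⟩ := exists_function_exact_order hγ B
  have hpos : (1 : ℤ) ≤ P.deg := by exact_mod_cast deg_pos P
  refine ⟨(c - Divisor.degree D).toNat, fun e he => ?_⟩
  have hdeg : c ≤ Divisor.degree (D + Finsupp.single P (e : ℤ)) := by
    rw [map_add, Divisor.degree_single]
    have h1 : c - Divisor.degree D ≤ e := by
      have := Int.self_le_toNat (c - Divisor.degree D)
      have h2 : ((c - Divisor.degree D).toNat : ℤ) ≤ e := by exact_mod_cast he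
      linarith
    have h3 : (0 : ℤ) ≤ e := Int.natCast_nonneg e
    nlinarith
  obtain ⟨f, hf0, hf, hord⟩ := hc _ hdeg
  refine ⟨D + Finsupp.single P (e : ℤ) + divOf (K := K) f, f, hf0, ?_, ?_, rfl⟩
  · intro v
    have := (mem_riemannRochSpace_iff.mp hf v).resolve_left hf0
    rw [Finsupp.add_apply, divOf_apply hf0]
    simp only [Finsupp.coe_zero, Pi.zero_apply]
    omega
  · intro Q hQ
    rw [Finsupp.add_apply, divOf_apply hf0, hord Q hQ]
    ring

/-- **Moving lemma, `Pic⁰` form**: for a place `P` of degree one, every class of `Pic⁰` is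
represented by `E - e P` with `E ≥ 0` of degree `e` vanishing on the finite set `B`, for all
large `e`. -/
theorem exists_pic0_rep (B : Finset (Place K F)) (P : Place K F) (hP : P.deg = 1)
    (x : Pic0 K F) :
    ∃ e₀ : ℕ, ∀ e : ℕ, e₀ ≤ e → ∃ (E : Divisor K F)
      (hE : E - Finsupp.single P (e : ℤ) ∈ Divisor.degZero (K := K) (F := F)),
      0 ≤ E ∧ (∀ Q ∈ B, E Q = 0) ∧ Divisor.degree E = e ∧
        x = Pic0.mk ⟨E - Finsupp.single P (e : ℤ), hE⟩ := by
  obtain ⟨⟨D, hD⟩, rfl⟩ := Pic0.mk_surjective x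
  obtain ⟨e₀, he₀⟩ := exists_effective_avoiding hγ B P D
  refine ⟨e₀, fun e he => ?_⟩
  obtain ⟨E, f, hf0, hE0, hEB, hE⟩ := he₀ e he
  have hD0 : Divisor.degree D = 0 := hD
  have hdegE : Divisor.degree E = e := by
    rw [hE, map_add, map_add, degree_divOf, Divisor.degree_single, hP, hD0]
    simp
  have hmem : E - Finsupp.single P (e : ℤ) ∈ Divisor.degZero (K := K) (F := F) := by
    rw [Divisor.mem_degZero, map_sub, hdegE, Divisor.degree_single, hP]
    simp
  refine ⟨E, hmem, hE0, hEB, hdegE, ?_⟩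
  symm
  apply (QuotientAddGroup.eq).mpr
  rw [AddSubgroup.mem_addSubgroupOf, Divisor.mem_principal]
  refine ⟨f⁻¹, inv_ne_zero hf0, fun v => ?_⟩
  have hcoe : ((-(⟨E - Finsupp.single P (e : ℤ), hmem⟩ : Divisor.degZero (K := K) (F := F)) +
      ⟨D, hD⟩ : Divisor.degZero (K := K) (F := F)) : Divisor K F) =
      -(E - Finsupp.single P (e : ℤ)) + D := rfl
  rw [hcoe, hE, Place.ord_inv, ← divOf_apply hf0]
  simp only [Finsupp.add_apply, Finsupp.neg_apply, Finsupp.sub_apply]
  ring

end moving

end Fermat.Agent.Lib.RiemannRoch.Moving
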