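import Fermat.Agent.Lib.RiemannRoch.LocalDim

/-!
# Riemann's theorem in the language of the prelude

`l(D) - i(D) = deg D + l(0) - genusFF` where `l(D) = dim L(D)` and `i(D) = dim H¹(D)`,
`H¹(D) = A / (A(D) + F)`.
-/

set_option autoImplicit false
set_option linter.unusedSectionVars false

noncomputable section

open AlgebraicCurve WithZero Module

namespace Fermat.Agent.Lib.RiemannRoch

open Fermat.Agent.Lib.LatticePair

variable {K F : Type*} [Field K] [Field F] [Algebra K F]

theorem degree_eq_sum (E : Divisor K F) :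
    Divisor.degree E = E.sum fun v n => n * (v.deg : ℤ) := by
  simp [Divisor.degree, Finsupp.liftAddHom_apply]

theorem degree_nonneg {E : Divisor K F} (h : 0 ≤ E) : 0 ≤ Divisor.degree E := by
  rw [degree_eq_sum]
  refine Finsupp.sum_nonneg fun v _ => ?_
  exact mul_nonneg (h v) (Int.natCast_nonneg _)

theorem degree_mono {D D' : Divisor K F} (h : D ≤ D') : Divisor.degree D ≤ Divisor.degree D' := by
  have := degree_nonneg (sub_nonneg.mpr h)
  rw [map_sub] at this
  linarith

variable [HasPrincipalDivisors K F] [∀ v : Place K F, v.FiniteResidue]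

omit [HasPrincipalDivisors K F] in
theorem deg_pos (v : Place K F) : 0 < v.deg := by
  have : Module.Finite K v.ResidueField := Place.FiniteResidue.finite
  exact Module.finrank_pos

/-- The divisor of a nonzero function. -/
def divOf (f : F) : Divisor K F :=
  letI := Classical.propDecidable
  if h : f ≠ 0 then (HasPrincipalDivisors.exists_divisor (K := K) f h).choose else 0

theorem divOf_apply {f : F} (h : f ≠ 0) (v : Place K F) : divOf (K := K) f v = v.ord f := by
  rw [divOf, dif_pos h]
  exact (HasPrincipalDivisors.exists_divisor (K := K) f h).choose_spec.1 v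

theorem degree_divOf (f : F) : Divisor.degree (divOf (K := K) f) = 0 := by
  by_cases h : f ≠ 0
  · rw [divOf, dif_pos h]
    exact (HasPrincipalDivisors.exists_divisor (K := K) f h).choose_spec.2
  · rw [divOf, dif_neg h, map_zero]

theorem riemannRochSpace_eq_bot_of_degree_neg {D : Divisor K F} (h : Divisor.degree D < 0) :
    riemannRochSpace D = ⊥ := by
  rw [eq_bot_iff]
  intro f hf
  rw [Submodule.mem_bot]
  by_contra hf0
  have hnn : 0 ≤ divOf (K := K) f + D := by
    intro v
    have := (mem_riemannRochSpace_iff.mp hf v).resolve_left hf0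
    rw [Finsupp.add_apply, divOf_apply hf0]
    simp only [Finsupp.coe_zero, Pi.zero_apply]
    omega
  have := degree_nonneg hnn
  rw [map_add, degree_divOf] at this
  omega

section finiteL

variable [Nonempty (Place K F)]

theorem exists_le_degree_neg (D : Divisor K F) : ∃ D₀ ≤ D, Divisor.degree D₀ < 0 := by
  obtain ⟨v⟩ := ‹Nonempty (Place K F)›
  refine ⟨D - Finsupp.single v ((Divisor.degree D).toNat + 1 : ℤ), ?_, ?_⟩
  · rw [sub_le_self_iff]
    exact Finsupp.single_nonneg.mpr (by positivity)
  · rw [map_sub, Divisor.degree_single]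
    have h1 := deg_pos v
    have h2 : (1 : ℤ) ≤ (v.deg : ℤ) := by exact_mod_cast h1
    have h3 : Divisor.degree D ≤ ((Divisor.degree D).toNat : ℤ) := Int.self_le_toNat _
    nlinarith

instance finite_inf_principal (D : Divisor K F) :
    Module.Finite K ↥(repartitionsOf D ⊓ principalRepartitions K F) := by
  obtain ⟨D₀, hle, hneg⟩ := exists_le_degree_neg D
  have h0 : Module.Finite K ↥(repartitionsOf D₀ ⊓ principalRepartitions K F) := by
    have e := riemannRochEquiv D₀
    rw [riemannRochSpace_eq_bot_of_degree_neg hneg] at e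
    exact Module.Finite.equiv e
  have := (dimClaim_of_le hle).1
  exact (sixTerm (repartitionsOf D₀) (repartitionsOf D) (principalRepartitions K F)
    (repartitionsOf_mono hle)).1

instance finite_riemannRochSpace (D : Divisor K F) : Module.Finite K (riemannRochSpace D) :=
  Module.Finite.equiv (riemannRochEquiv D).symm

/-- `l(D)`. -/
def ell (D : Divisor K F) : ℕ := finrank K (riemannRochSpace D)

theorem ell_eq (D : Divisor K F) :
    ell D = finrank K ↥(repartitionsOf D ⊓ principalRepartitions K F) :=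
  (riemannRochEquiv D).finrank_eq

theorem ell_eq_zero_of_degree_neg {D : Divisor K F} (h : Divisor.degree D < 0) : ell D = 0 := by
  rw [ell, riemannRochSpace_eq_bot_of_degree_neg h]
  exact finrank_bot K F

/-- `r(D) = deg D - l(D)`. -/
def rr (D : Divisor K F) : ℤ := Divisor.degree D - ell D

/-- The relative quotient `(A(D') + F) / (A(D) + F)`. -/
abbrev SupQ (D D' : Divisor K F) : Type _ :=
  RelQ (repartitionsOf D ⊔ principalRepartitions K F) (repartitionsOf D' ⊔ principalRepartitions K F)

theorem sixTerm_div {D D' : Divisor K F} (h : D ≤ D') :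
    Module.Finite K (SupQ D D') ∧ rr D' - rr D = finrank K (SupQ D D') := by
  have := (dimClaim_of_le h).1
  obtain ⟨_, f2, e⟩ := sixTerm (repartitionsOf D) (repartitionsOf D')
    (principalRepartitions K F) (repartitionsOf_mono h)
  refine ⟨f2, ?_⟩
  have e2 := (dimClaim_of_le h).2
  rw [rr, rr, ell_eq, ell_eq]
  linarith

theorem rr_mono {D D' : Divisor K F} (h : D ≤ D') : rr D ≤ rr D' := by
  have := (sixTerm_div h).2
  have h2 : (0 : ℤ) ≤ finrank K (SupQ D D') := Int.natCast_nonneg _
  linarith

theorem sup_principal_eq_of_rr_eq {D D' : Divisor K F} (h : D ≤ D') (hr : rr D = rr D') :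
    repartitionsOf D ⊔ principalRepartitions K F = repartitionsOf D' ⊔ principalRepartitions K F := by
  obtain ⟨f, e⟩ := sixTerm_div h
  refine eq_of_finrank_relQ_eq_zero (sup_le_sup_right (repartitionsOf_mono h) _) ?_
  have : (finrank K (SupQ D D') : ℤ) = 0 := by rw [← e, hr]; ring
  exact_mod_cast this

theorem mul_inv_mem {f : F} (hf : f ≠ 0) {D : Divisor K F} {g : F} (hg : g ∈ riemannRochSpace D) :
    g * f⁻¹ ∈ riemannRochSpace (D + divOf (K := K) f) := by
  intro v
  rw [map_mul, map_inv₀, v.adicValuation_eq_exp_neg_ord hf, ← exp_neg, neg_neg, Finsupp.add_apply,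
    divOf_apply hf, exp_add]
  gcongr
  exact hg v

theorem mul_mem_of_add_divOf {f : F} (hf : f ≠ 0) {D : Divisor K F} {g : F}
    (hg : g ∈ riemannRochSpace (D + divOf (K := K) f)) : g * f ∈ riemannRochSpace D := by
  intro v
  have h1 := hg v
  rw [Finsupp.add_apply, divOf_apply hf, exp_add] at h1
  rw [map_mul, v.adicValuation_eq_exp_neg_ord hf]
  calc v.adicValuation g * exp (-v.ord f) ≤ exp (D v) * exp (v.ord f) * exp (-v.ord f) := by
        gcongr
    _ = exp (D v) := by rw [mul_assoc, ← exp_add]; simp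

/-- Multiplication by `f⁻¹` identifies `L(D)` with `L(D + div f)`. -/
def mulEquiv {f : F} (hf : f ≠ 0) (D : Divisor K F) :
    riemannRochSpace D ≃ₗ[K] riemannRochSpace (D + divOf (K := K) f) where
  toFun g := ⟨g * f⁻¹, mul_inv_mem hf g.2⟩
  invFun g := ⟨g * f, mul_mem_of_add_divOf hf g.2⟩
  map_add' g h := by
    apply Subtype.ext
    simp [add_mul]
  map_smul' c g := by
    apply Subtype.ext
    simp
  left_inv g := by
    apply Subtype.ext
    simp [mul_assoc, inv_mul_cancel₀ hf]
  right_inv g := by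
    apply Subtype.ext
    simp [mul_assoc, mul_inv_cancel₀ hf]

theorem ell_add_divOf {f : F} (hf : f ≠ 0) (D : Divisor K F) :
    ell (D + divOf (K := K) f) = ell D :=
  (mulEquiv hf D).finrank_eq.symm

theorem rr_add_divOf {f : F} (hf : f ≠ 0) (D : Divisor K F) :
    rr (D + divOf (K := K) f) = rr D := by
  rw [rr, rr, ell_add_divOf hf, map_add, degree_divOf, add_zero]

end finiteL

section bound

open IntermediateField Polynomial

variable [Nonempty (Place K F)]

omit [HasPrincipalDivisors K F] [∀ v : Place K F, v.FiniteResidue] [Nonempty (Place K F)] in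
theorem adicValuation_aeval_le (v : Place K F) (x : F) {b : ℤ} (hb0 : 0 ≤ b)
    (hb : v.adicValuation x ≤ exp b) {l : ℕ} {p : K[X]} (hp : p ∈ degreeLT K (l + 1)) :
    v.adicValuation (aeval x p) ≤ exp ((l : ℤ) * b) := by
  have hdeg : p.natDegree < l + 1 := by
    rcases eq_or_ne p 0 with rfl | hp0
    · simp
    · exact (natDegree_lt_iff_degree_lt hp0).mpr (mem_degreeLT.mp hp)
  rw [aeval_eq_sum_range' hdeg]
  refine Valuation.map_sum_le _ fun i hi => ?_
  rw [Algebra.smul_def, map_mul, map_pow]
  have hi' : i ≤ l := by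
    have := Finset.mem_range.mp hi
    omega
  calc v.adicValuation (algebraMap K F (p.coeff i)) * v.adicValuation x ^ i
      ≤ 1 * exp b ^ i := by
        gcongr
        exact v.adicValuation_algebraMap_le_one _
    _ = exp ((i : ℤ) * b) := by rw [one_mul, ← exp_nsmul, nsmul_eq_mul]
    _ ≤ exp ((l : ℤ) * b) := by
        rw [exp_le_exp]
        have : (i : ℤ) ≤ l := by exact_mod_cast hi'
        nlinarith

variable (x : F) [FiniteDimensional K⟮x⟯ F]

omit [HasPrincipalDivisors K F] [∀ v : Place K F, v.FiniteResidue] [Nonempty (Place K F)] in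
/-- The map `(p_j) ↦ Σ p_j(x) u_j`. -/
def polyMap (l : ℕ) : (Fin (finrank K⟮x⟯ F) → degreeLT K (l + 1)) →ₗ[K] F :=
  ∑ j, (LinearMap.mulRight K (Module.finBasis K⟮x⟯ F j)) ∘ₗ (aeval x).toLinearMap ∘ₗ
    (degreeLT K (l + 1)).subtype ∘ₗ LinearMap.proj j

omit [HasPrincipalDivisors K F] [∀ v : Place K F, v.FiniteResidue] [Nonempty (Place K F)] in
theorem polyMap_apply (l : ℕ) (p : Fin (finrank K⟮x⟯ F) → degreeLT K (l + 1)) :
    polyMap x l p = ∑ j, aeval x (p j : K[X]) * Module.finBasis K⟮x⟯ F j := by
  simp [polyMap]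

omit [HasPrincipalDivisors K F] [∀ v : Place K F, v.FiniteResidue] [Nonempty (Place K F)] in
theorem polyMap_injective (hx : Transcendental K x) (l : ℕ) :
    Function.Injective (polyMap (K := K) x l) := by
  rw [← LinearMap.ker_eq_bot, LinearMap.ker_eq_bot']
  intro p hp
  rw [polyMap_apply] at hp
  have hmem : ∀ q : K[X], aeval x q ∈ K⟮x⟯ := fun q =>
    IntermediateField.algebra_adjoin_le_adjoin K {x} (aeval_mem_adjoin_singleton K x)
  have h2 : ∑ j, (⟨aeval x (p j : K[X]), hmem _⟩ : K⟮x⟯) • Module.finBasis K⟮x⟯ F j = 0 := by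
    rw [← hp]
    refine Finset.sum_congr rfl fun j _ => ?_
    rfl
  have h3 := Fintype.linearIndependent_iff.mp (Module.finBasis K⟮x⟯ F).linearIndependent _ h2
  funext j
  have h4 : aeval x (p j : K[X]) = 0 := congrArg Subtype.val (h3 j)
  have h5 : (p j : K[X]) = 0 :=
    (transcendental_iff_injective.mp hx) (by rw [h4, map_zero])
  exact Subtype.ext h5

omit [HasPrincipalDivisors K F] [∀ v : Place K F, v.FiniteResidue] [Nonempty (Place K F)] in
theorem finrank_polyMap_domain (l : ℕ) :
    finrank K (Fin (finrank K⟮x⟯ F) → degreeLT K (l + 1)) = finrank K⟮x⟯ F * (l + 1) := by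
  rw [Module.finrank_pi_fintype]
  have h : finrank K (degreeLT K (l + 1)) = l + 1 := by
    rw [(degreeLTEquiv K (l + 1)).finrank_eq, Module.finrank_fin_fun]
  simp [h]

theorem exists_basis_mem : ∃ C : Divisor K F, 0 ≤ C ∧
    ∀ j, (Module.finBasis K⟮x⟯ F j : F) ∈ riemannRochSpace C := by
  have h : ∀ j, ∃ Cj : Divisor K F, 0 ≤ Cj ∧
      diag (K := K) (Module.finBasis K⟮x⟯ F j : F) ∈ repartitionsOf Cj :=
    fun j => exists_mem_repartitionsOf _ 0
  choose Cj h0 hC using h
  refine ⟨∑ j, Cj j, Finset.sum_nonneg fun j _ => h0 j, fun j => ?_⟩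
  have hle : Cj j ≤ ∑ j, Cj j :=
    Finset.single_le_sum (f := Cj) (fun i _ => h0 i) (Finset.mem_univ j)
  exact diag_mem_repartitionsOf_iff.mp (repartitionsOf_mono hle (hC j))

theorem le_ell (hx : Transcendental K x) {B C : Divisor K F}
    (hB : ∀ v : Place K F, B v = max 0 (-(v.ord x)))
    (hC : ∀ j, (Module.finBasis K⟮x⟯ F j : F) ∈ riemannRochSpace C) (l : ℕ) :
    finrank K⟮x⟯ F * (l + 1) ≤ ell (l • B + C) := by
  have hx0 : x ≠ 0 := by
    rintro rfl
    exact hx (isAlgebraic_zero)
  have hrange : ∀ p, polyMap (K := K) x l p ∈ riemannRochSpace (l • B + C) := by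
    intro p
    rw [polyMap_apply]
    refine Submodule.sum_mem _ fun j _ => ?_
    intro v
    rw [map_mul, Finsupp.add_apply, Finsupp.smul_apply, nsmul_eq_mul, exp_add]
    have hb0 : 0 ≤ B v := by rw [hB]; exact le_max_left _ _
    have hb : v.adicValuation x ≤ exp (B v) := by
      rw [v.adicValuation_eq_exp_neg_ord hx0, exp_le_exp, hB]
      exact le_max_right _ _
    gcongr
    · exact adicValuation_aeval_le v x hb0 hb (p j).2
    · exact hC j v
  have hinj : Function.Injective ((polyMap (K := K) x l).codRestrict _ hrange) := fun p q h =>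
    polyMap_injective x hx l (congrArg Subtype.val h)
  have := LinearMap.finrank_le_finrank_of_injective hinj
  rwa [finrank_polyMap_domain] at this

/-- Riemann's inequality: `deg D - l(D)` is bounded above. -/
theorem exists_rr_le (hx : Transcendental K x) {B : Divisor K F}
    (hB : ∀ v : Place K F, B v = max 0 (-(v.ord x)))
    (hdeg : Divisor.degree B ≤ finrank K⟮x⟯ F) :
    ∃ γ : ℤ, ∀ D : Divisor K F, rr D ≤ γ := by
  obtain ⟨C, -, hC⟩ := exists_basis_mem (K := K) x
  set n := finrank K⟮x⟯ F with hn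
  have hn1 : 1 ≤ n := Module.finrank_pos
  have hB0 : 0 ≤ B := fun v => by
    rw [hB]; exact le_max_left _ _
  -- the bound along the family `l B + C`
  have claim1 : ∀ l : ℕ, rr (l • B + C) ≤ Divisor.degree C - n := by
    intro l
    have h1 := le_ell x hx hB hC l
    rw [rr, map_add, map_nsmul, nsmul_eq_mul]
    have h2 : ((n * (l + 1) : ℕ) : ℤ) ≤ ell (l • B + C) := by exact_mod_cast h1
    push_cast at h2
    have h3 : (l : ℤ) * Divisor.degree B ≤ l * n := by
      have : (0 : ℤ) ≤ l := Int.natCast_nonneg _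
      nlinarith
    linarith
  refine ⟨Divisor.degree C - n, fun D => ?_⟩
  set Dp : Divisor K F := D ⊔ 0 with hDp
  have hDp0 : 0 ≤ Dp := le_sup_right
  set l := (Divisor.degree Dp).toNat with hl
  have hl' : (l : ℤ) = Divisor.degree Dp := Int.toNat_of_nonneg (degree_nonneg hDp0)
  set D1 : Divisor K F := l • B + C - Dp with hD1
  have hD1le : D1 ≤ l • B + C := sub_le_self _ hDp0
  have h1 := rr_mono hD1le
  have h2 := le_ell x hx hB hC l
  have h3 : 0 < ell D1 := by
    have h2' : ((n * (l + 1) : ℕ) : ℤ) ≤ ell (l • B + C) := by exact_mod_cast h2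
    push_cast at h2'
    rw [rr, rr, hD1, map_sub] at h1
    have h4 : (l : ℤ) + 1 ≤ n * (l + 1) := by
      have : (1 : ℤ) ≤ n := by exact_mod_cast hn1
      nlinarith [Int.natCast_nonneg l]
    have : (0 : ℤ) < ell D1 := by
      rw [hD1]
      linarith
    exact_mod_cast this
  obtain ⟨⟨f, hf⟩, hf0⟩ := Module.finrank_pos_iff_exists_ne_zero.mp h3
  have hf0' : f ≠ 0 := fun h => hf0 (Subtype.ext h)
  have hfinv : f⁻¹ ≠ 0 := inv_ne_zero hf0'
  have hle : D + divOf (K := K) f⁻¹ ≤ l • B + C := by
    intro v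
    have := (mem_riemannRochSpace_iff.mp hf v).resolve_left hf0'
    rw [hD1, Finsupp.sub_apply] at this
    rw [Finsupp.add_apply, divOf_apply hfinv, v.ord_inv]
    have hD : D v ≤ Dp v := by
      have : D ≤ Dp := le_sup_left
      exact this v
    linarith
  calc rr D = rr (D + divOf (K := K) f⁻¹) := (rr_add_divOf hfinv D).symm
    _ ≤ rr (l • B + C) := rr_mono hle
    _ ≤ _ := claim1 l

end bound

section main

variable [Nonempty (Place K F)]

/-- If Riemann's inequality holds there is a divisor `D` with `A = A(D) + F` maximising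
`deg - l`. -/
theorem exists_sup_principal_eq_top (hγ : ∃ γ : ℤ, ∀ D : Divisor K F, rr D ≤ γ) :
    ∃ Ds : Divisor K F, (∀ D : Divisor K F, rr D ≤ rr Ds) ∧
      repartitionsOf Ds ⊔ principalRepartitions K F = ⊤ := by
  obtain ⟨γ, hγ⟩ := hγ
  obtain ⟨m, ⟨Ds, rfl⟩, hmax⟩ := Int.exists_greatest_of_bdd
    (P := fun z => ∃ D : Divisor K F, rr D = z) ⟨γ, fun z ⟨D, hD⟩ => hD ▸ hγ D⟩ ⟨_, 0, rfl⟩
  refine ⟨Ds, fun D => hmax _ ⟨D, rfl⟩, ?_⟩
  rw [eq_top_iff]
  intro α _
  obtain ⟨D', hle, hα⟩ := exists_mem_repartitionsOf α Ds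
  have heq : rr Ds = rr D' := le_antisymm (rr_mono hle) (hmax _ ⟨D', rfl⟩)
  rw [sup_principal_eq_of_rr_eq hle heq]
  exact Submodule.mem_sup_left hα

/-- **Riemann's theorem** (first half of Riemann-Roch), assuming Riemann's inequality. -/
theorem riemann_of_bounded (hγ : ∃ γ : ℤ, ∀ D : Divisor K F, rr D ≤ γ) (D : Divisor K F) :
    Module.Finite K (H1 D) ∧
      (ell D : ℤ) - finrank K (H1 D) = Divisor.degree D + ell (0 : Divisor K F) - genusFF K F := by
  obtain ⟨Ds, hmax, htop⟩ := exists_sup_principal_eq_top hγ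
  have key : ∀ D : Divisor K F, Module.Finite K (H1 D) ∧
      (ell D : ℤ) - finrank K (H1 D) - Divisor.degree D = -rr Ds := by
    intro D
    set D' : Divisor K F := D ⊔ Ds with hD'
    have hle : D ≤ D' := le_sup_left
    have hle' : Ds ≤ D' := le_sup_right
    have htop' : repartitionsOf D' ⊔ principalRepartitions K F = ⊤ := by
      rw [eq_top_iff, ← htop]
      exact sup_le_sup_right (repartitionsOf_mono hle') _
    have hsub : Subsingleton (H1 D') := by
      rw [Submodule.Quotient.subsingleton_iff]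
      exact htop'
    have hfin' : Finite (H1 D') := Finite.of_subsingleton
    have hfin : Module.Finite K (H1 D') := Module.Finite.of_finite
    have hrel := (dimClaim_of_le hle).1
    have hrel2 := (dimClaim_of_le hle).2
    obtain ⟨_, f2, e⟩ := additivity' (repartitionsOf D) (repartitionsOf D')
      (principalRepartitions K F) (repartitionsOf_mono hle)
    refine ⟨f2, ?_⟩
    have h0 : finrank K (H1 D') = 0 := finrank_zero_of_subsingleton
    have hrr : rr D' = rr Ds := le_antisymm (hmax D') (rr_mono hle')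
    have e' : (ell D' : ℤ) - finrank K (H1 D') = (ell D : ℤ) - finrank K (H1 D) +
        (Divisor.degree D' - Divisor.degree D) := by
      rw [ell_eq, ell_eq, ← hrel2]
      exact e
    rw [h0] at e'
    rw [← hrr, rr]
    push_cast at e'
    linarith
  obtain ⟨f, e⟩ := key D
  obtain ⟨_, e0⟩ := key 0
  refine ⟨f, ?_⟩
  rw [map_zero] at e0
  rw [genusFF]
  linarith

theorem one_le_ell_zero : 1 ≤ ell (0 : Divisor K F) := by
  have h1 : (1 : F) ∈ riemannRochSpace (0 : Divisor K F) := by
    intro v
    simp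
  have : 0 < ell (0 : Divisor K F) :=
    Module.finrank_pos_iff_exists_ne_zero.mpr ⟨⟨1, h1⟩, fun h => one_ne_zero (congrArg Subtype.val h)⟩
  exact this

/-- A divisor which is at least `D` and has the same degree equals `D`. -/
theorem eq_of_le_of_degree_le {D D' : Divisor K F} (h : D ≤ D')
    (hd : Divisor.degree D' ≤ Divisor.degree D) : D = D' := by
  by_contra hne
  have hex : ∃ v, D v < D' v := by
    by_contra hcon
    simp only [not_exists, not_lt] at hcon
    exact hne (Finsupp.ext fun v => le_antisymm (h v) (hcon v))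
  obtain ⟨v, hv⟩ := hex
  have hE : 0 ≤ D' - D - Finsupp.single v (1 : ℤ) := by
    intro w
    rw [Finsupp.sub_apply, Finsupp.sub_apply]
    simp only [Finsupp.coe_zero, Pi.zero_apply]
    by_cases hw : w = v
    · subst hw
      rw [Finsupp.single_eq_same]
      omega
    · rw [Finsupp.single_eq_of_ne hw]
      have := h w
      omega
  have := degree_nonneg hE
  rw [map_sub, map_sub, Divisor.degree_single] at this
  have h1 : (1 : ℤ) ≤ v.deg := by exact_mod_cast deg_pos v
  linarith

/-- For divisors of large degree, `A = A(D) + F`. -/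
theorem exists_degree_bound (hγ : ∃ γ : ℤ, ∀ D : Divisor K F, rr D ≤ γ) :
    ∃ c : ℤ, ∀ D : Divisor K F, c ≤ Divisor.degree D →
      repartitionsOf D ⊔ principalRepartitions K F = ⊤ := by
  obtain ⟨Ds, -, htop⟩ := exists_sup_principal_eq_top hγ
  refine ⟨Divisor.degree Ds + genusFF K F, fun D hD => ?_⟩
  obtain ⟨f1, e1⟩ := riemann_of_bounded hγ (D - Ds)
  have hpos : 0 < ell (D - Ds) := by
    have h1 : (1 : ℤ) ≤ ell (0 : Divisor K F) := by exact_mod_cast one_le_ell_zero
    have h2 : (0 : ℤ) ≤ finrank K (H1 (D - Ds)) := Int.natCast_nonneg _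
    rw [map_sub] at e1
    have : (0 : ℤ) < ell (D - Ds) := by linarith
    exact_mod_cast this
  obtain ⟨⟨f, hf⟩, hf0⟩ := Module.finrank_pos_iff_exists_ne_zero.mp hpos
  have hf0' : f ≠ 0 := fun h => hf0 (Subtype.ext h)
  have hle : Ds ≤ D + divOf (K := K) f := by
    intro v
    have := (mem_riemannRochSpace_iff.mp hf v).resolve_left hf0'
    rw [Finsupp.sub_apply] at this
    rw [Finsupp.add_apply, divOf_apply hf0']
    linarith
  have htop2 : repartitionsOf (D + divOf (K := K) f) ⊔ principalRepartitions K F = ⊤ := by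
    rw [eq_top_iff, ← htop]
    exact sup_le_sup_right (repartitionsOf_mono hle) _
  have hsub : Subsingleton (H1 (D + divOf (K := K) f)) := by
    rw [Submodule.Quotient.subsingleton_iff]
    exact htop2
  obtain ⟨f2, e2⟩ := riemann_of_bounded hγ (D + divOf (K := K) f)
  obtain ⟨f3, e3⟩ := riemann_of_bounded hγ D
  rw [finrank_zero_of_subsingleton, ell_add_divOf hf0', map_add, degree_divOf] at e2
  push_cast at e2
  have h0 : finrank K (H1 D) = 0 := by
    have : (finrank K (H1 D) : ℤ) = 0 := by linarith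
    exact_mod_cast this
  have hsub2 : Subsingleton (H1 D) := Module.finrank_zero_iff.mp h0
  exact Submodule.Quotient.subsingleton_iff.mp hsub2

end main

section final

open IntermediateField

variable [Nonempty (Place K F)]

/-- **Riemann's theorem** for a function field with a separating-type element `x`:
`l(D) - i(D) = deg D + l(0) - g`, and all `H¹(D)` are finite dimensional. -/
theorem riemann (x : F) (hx : Transcendental K x) [FiniteDimensional K⟮x⟯ F] {B : Divisor K F}
    (hB : ∀ v : Place K F, B v = max 0 (-(v.ord x)))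
    (hdeg : Divisor.degree B ≤ finrank K⟮x⟯ F) (D : Divisor K F) :
    Module.Finite K (H1 D) ∧
      (ell D : ℤ) - finrank K (H1 D) = Divisor.degree D + ell (0 : Divisor K F) - genusFF K F :=
  riemann_of_bounded (exists_rr_le x hx hB hdeg) D

end final

end Fermat.Agent.Lib.RiemannRoch
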