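import Fermat.Agent.Lib.RiemannRoch.FunctionFieldDeg
import Fermat.Agent.Lib.RiemannRoch.Consequences
import Fermat.Agent.Lib.RiemannRoch.KaehlerCharts
import Fermat.Agent.S20.RR.SerreDuality

/-!
# The Riemann-Roch theorem for separably generated function fields, any characteristic

Setting (`E`-setting of `S20/RR/SerreDuality.lean`): `K` any field, `E` a fraction field of `K[X]`,
`F / E` finite separable.  Given that all residue fields of places are finite over `K`, that there
is at least one place, and that nonzero algebraic elements have no zeros or poles (these three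
inputs are discharged in `FunctionField.lean` / `PlacesBasic.lean`), we prove
`HasPrincipalDivisors K F` and the full Riemann-Roch theorem with the canonical divisor
`W = canonicalDiv K E F = Diff(F / K(x)) - 2 (x)_∞`.
-/

set_option autoImplicit false
set_option linter.unusedSectionVars false

noncomputable section

open AlgebraicCurve WithZero Module IntermediateField Polynomial

namespace Fermat.Agent.Lib.RiemannRoch.RiemannRochSep

open Fermat.Agent.Lib.RiemannRoch Fermat.Agent.S20.RR.SerreDuality
  Fermat.Agent.S20.RR.Dictionary Fermat.Agent.Lib.RiemannRoch.KaehlerCharts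

variable (K E F : Type*) [Field K] [Field E] [Field F]
  [Algebra K[X] E] [IsFractionRing K[X] E] [Algebra K E] [IsScalarTower K K[X] E]
  [Algebra K F] [Algebra E F] [IsScalarTower K E F] [FiniteDimensional E F]
  [Algebra.IsSeparable E F]

include E in
/-- Every nonzero function has a divisor. -/
theorem exists_divisor_ord (g : F) (_hg : g ≠ 0) :
    ∃ D : Divisor K F, ∀ v : Place K F, D v = v.ord g := by
  have h1 := Fermat.Agent.S20.RR.SerreDuality.finite_poles K E F g
  have h2 := Fermat.Agent.S20.RR.SerreDuality.finite_poles K E F g⁻¹
  have hfin : (Function.support fun v : Place K F => v.ord g).Finite := by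
    refine (h1.union h2).subset fun v hv => ?_
    rw [Function.mem_support] at hv
    rcases lt_or_gt_of_ne hv with h | h
    · left
      exact v.not_adicValuation_le_one_iff.mpr h
    · right
      refine v.not_adicValuation_le_one_iff.mpr ?_
      rw [Place.ord_inv]
      omega
  exact ⟨Finsupp.ofSupportFinite _ hfin, fun v => rfl⟩

variable [∀ v : Place K F, v.FiniteResidue] [Nonempty (Place K F)]

include E in
/-- Principal divisors have degree zero. -/
theorem hasPrincipalDivisors
    (halg : ∀ (v : Place K F) (g : F), IsAlgebraic K g → g ≠ 0 → v.ord g = 0) :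
    HasPrincipalDivisors K F :=
  FunctionFieldDeg.hasPrincipalDivisors_of (xF K E F)
    (Fermat.Agent.S20.RR.SerreDuality.finite_riemannRochSpace K E F 0)
    (exists_divisor_ord K E F) halg

variable [HasPrincipalDivisors K F]

include E in
/-- Riemann's inequality. -/
theorem exists_rr_le : ∃ γ : ℤ, ∀ D : Divisor K F, rr D ≤ γ :=
  DegBound.exists_rr_le' (xF K E F) transcendental_xF

/-- **The Riemann-Roch theorem**, `K` any field, `F / K(x)` finite separable, with the canonical
divisor `W = canonicalDiv K E F`. -/
theorem riemannRoch (D : Divisor K F) :
    (finrank K (riemannRochSpace D) : ℤ) =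
      Divisor.degree D + finrank K (riemannRochSpace (0 : Divisor K F)) - genusFF K F +
        finrank K (riemannRochSpace (canonicalDiv K E F - D)) :=
  Fermat.Agent.Lib.RiemannRoch.riemannRoch (exists_rr_le K E F)
    (W := canonicalDiv K E F) (fun D => finrank_H1_eq K E F D) D

/-- The degree of the canonical divisor. -/
theorem degree_canonicalDiv :
    Divisor.degree (canonicalDiv K E F) =
      2 * (genusFF K F : ℤ) - 2 * finrank K (riemannRochSpace (0 : Divisor K F)) :=
  Fermat.Agent.Lib.RiemannRoch.degree_canonical (exists_rr_le K E F)
    (W := canonicalDiv K E F) (fun D => finrank_H1_eq K E F D)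

include E in
/-- Riemann's theorem. -/
theorem riemann (D : Divisor K F) :
    (finrank K (riemannRochSpace D) : ℤ) - finrank K (H1 D) =
      Divisor.degree D + finrank K (riemannRochSpace (0 : Divisor K F)) - genusFF K F :=
  ell_sub_idx (exists_rr_le K E F) D

/-- If `K` is algebraically closed then `l(0) = 1`. -/
theorem finrank_zero_eq_one [IsAlgClosed K] :
    finrank K (riemannRochSpace (0 : Divisor K F)) = 1 :=
  ell_zero_eq_one

end Fermat.Agent.Lib.RiemannRoch.RiemannRochSep
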