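import Fermat.Agent.Lib.RiemannRoch.Consequences

/-!
# Weil differentials and the duality theorem

A Weil differential is a `K`-linear form on the repartitions vanishing on `A(D) + F` for some
divisor `D`.  Following Stichtenoth (Section 1.5) we show that the Weil differentials form a one
dimensional `F`-vector space, attach a divisor to every nonzero Weil differential and deduce the
duality theorem `i(D) = l(W - D)`.
-/

set_option autoImplicit false
set_option linter.unusedSectionVars false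

noncomputable section

open AlgebraicCurve WithZero Module

namespace Fermat.Agent.Lib.RiemannRoch

/-- Two linear maps `U → V` with `dim V < 2 dim U`, the first injective, have a common value
`φ₁ u₁ = φ₂ u₂` with `u₂ ≠ 0`. -/
theorem exists_eq_of_finrank_lt {K U V : Type*} [Field K] [AddCommGroup U] [Module K U]
    [AddCommGroup V] [Module K V] [Module.Finite K U] [Module.Finite K V]
    (φ₁ φ₂ : U →ₗ[K] V) (hφ₁ : Function.Injective φ₁)
    (hlt : finrank K V < finrank K U + finrank K U) :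
    ∃ u₁ u₂ : U, u₂ ≠ 0 ∧ φ₁ u₁ = φ₂ u₂ := by
  have hlt' : finrank K V < finrank K (U × U) := by
    rw [Module.finrank_prod]; exact hlt
  obtain ⟨⟨u₁, u₂⟩, hmem, hne⟩ := Submodule.exists_mem_ne_zero_of_ne_bot
    (LinearMap.ker_ne_bot_of_finrank_lt (f := φ₁.coprod (-φ₂)) hlt')
  rw [LinearMap.mem_ker, LinearMap.coprod_apply, LinearMap.neg_apply, ← sub_eq_add_neg,
    sub_eq_zero] at hmem
  refine ⟨u₁, u₂, ?_, hmem⟩
  rintro rfl
  rw [map_zero] at hmem
  have : u₁ = 0 := hφ₁ (by rw [hmem, map_zero])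
  exact hne (by rw [this]; rfl)

variable {K F : Type*} [Field K] [Field F] [Algebra K F]

/-- Multiplication by `f : F` on the repartitions, as a `K`-linear map. -/
def mulA (f : F) : repartitions K F →ₗ[K] repartitions K F :=
  ((f • LinearMap.id : repartitions K F →ₗ[F] repartitions K F)).restrictScalars K

@[simp]
theorem mulA_apply (f : F) (α : repartitions K F) : mulA (K := K) f α = f • α := rfl

theorem smul_apply' (f : F) (α : repartitions K F) (v : Place K F) :
    ((f • α : repartitions K F) : Place K F → F) v = f * (α : Place K F → F) v := rfl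

variable [HasPrincipalDivisors K F] [∀ v : Place K F, v.FiniteResidue]

theorem divOf_inv {f : F} (hf : f ≠ 0) : divOf (K := K) f⁻¹ = -divOf (K := K) f := by
  ext v
  rw [Finsupp.neg_apply, divOf_apply (inv_ne_zero hf), divOf_apply hf, v.ord_inv]

/-- Scaling by `f` moves `A(D + div f)` onto `A(D)`. -/
theorem smul_mem_repartitionsOf_iff {f : F} (hf : f ≠ 0) {D : Divisor K F}
    {α : repartitions K F} :
    f • α ∈ repartitionsOf D ↔ α ∈ repartitionsOf (D + divOf (K := K) f) := by
  rw [mem_repartitionsOf_iff, mem_repartitionsOf_iff]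
  refine forall_congr' fun v => ?_
  rw [smul_apply', Finsupp.add_apply, divOf_apply hf]
  by_cases h0 : (α : Place K F → F) v = 0
  · simp [h0]
  · rw [v.ord_mul hf h0]
    simp only [mul_eq_zero, hf, h0, false_or]
    constructor <;> intro h <;> omega

theorem smul_diag (f g : F) : f • diag (K := K) g = diag (K := K) (f * g) := by
  apply Subtype.ext
  funext v
  rfl

theorem smul_mem_principal (f : F) {α : repartitions K F}
    (hα : α ∈ principalRepartitions K F) : f • α ∈ principalRepartitions K F := by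
  rw [← range_diag] at hα ⊢
  obtain ⟨g, rfl⟩ := hα
  exact ⟨f * g, (smul_diag f g).symm⟩

/-- `ω` vanishes on `A(D) + F`. -/
def Vanishes (ω : Module.Dual K (repartitions K F)) (D : Divisor K F) : Prop :=
  repartitionsOf D ⊔ principalRepartitions K F ≤ LinearMap.ker ω

theorem vanishes_iff {ω : Module.Dual K (repartitions K F)} {D : Divisor K F} :
    Vanishes ω D ↔ (∀ α ∈ repartitionsOf D, ω α = 0) ∧
      ∀ α ∈ principalRepartitions K F, ω α = 0 := by
  rw [Vanishes, sup_le_iff]
  rfl

theorem Vanishes.anti {ω : Module.Dual K (repartitions K F)} {D D' : Divisor K F}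
    (h : Vanishes ω D') (hle : D ≤ D') : Vanishes ω D :=
  (sup_le_sup_right (repartitionsOf_mono hle) _).trans h

theorem Vanishes.sup {ω : Module.Dual K (repartitions K F)} {D D' : Divisor K F}
    (h : Vanishes ω D) (h' : Vanishes ω D') : Vanishes ω (D ⊔ D') := by
  rw [Vanishes, ← repartitionsOf_sup]
  exact sup_le (sup_le (le_sup_left.trans h) (le_sup_left.trans h')) (le_sup_right.trans h)

theorem vanishes_zero (D : Divisor K F) : Vanishes (0 : Module.Dual K (repartitions K F)) D := by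
  intro α _
  simp

/-- The `F`-action on linear forms: `(f • ω) α = ω (f • α)`. -/
def smulW (ω : Module.Dual K (repartitions K F)) : F →ₗ[K] Module.Dual K (repartitions K F) where
  toFun f := ω ∘ₗ mulA f
  map_add' f g := by
    ext α
    simp [add_smul]
  map_smul' c f := by
    ext α
    simp [smul_assoc]

@[simp]
theorem smulW_apply (ω : Module.Dual K (repartitions K F)) (f : F) (α : repartitions K F) :
    smulW ω f α = ω (f • α) := rfl

theorem smulW_smulW (ω : Module.Dual K (repartitions K F)) (f g : F) :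
    smulW (smulW ω f) g = smulW ω (f * g) := by
  ext α
  simp [mul_smul]

theorem smulW_one (ω : Module.Dual K (repartitions K F)) : smulW ω 1 = ω := by
  ext α
  simp

theorem smulW_injective {ω : Module.Dual K (repartitions K F)} (hω : ω ≠ 0) :
    Function.Injective (smulW ω) := by
  rw [← LinearMap.ker_eq_bot, LinearMap.ker_eq_bot']
  intro f hf
  by_contra hf0
  apply hω
  have := congrArg (fun η => smulW η f⁻¹) hf
  simp only [smulW_smulW, mul_inv_cancel₀ hf0, smulW_one] at this
  rw [this]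
  ext α
  simp

/-- `f • ω` vanishes on `A(D) + F` iff `ω` vanishes on `A(D - div f) + F`. -/
theorem vanishes_smulW_iff {ω : Module.Dual K (repartitions K F)} {f : F} (hf : f ≠ 0)
    {D : Divisor K F} : Vanishes (smulW ω f) D ↔ Vanishes ω (D - divOf (K := K) f) := by
  rw [vanishes_iff, vanishes_iff]
  constructor
  · rintro ⟨h1, h2⟩
    refine ⟨fun β hβ => ?_, fun β hβ => ?_⟩
    · have hmem : f⁻¹ • β ∈ repartitionsOf D := by
        rw [smul_mem_repartitionsOf_iff (inv_ne_zero hf), divOf_inv hf, ← sub_eq_add_neg]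
        exact hβ
      have := h1 _ hmem
      rwa [smulW_apply, smul_smul, mul_inv_cancel₀ hf, one_smul] at this
    · have := h2 _ (smul_mem_principal f⁻¹ hβ)
      rwa [smulW_apply, smul_smul, mul_inv_cancel₀ hf, one_smul] at this
  · rintro ⟨h1, h2⟩
    refine ⟨fun α hα => ?_, fun α hα => ?_⟩
    · rw [smulW_apply]
      apply h1
      rw [smul_mem_repartitionsOf_iff hf]
      simpa using hα
    · rw [smulW_apply]
      exact h2 _ (smul_mem_principal f hα)

/-- The space `Ω(D)` of Weil differentials vanishing on `A(D) + F`. -/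
def Om (D : Divisor K F) : Submodule K (Module.Dual K (repartitions K F)) :=
  (repartitionsOf D ⊔ principalRepartitions K F).dualAnnihilator

theorem mem_Om_iff {ω : Module.Dual K (repartitions K F)} {D : Divisor K F} :
    ω ∈ Om D ↔ Vanishes ω D := by
  rw [Om, Submodule.mem_dualAnnihilator, Vanishes]
  exact ⟨fun h α hα => LinearMap.mem_ker.mpr (h α hα), fun h α hα => LinearMap.mem_ker.mp (h hα)⟩

/-- For `f ∈ L(D + E)` and `ω` vanishing on `A(D) + F`, the form `f • ω` vanishes on
`A(-E) + F`. -/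
theorem vanishes_smulW_of_mem {ω : Module.Dual K (repartitions K F)} {D E : Divisor K F}
    (hω : Vanishes ω D) {f : F} (hf : f ∈ riemannRochSpace (D + E)) :
    Vanishes (smulW ω f) (-E) := by
  rw [vanishes_iff] at hω ⊢
  refine ⟨fun α hα => ?_, fun α hα => ?_⟩
  · rw [smulW_apply]
    apply hω.1
    intro v
    rw [smul_apply', map_mul]
    have h1 := hf v
    have h2 := hα v
    rw [Finsupp.add_apply, exp_add] at h1
    rw [Finsupp.neg_apply] at h2
    calc v.adicValuation f * v.adicValuation ((α : Place K F → F) v)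
        ≤ exp (D v) * exp (E v) * exp (-E v) := by gcongr
      _ = exp (D v) := by rw [mul_assoc, ← exp_add]; simp
  · rw [smulW_apply]
    exact hω.2 _ (smul_mem_principal f hα)

/-- The map `L(D + E) → Ω(-E)`, `f ↦ f • ω`. -/
def smulWRestrict (ω : Module.Dual K (repartitions K F)) {D : Divisor K F} (E : Divisor K F)
    (hω : Vanishes ω D) : riemannRochSpace (D + E) →ₗ[K] Om (-E) :=
  ((smulW ω).comp (riemannRochSpace (D + E)).subtype).codRestrict _
    (fun f => mem_Om_iff.mpr (vanishes_smulW_of_mem hω f.2))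

theorem smulWRestrict_apply (ω : Module.Dual K (repartitions K F)) {D : Divisor K F}
    (E : Divisor K F) (hω : Vanishes ω D) (f : riemannRochSpace (D + E)) :
    (smulWRestrict ω E hω f : Module.Dual K (repartitions K F)) = smulW ω (f : F) := rfl

theorem smulWRestrict_injective {ω : Module.Dual K (repartitions K F)} (hne : ω ≠ 0)
    {D : Divisor K F} (E : Divisor K F) (hω : Vanishes ω D) :
    Function.Injective (smulWRestrict ω E hω) := fun _ _ h =>
  Subtype.ext (smulW_injective hne (congrArg Subtype.val h))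

/-- `f • ω` vanishes on `A(D) + F` iff `D ≤ W + div f`. -/
theorem vanishes_smulW_iff_le {ω : Module.Dual K (repartitions K F)} {W : Divisor K F}
    (hW : ∀ D, Vanishes ω D ↔ D ≤ W) {f : F} (hf : f ≠ 0) (D : Divisor K F) :
    Vanishes (smulW ω f) D ↔ D ≤ W + divOf (K := K) f := by
  rw [vanishes_smulW_iff hf, hW, sub_le_iff_le_add]

/-- `f ∈ L(W - D)` iff `D ≤ W + div f`, for `f ≠ 0`. -/
theorem mem_riemannRochSpace_sub_iff {W D : Divisor K F} {f : F} (hf : f ≠ 0) :
    f ∈ riemannRochSpace (W - D) ↔ D ≤ W + divOf (K := K) f := by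
  rw [mem_riemannRochSpace_iff]
  refine forall_congr' fun v => ?_
  rw [Finsupp.sub_apply, Finsupp.add_apply, divOf_apply hf]
  simp only [hf, false_or]
  constructor <;> intro h <;> omega

/-- The map `L(W - D) → Ω(D)`, `f ↦ f • ω`. -/
def canonicalMap (ω : Module.Dual K (repartitions K F)) {W : Divisor K F} (D : Divisor K F)
    (hω : Vanishes ω W) : riemannRochSpace (W - D) →ₗ[K] Om D :=
  ((smulW ω).comp (riemannRochSpace (W - D)).subtype).codRestrict _ (fun f => by
    have := vanishes_smulW_of_mem hω (E := -D) (f := (f : F))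
      (by rw [← sub_eq_add_neg]; exact f.2)
    rw [neg_neg] at this
    exact mem_Om_iff.mpr this)

section weil

variable [Nonempty (Place K F)] (hγ : ∃ γ : ℤ, ∀ D : Divisor K F, rr D ≤ γ)
include hγ

theorem finite_Om (D : Divisor K F) : Module.Finite K (Om D) := by
  have := finite_H1 hγ D
  exact Module.Finite.equiv (Submodule.dualQuotEquivDualAnnihilator
    (repartitionsOf D ⊔ principalRepartitions K F))

theorem finrank_Om (D : Divisor K F) : finrank K (Om D) = idx D := by
  rw [Om, ← (Submodule.dualQuotEquivDualAnnihilator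
    (repartitionsOf D ⊔ principalRepartitions K F)).finrank_eq, Subspace.dual_finrank_eq]
  rfl

/-- Dimension count: if `i(-E) < 2 l(D + E)` then `f₁ • ω₁ = f₂ • ω₂` for some `f₂ ≠ 0`. -/
theorem exists_smulW_eq_smulW {ω₁ ω₂ : Module.Dual K (repartitions K F)} {D E : Divisor K F}
    (hv₁ : Vanishes ω₁ D) (hne : ω₁ ≠ 0) (hv₂ : Vanishes ω₂ D)
    (hlt : idx (-E) < ell (D + E) + ell (D + E)) :
    ∃ f₁ f₂ : F, f₂ ≠ 0 ∧ smulW ω₁ f₁ = smulW ω₂ f₂ := by
  have hfinOm := finite_Om hγ (-E)
  rw [← finrank_Om hγ] at hlt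
  have hlt' : finrank K (Om (-E)) < finrank K (riemannRochSpace (D + E)) +
      finrank K (riemannRochSpace (D + E)) := hlt
  obtain ⟨u₁, u₂, hu₂, h⟩ := exists_eq_of_finrank_lt (K := K)
    (U := ↥(riemannRochSpace (D + E))) (V := ↥(Om (-E))) (smulWRestrict ω₁ E hv₁)
    (smulWRestrict ω₂ E hv₂) (smulWRestrict_injective hne E hv₁) hlt'
  refine ⟨u₁, u₂, fun h0 => hu₂ (Subtype.ext h0), ?_⟩
  rw [← smulWRestrict_apply ω₁ E hv₁, ← smulWRestrict_apply ω₂ E hv₂, h]

/-- There are effective divisors `E` with `i(-E) < 2 l(D + E)`. -/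
theorem exists_idx_neg_lt (D : Divisor K F) :
    ∃ E : Divisor K F, idx (-E) < ell (D + E) + ell (D + E) := by
  obtain ⟨v₀⟩ := ‹Nonempty (Place K F)›
  have hpos : (1 : ℤ) ≤ v₀.deg := by exact_mod_cast deg_pos v₀
  obtain ⟨m, hm⟩ : ∃ m : ℕ, 3 * (genusFF K F : ℤ) - 3 * (ell (0 : Divisor K F) : ℤ)
      - 2 * Divisor.degree D + 1 < m ∧ (1 : ℤ) ≤ m := by
    refine ⟨(3 * (genusFF K F : ℤ) - 3 * (ell (0 : Divisor K F) : ℤ)
      - 2 * Divisor.degree D + 1).toNat + 1, ?_, ?_⟩
    · have := Int.self_le_toNat (3 * (genusFF K F : ℤ) - 3 * (ell (0 : Divisor K F) : ℤ)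
        - 2 * Divisor.degree D + 1)
      push_cast
      omega
    · push_cast
      omega
  refine ⟨Finsupp.single v₀ (m : ℤ), ?_⟩
  have hdegE : (m : ℤ) ≤ Divisor.degree (Finsupp.single v₀ (m : ℤ)) := by
    rw [Divisor.degree_single]
    nlinarith [hm.2]
  have h1 := ell_sub_idx hγ (-Finsupp.single v₀ (m : ℤ))
  have h2 : ell (-Finsupp.single v₀ (m : ℤ)) = 0 :=
    ell_eq_zero_of_degree_neg (by rw [map_neg]; linarith [hm.2])
  rw [h2, map_neg] at h1
  have h3 := le_ell_of_riemann hγ (D + Finsupp.single v₀ (m : ℤ))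
  rw [map_add] at h3
  have : (idx (-Finsupp.single v₀ (m : ℤ)) : ℤ) <
      (ell (D + Finsupp.single v₀ (m : ℤ)) : ℤ) + ell (D + Finsupp.single v₀ (m : ℤ)) := by
    push_cast at h1
    linarith [hm.1]
  exact_mod_cast this

/-- **The Weil differentials form a one dimensional `F`-vector space.** -/
theorem exists_eq_smulW {ω₁ ω₂ : Module.Dual K (repartitions K F)} {D₁ D₂ : Divisor K F}
    (h₁ : Vanishes ω₁ D₁) (hne : ω₁ ≠ 0) (h₂ : Vanishes ω₂ D₂) :
    ∃ f : F, ω₂ = smulW ω₁ f := by
  by_cases hne₂ : ω₂ = 0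
  · exact ⟨0, by rw [hne₂, map_zero]⟩
  have hv₁ : Vanishes ω₁ (D₁ ⊓ D₂) := h₁.anti inf_le_left
  have hv₂ : Vanishes ω₂ (D₁ ⊓ D₂) := h₂.anti inf_le_right
  obtain ⟨E, hE⟩ := exists_idx_neg_lt hγ (D₁ ⊓ D₂)
  obtain ⟨f₁, f₂, hf₂, hker'⟩ := exists_smulW_eq_smulW hγ hv₁ hne hv₂ hE
  refine ⟨f₁ * f₂⁻¹, ?_⟩
  rw [← smulW_smulW, hker', smulW_smulW, mul_inv_cancel₀ hf₂, smulW_one]

/-- **The divisor of a nonzero Weil differential**: there is a largest divisor `W` with `ω`
vanishing on `A(W) + F`. -/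
theorem exists_divisor {ω : Module.Dual K (repartitions K F)} (hne : ω ≠ 0) {D₀ : Divisor K F}
    (h₀ : Vanishes ω D₀) : ∃ W : Divisor K F, ∀ D, Vanishes ω D ↔ D ≤ W := by
  obtain ⟨c, hc⟩ := exists_degree_bound hγ
  have hbdd : ∀ D, Vanishes ω D → Divisor.degree D ≤ c := by
    intro D hD
    by_contra hcon
    rw [not_le] at hcon
    apply hne
    have htop := hc D hcon.le
    rw [Vanishes, htop, top_le_iff, LinearMap.ker_eq_top] at hD
    exact hD
  obtain ⟨d, ⟨W, hW, hdW⟩, hmax⟩ := Int.exists_greatest_of_bdd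
    (P := fun d => ∃ D, Vanishes ω D ∧ Divisor.degree D = d)
    ⟨c, fun d ⟨D, hD, hd⟩ => hd ▸ hbdd D hD⟩ ⟨Divisor.degree D₀, D₀, h₀, rfl⟩
  refine ⟨W, fun D => ⟨fun hD => ?_, fun hle => hW.anti hle⟩⟩
  have hsup : Vanishes ω (D ⊔ W) := hD.sup hW
  have hle : Divisor.degree (D ⊔ W) ≤ Divisor.degree W := by
    rw [hdW]
    exact hmax _ ⟨_, hsup, rfl⟩
  have heq := eq_of_le_of_degree_le (le_sup_right : W ≤ D ⊔ W) hle
  rw [heq]
  exact le_sup_left

/-- There is a nonzero Weil differential. -/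
theorem exists_ne_zero_vanishes :
    ∃ (ω : Module.Dual K (repartitions K F)) (D : Divisor K F), ω ≠ 0 ∧ Vanishes ω D := by
  obtain ⟨v₀⟩ := ‹Nonempty (Place K F)›
  have hpos : (1 : ℤ) ≤ v₀.deg := by exact_mod_cast deg_pos v₀
  set m : ℤ := (ell (0 : Divisor K F) : ℤ) + 1 with hm
  have hm1 : (1 : ℤ) ≤ m := by
    have : (0 : ℤ) ≤ ell (0 : Divisor K F) := Int.natCast_nonneg _
    omega
  have hdeg : m ≤ Divisor.degree (Finsupp.single v₀ m) := by
    rw [Divisor.degree_single]
    nlinarith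
  have h1 := ell_sub_idx hγ (-Finsupp.single v₀ m)
  have h2 : ell (-Finsupp.single v₀ m) = 0 :=
    ell_eq_zero_of_degree_neg (by rw [map_neg]; linarith)
  rw [h2, map_neg] at h1
  have hidx : 0 < idx (-Finsupp.single v₀ m) := by
    have h3 : (0 : ℤ) ≤ genusFF K F := Int.natCast_nonneg _
    have : (0 : ℤ) < idx (-Finsupp.single v₀ m) := by
      push_cast at h1
      linarith
    exact_mod_cast this
  rw [← finrank_Om hγ] at hidx
  have hfin := finite_Om hγ (-Finsupp.single v₀ m)
  obtain ⟨⟨ω, hω⟩, hω0⟩ := (Module.finrank_pos_iff_exists_ne_zero (R := K)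
    (M := ↥(Om (-Finsupp.single v₀ m)))).mp hidx
  exact ⟨ω, _, fun h => hω0 (Subtype.ext h), mem_Om_iff.mp hω⟩

/-- **Duality**: `f ↦ f • ω` is an isomorphism `L(W - D) ≃ Ω(D)`. -/
theorem canonicalMap_bijective {ω : Module.Dual K (repartitions K F)} (hne : ω ≠ 0)
    {W : Divisor K F} (hW : ∀ D, Vanishes ω D ↔ D ≤ W) (D : Divisor K F) :
    Function.Bijective (canonicalMap ω D ((hW W).mpr le_rfl)) := by
  have hWv : Vanishes ω W := (hW W).mpr le_rfl
  refine ⟨fun _ _ h => Subtype.ext (smulW_injective hne (congrArg Subtype.val h)), ?_⟩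
  rintro ⟨η, hη⟩
  have hη' := mem_Om_iff.mp hη
  obtain ⟨f, rfl⟩ := exists_eq_smulW hγ hWv hne hη'
  by_cases hf : f = 0
  · exact ⟨0, by subst hf; apply Subtype.ext; simp⟩
  · have hle : D ≤ W + divOf (K := K) f := (vanishes_smulW_iff_le hW hf D).mp hη'
    exact ⟨⟨f, (mem_riemannRochSpace_sub_iff hf).mpr hle⟩, Subtype.ext rfl⟩

/-- **The duality theorem**: there is a (canonical) divisor `W` with `i(D) = l(W - D)` for all
divisors `D`. -/
theorem exists_canonical : ∃ W : Divisor K F, ∀ D : Divisor K F,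
    finrank K (H1 D) = ell (W - D) := by
  obtain ⟨ω, D₀, hne, h₀⟩ := exists_ne_zero_vanishes hγ
  obtain ⟨W, hW⟩ := exists_divisor hγ hne h₀
  refine ⟨W, fun D => ?_⟩
  have e := LinearEquiv.ofBijective _ (canonicalMap_bijective hγ hne hW D)
  have h1 : finrank K (Om D) = idx D := finrank_Om hγ D
  rw [← e.finrank_eq] at h1
  exact h1.symm

/-- **The Riemann-Roch theorem** (abstract form): if `deg D - l(D)` is bounded, there is a
divisor `W` with `i(D) = l(W - D)`, `l(D) = deg D + l(0) - g + l(W - D)`, `l(W) = g` and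
`deg W = 2g - 2 l(0)`. -/
theorem exists_riemannRoch : ∃ W : Divisor K F,
    (∀ D : Divisor K F, finrank K (H1 D) = ell (W - D)) ∧
    (∀ D : Divisor K F, (ell D : ℤ) =
      Divisor.degree D + ell (0 : Divisor K F) - genusFF K F + ell (W - D)) ∧
    ell W = genusFF K F ∧
    Divisor.degree W = 2 * (genusFF K F : ℤ) - 2 * ell (0 : Divisor K F) := by
  obtain ⟨W, hW⟩ := exists_canonical hγ
  exact ⟨W, hW, riemannRoch hγ hW, ell_canonical hγ hW, degree_canonical hγ hW⟩

end weil

end Fermat.Agent.Lib.RiemannRoch
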